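import Fermat.Agent.IsogenyDescent.Translate

/-!
# Vélu sums near the origin

For integral kernel points (`IntPoints`) and `v u > 1`, the correction terms `veluR`, `veluS` of
the translation sums are small (`uR_le`, `u2S_le`, `R_lt`), and `relation_le` bounds the defect of
the image equation there.
-/

set_option autoImplicit false
set_option linter.unusedSectionVars false

namespace FLTAgent.IsogenyDescent

open WeierstrassCurve WeierstrassCurve.Affine WeierstrassCurve.Affine.Point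
open FLTAgent.FreyUnramified

variable {F : Type*} [Field F] [DecidableEq F] {W : WeierstrassCurve.Affine F} {A B : F}
  {Γ₀ : Type*} [LinearOrderedCommGroupWithZero Γ₀] {v : Valuation F Γ₀}

section Elementary

lemma val_add_le' {x y : F} (hx : v x ≤ 1) (hy : v y ≤ 1) : v (x + y) ≤ 1 := v.map_add_le hx hy

lemma val_sub_le' {x y : F} (hx : v x ≤ 1) (hy : v y ≤ 1) : v (x - y) ≤ 1 := v.map_sub_le hx hy

lemma val_mul_le' {x y : F} (hx : v x ≤ 1) (hy : v y ≤ 1) : v (x * y) ≤ 1 :=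
  val_mul_le_of_le_one hx hy

lemma val_pow_le' {x : F} (hx : v x ≤ 1) (n : ℕ) : v (x ^ n) ≤ 1 := by
  rw [map_pow]; exact pow_le_one₀ zero_le hx

lemma val_natCast_le' (n : ℕ) : v (n : F) ≤ 1 := by
  induction n with
  | zero => simp
  | succ n ih => push_cast; exact val_add_le' ih (by simp)

lemma val_ofNat_le' (n : ℕ) [n.AtLeastTwo] : v (OfNat.ofNat n : F) ≤ 1 := by
  rw [← Nat.cast_ofNat]; exact val_natCast_le' n

lemma val_sum_le' {α : Type*} {s : Finset α} {f : α → F} (h : ∀ x ∈ s, v (f x) ≤ 1) :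
    v (∑ x ∈ s, f x) ≤ 1 := v.map_sum_le h

lemma dF_le (hc : IntCoeff v A B) {u : F} (hu : v u ≤ 1) : v (dF A B u) ≤ 1 :=
  val_add_le' (val_add_le' (val_mul_le' (val_ofNat_le' 3) (val_pow_le' hu 2))
    (val_mul_le' (val_mul_le' (val_ofNat_le' 2) hc.a₂_le) hu))
    (by rw [v.map_neg]; exact val_mul_le' hc.hA hc.hB)

/-- For `|u| > 1` and `|q| ≤ 1` the difference `u - q` has the size of `u`. -/
lemma val_sub_eq_of_one_lt {u q : F} (hu : 1 < v u) (hq : v q ≤ 1) : v (u - q) = v u :=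
  v.map_sub_eq_of_lt_left (hq.trans_lt hu)

lemma val_div_self_eq {u q : F} (hu : 1 < v u) (hq : v q ≤ 1) : v (u / (u - q)) = 1 := by
  rw [map_div₀, val_sub_eq_of_one_lt hu hq, div_self (zero_lt_one.trans hu).ne']

lemma val_div_le {u q : F} (hu : 1 < v u) (hq : v q ≤ 1) : v (q / (u - q)) ≤ 1 := by
  rw [map_div₀, val_sub_eq_of_one_lt hu hq, div_le_one₀ (zero_lt_one.trans hu)]
  exact hq.trans hu.le

lemma val_div_lt_of_le {u z : F} (hu : 1 < v u) (hz : v z ≤ 1) : v (z / u) < 1 := by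
  rw [map_div₀, div_lt_one₀ (zero_lt_one.trans hu)]
  exact hz.trans_lt hu

end Elementary

variable {M : Type*} [AddCommGroup M] [Fintype M] [DecidableEq M] {ι : M →+ W.Point}

/-- The points of the group are integral. -/
def IntPoints (v : Valuation F Γ₀) (ι : M →+ W.Point) : Prop :=
  ∀ x : M, x ≠ 0 → v (uOf (ι x)) ≤ 1 ∧ v (yOf (ι x)) ≤ 1

variable (hc : IntCoeff v A B) (hM : IntPoints v ι)
include hc hM

lemma weight_le {x : M} (hx : x ∈ Finset.univ.erase (0 : M)) :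
    v (2 * yOf (ι x) ^ 2) ≤ 1 :=
  val_mul_le' hc.h2.le (val_pow_le' (hM x (Finset.mem_erase.mp hx).1).2 2)

lemma veluT_le : v (veluT A B ι) ≤ 1 :=
  val_sum_le' fun x hx => dF_le hc (hM x (Finset.mem_erase.mp hx).1).1

/-- `u R(u) = T + O(1/u)`, precisely. -/
lemma uR_sub_T_mul_u_le {u : F} (hu : 1 < v u) :
    v (u * (u * veluR A B ι u - veluT A B ι)) ≤ 1 := by
  simp only [veluR, veluT, Finset.mul_sum, ← Finset.sum_sub_distrib]
  refine val_sum_le' fun x hx => ?_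
  obtain ⟨hq, -⟩ := hM x (Finset.mem_erase.mp hx).1
  have hd : u - uOf (ι x) ≠ 0 := by
    intro h0
    have := val_sub_eq_of_one_lt hu hq
    rw [h0, _root_.map_zero] at this
    exact absurd this.symm (zero_lt_one.trans hu).ne'
  rw [show u * (u * (dF A B (uOf (ι x)) / (u - uOf (ι x)) + 2 * yOf (ι x) ^ 2 /
      (u - uOf (ι x)) ^ 2) - dF A B (uOf (ι x))) =
    dF A B (uOf (ι x)) * uOf (ι x) * (u / (u - uOf (ι x))) +
      2 * yOf (ι x) ^ 2 * (u / (u - uOf (ι x))) ^ 2 by field_simp; ring]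
  exact val_add_le' (val_mul_le' (val_mul_le' (dF_le hc hq) hq) (val_div_self_eq hu hq).le)
    (val_mul_le' (weight_le hc hM hx) (val_pow_le' (val_div_self_eq hu hq).le 2))

/-- `u² S(u) = T + O(1/u)`, precisely. -/
lemma u2S_sub_T_mul_u_le {u : F} (hu : 1 < v u) :
    v (u * (u ^ 2 * veluS A B ι u - veluT A B ι)) ≤ 1 := by
  simp only [veluS, veluT, Finset.mul_sum, ← Finset.sum_sub_distrib]
  refine val_sum_le' fun x hx => ?_
  obtain ⟨hq, -⟩ := hM x (Finset.mem_erase.mp hx).1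
  have hd : u - uOf (ι x) ≠ 0 := by
    intro h0
    have := val_sub_eq_of_one_lt hu hq
    rw [h0, _root_.map_zero] at this
    exact absurd this.symm (zero_lt_one.trans hu).ne'
  rw [show u * (u ^ 2 * (dF A B (uOf (ι x)) / (u - uOf (ι x)) ^ 2 +
      2 * (2 * yOf (ι x) ^ 2) / (u - uOf (ι x)) ^ 3) - dF A B (uOf (ι x))) =
    dF A B (uOf (ι x)) * ((u / (u - uOf (ι x))) * uOf (ι x) *
      (2 * (u / (u - uOf (ι x))) - uOf (ι x) / (u - uOf (ι x)))) +
      2 * (2 * yOf (ι x) ^ 2) * (u / (u - uOf (ι x))) ^ 3 by field_simp; ring]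
  exact val_add_le' (val_mul_le' (dF_le hc hq)
      (val_mul_le' (val_mul_le' (val_div_self_eq hu hq).le hq)
        (val_sub_le' (val_mul_le' hc.h2.le (val_div_self_eq hu hq).le) (val_div_le hu hq))))
    (val_mul_le' (val_mul_le' hc.h2.le (weight_le hc hM hx))
      (val_pow_le' (val_div_self_eq hu hq).le 3))

omit hM in
lemma le_one_of_mul_u_sub_le {u z T : F} (hu : 1 < v u) (hT : v T ≤ 1)
    (h : v (u * (z - T)) ≤ 1) : v z ≤ 1 := by
  have hu0 : u ≠ 0 := v.ne_zero_iff.mp (zero_lt_one.trans hu).ne'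
  rw [show z = u * (z - T) / u + T by rw [mul_div_cancel_left₀ _ hu0]; ring]
  exact val_add_le' (val_div_lt_of_le hu h).le hT

lemma uR_le {u : F} (hu : 1 < v u) : v (u * veluR A B ι u) ≤ 1 :=
  le_one_of_mul_u_sub_le hc hu (veluT_le hc hM) (uR_sub_T_mul_u_le hc hM hu)

lemma u2S_le {u : F} (hu : 1 < v u) : v (u ^ 2 * veluS A B ι u) ≤ 1 :=
  le_one_of_mul_u_sub_le hc hu (veluT_le hc hM) (u2S_sub_T_mul_u_le hc hM hu)

lemma R_lt {u : F} (hu : 1 < v u) : v (veluR A B ι u) < 1 := by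
  have hu0 : u ≠ 0 := v.ne_zero_iff.mp (zero_lt_one.trans hu).ne'
  rw [show veluR A B ι u = u * veluR A B ι u / u by rw [mul_div_cancel_left₀ _ hu0]]
  exact val_div_lt_of_le hu (uR_le hc hM hu)

/-- The expression `Y² - (X³ + (B - A) X² + A₄ X)` is bounded at the origin. -/
lemma relation_le {u y : F} (hu : 1 < v u) (hy : y ^ 2 = u * (u - A) * (u + B)) :
    v ((y * (1 - veluS A B ι u)) ^ 2 - ((u + veluR A B ι u) ^ 3 +
      (B - A) * (u + veluR A B ι u) ^ 2 +
      (-(A * B) - 5 * veluT A B ι) * (u + veluR A B ι u))) ≤ 1 := by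
  have hu0 : u ≠ 0 := v.ne_zero_iff.mp (zero_lt_one.trans hu).ne'
  have hP := uR_sub_T_mul_u_le hc hM hu
  have hQ := u2S_sub_T_mul_u_le hc hM hu
  have hσ := u2S_le hc hM hu
  have hρ := uR_le hc hM hu
  have hR := (R_lt hc hM hu).le
  have hT := veluT_le hc hM
  generalize veluR A B ι u = R at *
  generalize veluS A B ι u = S at *
  generalize veluT A B ι = T at *
  have ha4 : v (-(A * B)) ≤ 1 := by rw [v.map_neg]; exact val_mul_le' hc.hA hc.hB
  have hinv : v (1 / u) ≤ 1 := (val_div_lt_of_le hu (by simp)).le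
  rw [show (y * (1 - S)) ^ 2 - ((u + R) ^ 3 + (B - A) * (u + R) ^ 2 +
      (-(A * B) - 5 * T) * (u + R)) =
    -(2 * (u * (u ^ 2 * S - T))) - 3 * (u * (u * R - T)) - 2 * (B - A) * (u ^ 2 * S)
      - 2 * -(A * B) * ((u ^ 2 * S) * (1 / u))
      + (1 / u + (B - A) * (1 / u) ^ 2 + -(A * B) * (1 / u) ^ 3) * (u ^ 2 * S) ^ 2
      - 3 * ((u * R) ^ 2 * (1 / u)) - R ^ 3 - 2 * (B - A) * (u * R) - (B - A) * R ^ 2
      - (-(A * B) - 5 * T) * R by
    field_simp
    linear_combination (1 - S) ^ 2 * hy]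
  have h2 := hc.h2.le
  have h3 : v (3 : F) ≤ 1 := val_ofNat_le' 3
  have ha2 := hc.a₂_le
  refine val_sub_le' (val_sub_le' (val_sub_le' (val_sub_le' (val_sub_le' (val_add_le'
    (val_sub_le' (val_sub_le' (val_sub_le' ?_ ?_) ?_) ?_) ?_) ?_) ?_) ?_) ?_) ?_
  · rw [v.map_neg]; exact val_mul_le' h2 hQ
  · exact val_mul_le' h3 hP
  · exact val_mul_le' (val_mul_le' h2 ha2) hσ
  · exact val_mul_le' (val_mul_le' h2 ha4) (val_mul_le' hσ hinv)
  · exact val_mul_le' (val_add_le' (val_add_le' hinv (val_mul_le' ha2 (val_pow_le' hinv 2)))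
      (val_mul_le' ha4 (val_pow_le' hinv 3))) (val_pow_le' hσ 2)
  · exact val_mul_le' h3 (val_mul_le' (val_pow_le' hρ 2) hinv)
  · exact val_pow_le' hR 3
  · exact val_mul_le' (val_mul_le' h2 ha2) hρ
  · exact val_mul_le' ha2 (val_pow_le' hR 2)
  · exact val_mul_le' (val_sub_le' ha4 (val_mul_le' (val_ofNat_le' 5) hT)) hR

end FLTAgent.IsogenyDescent
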