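import Fermat.Prelude.Def_ExtCitation_AdmissibleExtension
import Fermat.Agent.ECReduction.FreyReducible
import Fermat.Agent.ECTorsion.DetCyclotomic

/-!
# A cofixed line in the torsion of the Frey curve

`CofixedData` is a stable line with trivial quotient action. Its character is cyclotomic
(`apply_zeta`, `dvd_sub_of_frobenius`), and at the places above `p` the line is exactly the
torsion reducing to the origin (`c_inE1`, `mem_C_of_inE1`).
-/

set_option autoImplicit false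

noncomputable section

open WeierstrassCurve WeierstrassCurve.Affine WeierstrassCurve.Affine.Point
open scoped WeierstrassCurve.Affine Pointwise

namespace FLTAgent.IsogenyDescent

open FLTAgent.ECReduction FLTAgent.Density

variable {P : FreyPackage}

/-- A cofixed line of the Frey curve. -/
structure CofixedData (P : FreyPackage) where
  N : Submodule (ZMod P.p) (FT P)
  stable : IsGaloisStable ℚ N
  ne_bot : N ≠ ⊥
  ne_top : N ≠ ⊤
  cof : ∀ σ : GalQ, ∀ x : FT P, σ • x - x ∈ N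

theorem nonempty_cofixedData
    (h : HasGaloisStableCofixedLine (K := AlgebraicClosure ℚ) ℚ P.freyCurve P.p) :
    Nonempty (CofixedData P) := by
  obtain ⟨N, h1, h2, h3, h4⟩ := h
  exact ⟨⟨N, h1, h2, h3, h4⟩⟩

/-- If `(a - 1) • g` lies in a subgroup and `a - 1` is prime to the order of `g`, so does `g`. -/
theorem mem_of_sub_one_smul_mem {G : Type*} [AddCommGroup G] {H : AddSubgroup G} {g : G} {p : ℕ}
    (hp : p.Prime) {n : ℕ} (hg : p ^ n • g = 0) {b : ℤ} (hb : ¬ (p : ℤ) ∣ b) (h : b • g ∈ H) :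
    g ∈ H := by
  obtain ⟨u, w, huw⟩ : IsCoprime b ((p : ℤ) ^ n) :=
    (((Nat.prime_iff_prime_int.mp hp).coprime_iff_not_dvd).mpr hb).symm.pow_right
  have e : g = u • (b • g) := by
    conv_lhs => rw [← one_zsmul g, ← huw, add_zsmul, mul_zsmul, mul_zsmul,
      show ((p : ℤ) ^ n) • g = 0 by rw [← Nat.cast_pow, natCast_zsmul, hg], zsmul_zero, add_zero]
  rw [e]
  exact zsmul_mem h u

theorem smul_zsmul_eq (σ : GalQ) (k : ℤ) (x : FPt P) : σ • (k • x) = k • (σ • x) :=
  algEquiv_smul_zsmul σ k x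

/-- The torsion point as an element of the torsion submodule. -/
def toFT (x : FPt P) (h : P.p • x = 0) : FT P :=
  ⟨x, (Submodule.mem_torsionBy_iff _ _).2 (by rw [natCast_zsmul]; exact h)⟩

namespace CofixedData

variable (L : CofixedData P)

/-- The points of the line. -/
def C : AddSubgroup (FPt P) := L.N.toAddSubgroup.map (FT P).subtype.toAddMonoidHom

theorem coe_mem_C {y : FT P} : (y : FPt P) ∈ L.C ↔ y ∈ L.N :=
  ⟨fun ⟨z, hz, e⟩ => by rwa [← show z = y from Subtype.ext e], fun h => ⟨y, h, rfl⟩⟩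

theorem nsmul_eq_zero {x : FPt P} (hx : x ∈ L.C) : P.p • x = 0 := by
  obtain ⟨y, -, rfl⟩ := hx
  exact nsmul_coe y

theorem sub_mem_C (σ : GalQ) {x : FPt P} (hx : P.p • x = 0) : σ • x - x ∈ L.C :=
  ⟨_, L.cof σ (toFT x hx), rfl⟩

theorem smul_mem_C (σ : GalQ) {x : FPt P} (hx : x ∈ L.C) : σ • x ∈ L.C := by
  obtain ⟨y, hy, rfl⟩ := hx
  exact ⟨σ • y, L.stable σ y hy, rfl⟩

theorem exists_gen : ∃ c : FPt P, c ≠ 0 ∧ L.C = AddSubgroup.zmultiples c := by
  have : Fact P.p.Prime := ⟨P.pp⟩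
  obtain ⟨y, hy, hy0⟩ := Submodule.exists_mem_ne_zero_of_ne_bot L.ne_bot
  refine ⟨y, fun h => hy0 (Subtype.ext h), le_antisymm ?_ ?_⟩
  · rintro x ⟨z, hz, rfl⟩
    obtain ⟨r, hr⟩ := Submodule.mem_span_singleton.1
      (line_le_of_mem L.ne_bot L.ne_top (Submodule.span (ZMod P.p) {y}) hy hy0
        (Submodule.mem_span_singleton_self y) hz)
    obtain ⟨k, rfl⟩ := ZMod.intCast_surjective r
    rw [Int.cast_smul_eq_zsmul] at hr
    exact ⟨k, by rw [← hr]; rfl⟩
  · rw [AddSubgroup.zmultiples_le]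
    exact L.coe_mem_C.2 hy

/-- A generator of the line. -/
def c : FPt P := L.exists_gen.choose

theorem c_ne_zero : L.c ≠ 0 := L.exists_gen.choose_spec.1

theorem C_eq : L.C = AddSubgroup.zmultiples L.c := L.exists_gen.choose_spec.2

theorem c_mem : L.c ∈ L.C := L.C_eq ▸ AddSubgroup.mem_zmultiples L.c

theorem nsmul_c : P.p • L.c = 0 := L.nsmul_eq_zero L.c_mem

theorem zsmul_c_eq_zero_iff {k : ℤ} : k • L.c = 0 ↔ (P.p : ℤ) ∣ k := by
  have : Fact P.p.Prime := ⟨P.pp⟩
  rw [← addOrderOf_dvd_iff_zsmul_eq_zero, addOrderOf_eq_prime L.nsmul_c L.c_ne_zero]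

theorem exists_not_mem : ∃ e : FPt P, P.p • e = 0 ∧ e ∉ L.C := by
  have : Fact P.p.Prime := ⟨P.pp⟩
  obtain ⟨y, -, hy⟩ := SetLike.exists_of_lt (lt_top_iff_ne_top.2 L.ne_top)
  exact ⟨y, nsmul_coe y, fun h => hy (L.coe_mem_C.1 h)⟩

/-- An element of the Galois group multiplies the line by a scalar. -/
theorem exists_mul (σ : GalQ) : ∃ a : ℤ, σ • L.c = a • L.c := by
  have h := L.smul_mem_C σ L.c_mem
  rw [C_eq] at h
  obtain ⟨a, ha⟩ := h
  exact ⟨a, ha.symm⟩

/-- The determinant is the character of the line. -/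
theorem galoisRepDet_eq [Fact P.p.Prime] {σ : GalQ} {a : ℤ} (ha : σ • L.c = a • L.c) :
    (galoisRepDet (S := ℚ) (K := Qbar) P.freyCurve.toAffine P.p σ : ZMod P.p) = a := by
  obtain ⟨e, he, hne⟩ := L.exists_not_mem
  set v : Fin 2 → FT P := ![toFT L.c L.nsmul_c, toFT e he] with hv
  have hli : LinearIndependent (ZMod P.p) v := by
    rw [LinearIndependent.pair_iff' (fun h => L.c_ne_zero (congrArg Subtype.val h))]
    intro r h
    obtain ⟨k, rfl⟩ := ZMod.intCast_surjective r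
    rw [Int.cast_smul_eq_zsmul] at h
    exact hne (by rw [← show k • L.c = e from congrArg Subtype.val h, L.C_eq]; exact ⟨k, rfl⟩)
  let b := basisOfLinearIndependentOfCardEqFinrank hli (by rw [finrank_eq_two]; simp)
  have hb : ∀ i, b i = v i := fun i => by simp [b]
  obtain ⟨k, hk⟩ : ∃ k : ℤ, σ • e = e + k • L.c := by
    have h := L.sub_mem_C σ he
    rw [C_eq] at h
    obtain ⟨k, hk⟩ := h
    exact ⟨k, by simp only at hk; rw [hk]; abel⟩
  set f := (galoisRep (S := ℚ) (K := Qbar) P.freyCurve.toAffine P.p σ).toLinearMap with hf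
  have hfb : ∀ i, f (b i) = σ • b i := fun i => rfl
  have h0 : f (b 0) = (a : ZMod P.p) • b 0 := by
    rw [hfb, hb, Int.cast_smul_eq_zsmul]
    exact Subtype.ext ha
  have h1 : f (b 1) = b 1 + (k : ZMod P.p) • b 0 := by
    rw [hfb, hb, hb, Int.cast_smul_eq_zsmul]
    exact Subtype.ext hk
  rw [galoisRepDet_apply, LinearEquiv.coe_det]
  change LinearMap.det f = _
  rw [← LinearMap.det_toMatrix b f, Matrix.det_fin_two]
  simp [LinearMap.toMatrix_apply, h0, h1]

/-- The roots of unity of order `p` see the character of the line. -/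
theorem apply_zeta {σ : GalQ} {a : ℤ} (ha : σ • L.c = a • L.c) {ζ : Qbar} (hζ : ζ ^ P.p = 1) :
    σ ζ = ζ ^ a := by
  have : Fact P.p.Prime := ⟨P.pp⟩
  have : (P.freyCurve⁄Qbar).IsElliptic := frey_isElliptic
  rw [ECTorsion.algEquiv_apply_eq_pow_galoisRepDet P.freyCurve.toAffine
    (Nat.cast_ne_zero.2 P.hp0) σ hζ, L.galoisRepDet_eq ha, ← zpow_natCast, ZMod.val_intCast]
  conv_rhs => rw [← Int.emod_add_mul_ediv a P.p]
  rw [zpow_add₀ (fun h => by simp [h, zero_pow P.hp0] at hζ), zpow_mul, zpow_natCast, hζ,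
    one_zpow, mul_one]

theorem cycloExp_eq [Fact P.p.Prime] {σ : GalQ} {a : ℤ} (ha : σ • L.c = a • L.c) :
    (ExtCitation.cycloExp P.p σ : ZMod P.p) = a := by
  have : (P.freyCurve⁄Qbar).IsElliptic := frey_isElliptic
  rw [← L.galoisRepDet_eq ha, ExtCitation.cycloExp, ZMod.natCast_zmod_val,
    ECTorsion.galoisRepDetEqCyclotomic P.freyCurve.toAffine (Nat.cast_ne_zero.2 P.hp0)
      (ExtCitation.card_rootsOfUnity_eq_self P.p) σ]

/-- A Frobenius element at a prime `q ≠ p` multiplies the line by `q`. -/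
theorem dvd_sub_of_frobenius {q : ℕ} (hq : q.Prime) (hqp : q ≠ P.p) {A : ValuationSubring Qbar}
    (hA : A.LiesOverPrime q) {σ : GalQ} (hσ : A.IsFrobeniusAt σ q) {a : ℤ}
    (ha : σ • L.c = a • L.c) : (P.p : ℤ) ∣ a - q := by
  have : NeZero P.p := ⟨P.hp0⟩
  have : NeZero (P.p : Qbar) := ⟨Nat.cast_ne_zero.2 P.hp0⟩
  obtain ⟨ζ, hζ⟩ := IsAlgClosed.exists_root (Polynomial.cyclotomic P.p Qbar) (by
    rw [Polynomial.degree_cyclotomic, Nat.totient_prime P.pp]
    have := P.hp5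
    exact_mod_cast (by omega : P.p - 1 ≠ 0))
  rw [Polynomial.isRoot_cyclotomic_iff] at hζ
  have h := L.apply_zeta ha hζ.pow_eq_one
  rw [isFrobeniusAt_apply_of_pow_eq_one hq hA hσ (m := P.p)
      (fun hd => hqp ((Nat.prime_dvd_prime_iff_eq hq P.pp).1 hd)) hζ.pow_eq_one,
    ← zpow_natCast] at h
  refine dvd_sub_comm.1 ((hζ.zpow_eq_one_iff_dvd _).1 ?_)
  rw [zpow_sub₀ (hζ.ne_zero P.hp0), h, div_self (zpow_ne_zero _ (hζ.ne_zero P.hp0))]

/-- At a place above `p` some inertia element moves the line. -/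
theorem exists_inertia_ne {A : ValuationSubring Qbar} (hA : A.LiesOverPrime P.p) :
    ∃ σ ∈ A.inertiaSubgroupIn ℚ, σ • L.c ≠ L.c := by
  have : Fact P.p.Prime := ⟨P.pp⟩
  by_contra hc
  push Not at hc
  have hmem : ∀ σ : GalQ, σ • L.c = L.c → σ ∈ epsKer L.N := by
    intro σ hσ x hx
    have h : (x : FPt P) ∈ L.C := L.coe_mem_C.2 hx
    rw [C_eq] at h
    obtain ⟨k, hk⟩ := h
    refine Subtype.ext ?_
    rw [coe_smul, ← hk]
    exact (smul_zsmul_eq σ k L.c).trans (by rw [hσ])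
  have htop : epsKer L.N = ⊤ := by
    refine eq_top_of_inertia_le _ (isOpen_of_trivial_le _ fun τ hτ y _ => hτ y) ?_
    intro q hq B hB τ hτ
    rcases eq_or_ne q P.p with rfl | hqp
    · obtain ⟨g, rfl⟩ := exists_smul_eq_of_liesOverPrime P.pp hA hB
      have h1 := mem_inertiaSubgroupIn_smul hτ g⁻¹
      rw [inv_smul_smul, inv_inv] at h1
      simpa [mul_assoc] using (epsKer_normal L.stable).conj_mem _ (hmem _ (hc _ h1)) g
    rcases eq_or_ne q 2 with rfl | hq2
    · exact (inertia_two L.stable L.ne_bot L.ne_top hB hτ).1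
    · exact fun y _ => FreyUnramified.freyCurve_galoisRepUnramifiedAt P hq hq2 hqp B hB τ hτ y
  obtain ⟨τ, hτ⟩ := exists_smul_ne (toFT L.c L.nsmul_c) fun h =>
    L.c_ne_zero (congrArg Subtype.val h)
  exact hτ ((show τ ∈ epsKer L.N by rw [htop]; trivial) _ (L.coe_mem_C.1 L.c_mem))

/-- The scalar of an element moving the line is not congruent to one. -/
theorem not_dvd_sub_one {σ : GalQ} (hσ : σ • L.c ≠ L.c) {a : ℤ} (ha : σ • L.c = a • L.c) :
    ¬ (P.p : ℤ) ∣ a - 1 := fun h => hσ (by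
  rw [ha, ← sub_add_cancel a 1, add_zsmul, L.zsmul_c_eq_zero_iff.2 h, zero_add, one_zsmul])

/-- A point whose multiples carry the character of the line reduces to the origin above `p`. -/
theorem inE1_of_mul {A : ValuationSubring Qbar} (hA : A.LiesOverPrime P.p) {n : ℕ} {g : FPt P}
    (hg : P.p ^ n • g = 0)
    (hmul : ∀ σ : GalQ, ∃ a : ℤ, σ • g = a • g ∧ σ • L.c = a • L.c) :
    InE1 A (FE P) g := by
  have : Fact P.p.Prime := ⟨P.pp⟩
  obtain ⟨σ, hσ, hne⟩ := L.exists_inertia_ne hA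
  have hi := inertiaElt_of_mem hσ
  obtain ⟨a, ha, hac⟩ := hmul σ
  have hdvd := L.not_dvd_sub_one hne hac
  have e : σ • g - g = (a - 1) • g := by rw [ha, sub_zsmul, one_zsmul, sub_eq_add_neg]
  have hW : IntAt A (FE P) := intAt_frey
  have hE0 : InE0 A (FE P) g := by
    refine mem_E0.1 (mem_of_sub_one_smul_mem (H := E0 hW) P.pp hg hdvd ?_)
    rw [← e, mem_E0]
    rcases good_or_node (P := P) P.pp (by have := P.hp5; omega) hA with hgood | ⟨⟨nd⟩⟩
    · rcases σ • g - g with _ | ⟨x, y, h⟩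
      · exact trivial
      · exact hgood x y h.1
    · exact smul_sub_inE0 (W₀ := P.freyCurve.toAffine) hW nd hi P.hp_odd.pow hg
  refine mem_E1.1 (mem_of_sub_one_smul_mem (H := E1 hW) P.pp hg hdvd ?_)
  rw [← e, mem_E1]
  rcases g with _ | ⟨x, y, h⟩
  · exact trivial
  by_cases hx : A.valuation x ≤ 1
  · rcases smul_sub_of_inE0 (W₀ := P.freyCurve.toAffine) hW hi (h := h) hE0 hx with
      h0 | ⟨a', b', h', e', hbig⟩
    · rw [h0]; exact trivial
    · rw [e']; exact hbig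
  · rw [not_le] at hx
    rw [sub_eq_add_neg]
    refine InE1.add hW ?_ (InE1.neg (inE1_some.2 hx))
    rw [smul_some, inE1_some, hi.val_map]; exact hx

theorem c_inE1 {A : ValuationSubring Qbar} (hA : A.LiesOverPrime P.p) : InE1 A (FE P) L.c :=
  L.inE1_of_mul hA (n := 1) (by rw [pow_one]; exact L.nsmul_c) fun σ => by
    obtain ⟨a, ha⟩ := L.exists_mul σ
    exact ⟨a, ha, ha⟩

/-- The torsion reducing to the origin above `p` lies on the line. -/
theorem mem_C_of_inE1 {A : ValuationSubring Qbar} (hA : A.LiesOverPrime P.p) {x : FPt P}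
    (hx : P.p • x = 0) (h1 : InE1 A (FE P) x) : x ∈ L.C := by
  have : Fact P.p.Prime := ⟨P.pp⟩
  exact ⟨toFT x hx, mem_line_of_mem_torE1 L.stable L.ne_bot L.ne_top hA
    (y := toFT L.c L.nsmul_c) (L.coe_mem_C.1 L.c_mem)
    (fun h => L.c_ne_zero (congrArg Subtype.val h)) (mem_torE1.2 (L.c_inE1 hA))
    (mem_torE1.2 h1), rfl⟩

end CofixedData

end FLTAgent.IsogenyDescent
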