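import Fermat.Agent.IsogenyDescent.Local
import Fermat.Agent.IsogenyDescent.Line

/-!
# The Frey curve at its bad places

`IsLabel` is a two-torsion model `uModel` adapted to a place (`exists_label`). The file locates the
nonsingular-reduction locus at bad places, in particular at `2` and `3` (`inE0_two_iff`,
`inE0_of_small`, `three_dvd`).
-/

set_option autoImplicit false

noncomputable section

open WeierstrassCurve WeierstrassCurve.Affine WeierstrassCurve.Affine.Point
open scoped WeierstrassCurve.Affine Pointwise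

namespace FLTAgent.IsogenyDescent

open FLTAgent.ECReduction FLTAgent.Density FLTAgent.FreyUnramified

/-- The two-torsion model `Y² = u (u - a) (u + b)` over `ℚbar`. -/
def uModel (a b : Qbar) : WeierstrassCurve.Affine Qbar := ⟨0, b - a, 0, -(a * b), 0⟩

variable (P : FreyPackage)

/-- The three labellings of the roots of the Frey cubic. -/
def IsLabel (a b r : ℤ) : Prop :=
  (r = 0 ∧ a = P.a ^ P.p ∧ b = P.b ^ P.p) ∨ (r = 0 ∧ a = -P.b ^ P.p ∧ b = -P.a ^ P.p) ∨
    (r = P.a ^ P.p ∧ a = -P.c ^ P.p ∧ b = P.a ^ P.p)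

variable {P}

theorem IsLabel.ne {a b r : ℤ} (h : IsLabel P a b r) : a ≠ 0 ∧ b ≠ 0 ∧ a + b ≠ 0 := by
  have hf := P.hFLT
  have ha := pow_ne_zero P.p P.ha0
  have hb := pow_ne_zero P.p P.hb0
  have hc := pow_ne_zero P.p P.hc0
  rcases h with ⟨-, rfl, rfl⟩ | ⟨-, rfl, rfl⟩ | ⟨-, rfl, rfl⟩ <;> refine ⟨?_, ?_, ?_⟩ <;> omega

/-- Each label is a change of coordinates of the Frey curve. -/
theorem IsLabel.isShift {a b r : ℤ} (h : IsLabel P a b r) :
    IsShift (FE P).toAffine (uModel a b) (a : Qbar) (b : Qbar) (r : Qbar) := by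
  obtain ⟨ha, hb, hab⟩ := h.ne
  obtain ⟨a₂, h₂⟩ := exists_a₂ P
  obtain ⟨a₄, h₄⟩ := exists_a₄ P
  obtain ⟨c₁, c₂, c₃, c₄, c₆⟩ := coeffs_eq h₂ h₄
  have hf := congrArg (Int.cast : ℤ → Qbar) P.hFLT
  have e₂ := congrArg (Int.cast : ℤ → Qbar) h₂
  have e₄ := congrArg (Int.cast : ℤ → Qbar) h₄
  push_cast at hf e₂ e₄
  refine ⟨⟨rfl, rfl, rfl, rfl, rfl, two_ne_zero, Int.cast_ne_zero.2 ha, Int.cast_ne_zero.2 hb,
    by exact_mod_cast hab⟩, c₁, c₃, c₆, ?_, ?_, ?_⟩ <;> simp only [c₂, c₄, e₂, e₄] <;>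
    rcases h with ⟨rfl, rfl, rfl⟩ | ⟨rfl, rfl, rfl⟩ | ⟨rfl, rfl, rfl⟩ <;> push_cast <;>
    first
      | ring1
      | linear_combination -hf
      | linear_combination (-(P.a : Qbar) ^ P.p) * hf

variable {A : ValuationSubring Qbar} {q : ℕ}

local notation "v" => A.valuation

/-- At an odd prime of bad reduction some label puts the colliding roots first. -/
theorem exists_label (hq : q.Prime) (hq2 : q ≠ 2) (hA : A.LiesOverPrime q)
    (hbad : (q : ℤ) ∣ P.a * P.b * P.c) :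
    ∃ (a b r : ℤ) (β : Qbar), IsLabel P a b r ∧ v (r : Qbar) ≤ 1 ∧
      FreyUnramified.NodeData v (a : Qbar) (b : Qbar) β := by
  have hqi := Nat.prime_iff_prime_int.mp hq
  have cop : ∀ {x y : ℤ}, gcd x y = 1 → (q : ℤ) ∣ x → ¬(q : ℤ) ∣ y := fun hg hx hy =>
    hqi.not_dvd_one (hg ▸ dvd_gcd hx hy)
  have h2 : v (2 : Qbar) = 1 := by
    have := val_nat_eq_one hq hA (n := 2) fun h =>
      hq2 ((Nat.prime_dvd_prime_iff_eq hq Nat.prime_two).1 h)
    exact_mod_cast this
  have npow : ∀ {x : ℤ}, ¬ (q : ℤ) ∣ x → ¬ (q : ℤ) ∣ x ^ P.p := fun h h' =>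
    h (hqi.dvd_of_dvd_pow h')
  suffices h : ∃ a b r : ℤ, IsLabel P a b r ∧ (q : ℤ) ∣ a ∧ ¬ (q : ℤ) ∣ b by
    obtain ⟨a, b, r, hl, ha, hb⟩ := h
    obtain ⟨β, hβ⟩ := IsAlgClosed.exists_pow_nat_eq (b : Qbar) two_pos
    refine ⟨a, b, r, β, hl, val_intCast_le A r, ⟨⟨val_intCast_le A a, val_intCast_le A b, h2⟩,
      val_int_lt hA ha, hβ, ?_⟩⟩
    refine (pow_eq_one_iff_of_nonneg zero_le two_ne_zero).1 ?_
    rw [← map_pow, hβ, val_int_eq_one hq hA hb]
  rcases hqi.dvd_or_dvd hbad with h | hc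
  · rcases hqi.dvd_or_dvd h with ha | hb
    · exact ⟨_, _, _, Or.inl ⟨rfl, rfl, rfl⟩, dvd_pow ha P.hp0, npow (cop P.hgcdab ha)⟩
    · refine ⟨_, _, _, Or.inr (Or.inl ⟨rfl, rfl, rfl⟩), dvd_neg.2 (dvd_pow hb P.hp0), fun h => ?_⟩
      exact npow (fun ha => cop P.hgcdab ha hb) (dvd_neg.1 h)
  · exact ⟨_, _, _, Or.inr (Or.inr ⟨rfl, rfl, rfl⟩), dvd_neg.2 (dvd_pow hc P.hp0),
      npow fun ha => cop P.hgcdac ha hc⟩

theorem smul_pt_add (σ : GalQ) (x y : FPt P) : σ • (x + y) = σ • x + σ • y :=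
  map_add (DistribSMul.toAddMonoidHom (P.freyCurve⁄Qbar).Point σ) x y

/-- Decomposition groups preserve nonsingular reduction. -/
theorem inE0_smul {σ : GalQ} (hσ : σ ∈ A.decompositionSubgroup ℚ) {x : FPt P}
    (hx : InE0 A (FE P) x) : InE0 A (FE P) (σ • x) := by
  rcases x with _ | ⟨a, b, h⟩
  · exact hx
  rw [smul_some, inE0_some]
  rw [inE0_some] at hx
  obtain ⟨f₁, f₂, f₃, f₄, -⟩ := fixesCoeffs (W₀ := P.freyCurve.toAffine) (K := Qbar) σ
  have eX : dX (FE P) (σ a) (σ b) = σ (dX (FE P) a b) := by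
    simp only [dX, map_sub, map_add, map_mul, map_pow, map_ofNat, f₁, f₂, f₄]
  have eY : dY (FE P) (σ a) (σ b) = σ (dY (FE P) a b) := by
    simp only [dY, map_add, map_mul, map_ofNat, f₁, f₃]
  rintro ⟨h1, h2, h3, h4⟩
  rw [eX] at h3
  rw [eY] at h4
  simp only [val_map_of_mem_decomposition hσ] at h1 h2 h3 h4
  exact hx ⟨h1, h2, h3, h4⟩

/-- At an odd prime of good reduction every point has nonsingular reduction. -/
theorem inE0_of_good (hq : q.Prime) (hq2 : q ≠ 2) (hA : A.LiesOverPrime q)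
    (hgood : ¬ (q : ℤ) ∣ P.a * P.b * P.c) (x : FPt P) : InE0 A (FE P) x := by
  rcases x with _ | ⟨x, y, h⟩
  · exact trivial
  rintro ⟨hx, -, hX, hY⟩
  have hs := IsLabel.isShift (P := P) (Or.inl ⟨rfl, rfl, rfl⟩)
  have h2 : v (2 : Qbar) = 1 := by
    have := val_nat_eq_one hq hA (n := 2) fun h =>
      hq2 ((Nat.prime_dvd_prime_iff_eq hq Nat.prime_two).1 h)
    exact_mod_cast this
  have unit : ∀ n : ℤ, (n ∣ P.a * P.b * P.c) → v ((n ^ P.p : ℤ) : Qbar) = 1 := fun n hn => by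
    push_cast
    rw [map_pow, val_int_eq_one hq hA (fun hd => hgood (hd.trans hn)), one_pow]
  have ha := unit P.a ((dvd_mul_right _ _).mul_right _)
  have hb := unit P.b ((dvd_mul_left _ _).mul_right _)
  have hab : v (((P.a ^ P.p : ℤ) : Qbar) + ((P.b ^ P.p : ℤ) : Qbar)) = 1 := by
    rw [← Int.cast_add, P.hFLT]
    exact unit P.c (dvd_mul_left _ _)
  have heq := (hs.model.equation_iff _ _).1 (hs.nonsingular h.1).1
  have eY : 8 * y + 4 * x = 4 * dY (FE P) x y := by simp only [dY]; rw [hs.a₁, hs.a₃]; ring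
  refine smooth_aux (u := 4 * x - ((0 : ℤ) : Qbar)) (Y := 8 * y + 4 * x)
    ⟨ha.le, hb.le, h2⟩ hb hab (Or.inl ha) heq
    (val_sub_le A (val_mul_le A (val_ofNat_le A 4) hx) (val_intCast_le A _)) ?_ ?_
  · rw [eY]; exact val_mul_lt_right A (val_ofNat_le A 4) hY
  · have ef : 3 * (4 * x - ((0 : ℤ) : Qbar)) ^ 2 +
        2 * (((P.b ^ P.p : ℤ) : Qbar) - ((P.a ^ P.p : ℤ) : Qbar)) * (4 * x - ((0 : ℤ) : Qbar)) +
        -(((P.a ^ P.p : ℤ) : Qbar) * ((P.b ^ P.p : ℤ) : Qbar)) =
        8 * dY (FE P) x y - 16 * dX (FE P) x y := by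
      simp only [dX, dY]
      rw [hs.a₁, hs.a₃]
      linear_combination 2 * (4 * x - ((0 : ℤ) : Qbar)) * hs.sum + hs.prod
    rw [ef]
    exact val_sub_lt A (val_mul_lt_right A (val_ofNat_le A 8) hY)
      (val_mul_lt_right A (val_ofNat_le A 16) hX)

/-- At two an integral point has nonsingular reduction exactly when its abscissa is a unit. -/
theorem inE0_two_iff (hA : A.LiesOverPrime 2) {x y : Qbar}
    {h : (FE P).toAffine.Nonsingular x y} (hx : v x ≤ 1) :
    InE0 A (FE P) (Point.some x y h) ↔ v x = 1 := by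
  obtain ⟨a₂, h₂⟩ := exists_a₂ P
  obtain ⟨a₄, h₄⟩ := exists_a₄ P
  obtain ⟨c₁, c₂, c₃, c₄, c₆⟩ := coeffs_eq h₂ h₄
  have h2v : v (2 : Qbar) < 1 := by simpa using val_prime_lt hA
  have ha4 : v (a₄ : Qbar) < 1 := by
    refine val_int_lt hA ?_
    obtain ⟨b', hb'⟩ := (ZMod.intCast_zmod_eq_zero_iff_dvd P.b 2).1 P.hb2
    have h32 : (32 : ℤ) ∣ P.b ^ P.p := by
      rw [hb', mul_pow]
      exact ((show (32 : ℤ) = ((2 : ℕ) : ℤ) ^ 5 by norm_num) ▸
        pow_dvd_pow _ P.hp5).mul_right _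
    obtain ⟨k, hk⟩ := h32
    refine ⟨-(P.a ^ P.p * k), ?_⟩
    rw [hk] at h₄
    push_cast
    linarith
  rw [inE0_some]
  have hy := val_le_of_monic_quadratic (intAt_frey (P := P) (A := A)) hx ((equation_iff ..).1 h.1)
  have hdY : v (dY (FE P) x y) < 1 ↔ v x < 1 := by
    simp only [dY, c₁, c₃, one_mul, add_zero]
    have h2y : v (2 * y) < 1 := val_mul_lt_left A h2v hy
    constructor
    · intro hlt
      rw [show x = (2 * y + x) - 2 * y by ring]
      exact val_sub_lt A hlt h2y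
    · exact fun hlt => val_add_lt A h2y hlt
  constructor
  · intro hns
    refine le_antisymm hx (not_lt.1 fun hlt => hns ⟨hx, hy, ?_, hdY.2 hlt⟩)
    have hy1 : v y < 1 := by
      have he := (equation_iff ..).1 h.1
      rw [c₁, c₂, c₃, c₄, c₆] at he
      have hprod : v (y * (y + x)) < 1 := by
        rw [show y * (y + x) = x * (x ^ 2 + (a₂ : Qbar) * x + (a₄ : Qbar)) by
          linear_combination he]
        exact val_mul_lt_left A hlt (val_add_le A (val_add_le A (val_pow_le A hx 2)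
          (val_mul_le A (val_intCast_le A _) hx)) (val_intCast_le A _))
      rcases val_lt_one_or_of_mul_lt A hprod with h' | h'
      · exact h'
      · rw [show y = (y + x) - x by ring]; exact val_sub_lt A h' hlt
    simp only [dX, c₁, c₂, c₄, one_mul]
    exact val_sub_lt A hy1 (val_add_lt A (val_add_lt A (val_mul_lt_right A (val_ofNat_le A 3)
      (val_pow_lt A hlt two_ne_zero)) (val_mul_lt_right A (val_mul_le A (val_ofNat_le A 2)
      (val_intCast_le A _)) hlt)) ha4)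
  · intro h1 hs
    exact (hdY.1 hs.2.2.2).ne h1

/-- A decomposition group acts on the components through a sign. -/
theorem smul_sub_or_add_inE0 (hq : q.Prime) (hA : A.LiesOverPrime q)
    (hbad : (q : ℤ) ∣ P.a * P.b * P.c) {σ : GalQ} (hσ : σ ∈ A.decompositionSubgroup ℚ) {m : ℕ}
    (hm : Odd m) {x : FPt P} (hmx : m • x = 0) :
    InE0 A (FE P) (σ • x - x) ∨ InE0 A (FE P) (σ • x + x) := by
  have hW : IntAt A (FE P) := intAt_frey
  by_cases hx : InE0 A (FE P) x
  · exact Or.inl ((inE0_smul hσ hx).sub hW hx)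
  have hσinv : σ⁻¹ ∈ A.decompositionSubgroup ℚ := inv_mem hσ
  have hσx : ¬ InE0 A (FE P) (σ • x) := fun h => hx (by
    have := inE0_smul hσinv h
    rwa [inv_smul_smul] at this)
  have hmσx : m • (σ • x) = 0 := by
    rw [← nsmul_smul, hmx]
    exact _root_.map_zero (DistribSMul.toAddMonoidHom (P.freyCurve⁄Qbar).Point σ)
  rcases x with _ | ⟨a, b, h⟩
  · exact absurd trivial hx
  rw [smul_some] at hσx hmσx ⊢
  rcases eq_or_ne q 2 with rfl | hq2
  · obtain ⟨nd, g, hg, -, hc, hr⟩ := node_two (P := P) hA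
    have h20 : v (2 : Qbar) < 1 := by simpa using val_prime_lt hA
    have notMid : ∀ {z : FPt P}, m • z = 0 → ¬ InE0 A (FE P) z → ¬ nd.Mid z := by
      intro z hz hnz hM
      refine hnz ?_
      obtain ⟨k, rfl⟩ := hm
      rw [add_nsmul, one_nsmul, mul_comm, mul_nsmul', two_nsmul] at hz
      rw [show z = -(k • (z + z)) from eq_neg_of_add_eq_zero_right hz]
      exact (mem_E0 (hW := hW)).1 (neg_mem (nsmul_mem (mem_E0.2 (hM.two_inE0 nd hW)) k))
    have depth : ∀ {z : FPt P} {x' y' : Qbar} {h' : (FE P).toAffine.Nonsingular x' y'} {γ},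
        (z = Point.some x' y' h' ∨ -z = Point.some x' y' h') → nd.Plus (Point.some x' y' h') γ →
        v x' = γ := by
      intro z x' y' h' γ _ hP
      have hlt := NodeData.Plus.pow_lt nd h20 hg hc hP
      obtain ⟨x'', y'', h'', e, -, hX, -⟩ := hP
      obtain ⟨rfl, rfl⟩ := Point.some.injEq .. |>.mp e
      have hlt' : v nd.r < v (nd.X x') := hX ▸ hr.trans hlt
      rw [← hX]
      conv_lhs => rw [show x' = nd.X x' + nd.r by simp [NodeData.X],
        A.valuation.map_add_eq_of_lt_left hlt']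
    have plus : ∀ {x' y' : Qbar} {h' : (FE P).toAffine.Nonsingular x' y'},
        m • (Point.some x' y' h' : FPt P) = 0 → ¬ InE0 A (FE P) (Point.some x' y' h' : FPt P) →
        nd.Plus (Point.some x' y' h' : FPt P) (v x') ∨
          nd.Plus (-(Point.some x' y' h' : FPt P)) (v x') := by
      intro x' y' h' hz hnz
      rcases nd.trichotomy hW hnz with ⟨γ, hP⟩ | ⟨γ, hP⟩ | hM
      · rw [depth (z := Point.some x' y' h') (Or.inl rfl) hP]; exact Or.inl hP
      · right
        rw [Point.neg_some] at hP ⊢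
        rw [depth (z := Point.some x' y' h') (Or.inr (Point.neg_some _)) hP]; exact hP
      · exact absurd hM (notMid hz hnz)
    have h1 := plus hmσx hσx
    have h2 := plus hmx hx
    rw [val_map_of_mem_decomposition hσ] at h1
    rcases h1 with h1 | h1 <;> rcases h2 with h2 | h2
    · exact Or.inl (NodeData.Plus.sub_inE0 nd hW h1 h2)
    · have := NodeData.Plus.sub_inE0 nd hW h1 h2
      rw [sub_neg_eq_add] at this
      exact Or.inr this
    · have := (NodeData.Plus.sub_inE0 nd hW h1 h2).neg hW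
      rw [neg_sub, sub_neg_eq_add, add_comm] at this
      exact Or.inr this
    · have := (NodeData.Plus.sub_inE0 nd hW h1 h2).neg hW
      rw [neg_sub_neg, neg_sub] at this
      exact Or.inl this
  · obtain ⟨a', b', r, β, hl, hr, hn⟩ := exists_label hq hq2 hA hbad
    have hs := hl.isShift
    have hiff : ∀ {z : FPt P}, InE0 A (FE P) z ↔
        shiftHom hs z ∈ offNode hs.model hn.toIntCoeff hn.A_lt :=
      fun {z} => inE0_iff_offNode hW hs hn hr
    have branch : ∀ {x' y' : Qbar} {h' : (FE P).toAffine.Nonsingular x' y'},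
        m • (Point.some x' y' h' : FPt P) = 0 → ¬ InE0 A (FE P) (Point.some x' y' h' : FPt P) →
        OnBranch v β (v (4 * x' - r)) (shiftHom hs (Point.some x' y' h')) ∨
          OnBranch v β (v (4 * x' - r)) (-shiftHom hs (Point.some x' y' h')) := by
      intro x' y' h' hz hnz
      rw [hiff, shiftHom_some, mem_offNode, not_le] at hnz
      have hz' := congrArg (shiftHom hs) hz
      rw [map_nsmul, shiftHom_some, _root_.map_zero] at hz'
      rw [shiftHom_some]
      exact exists_onBranch_or_neg hs.model hn _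
        (val_A_lt_of_torsion hs.model hn hm _ hz') hnz
    have h1 := branch hmσx hσx
    have h2 := branch hmx hx
    rw [show v (4 * σ a - (r : Qbar)) = v (4 * a - (r : Qbar)) by
      rw [← val_map_of_mem_decomposition hσ (4 * a - (r : Qbar))]
      congr 1
      simp [map_ofNat]] at h1
    simp only [hiff, map_sub, map_add]
    rcases h1 with h1 | h1 <;> rcases h2 with h2 | h2
    · exact Or.inl (h1.sub_mem hs.model hn h2)
    · have := h1.sub_mem hs.model hn h2
      rw [sub_neg_eq_add] at this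
      exact Or.inr this
    · have := neg_mem (h1.sub_mem hs.model hn h2)
      rw [neg_sub, sub_neg_eq_add, add_comm] at this
      exact Or.inr this
    · have := neg_mem (h1.sub_mem hs.model hn h2)
      refine Or.inl ?_
      rwa [neg_sub_neg, neg_sub] at this

namespace CofixedData

variable (L : CofixedData P)
include L

/-- A point carrying the character of the line has nonsingular reduction at `2` and `3`. -/
theorem inE0_of_small (hp : 17 ≤ P.p) (hq : q = 2 ∨ q = 3) (hA : A.LiesOverPrime q)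
    (hbad : (q : ℤ) ∣ P.a * P.b * P.c) {n : ℕ} {g : FPt P} (hg : P.p ^ n • g = 0)
    (hmul : ∀ σ : GalQ, ∃ a : ℤ, σ • g = a • g ∧ σ • L.c = a • L.c) :
    InE0 A (FE P) g := by
  have : Fact P.p.Prime := ⟨P.pp⟩
  have hqp : q.Prime := hq.elim (· ▸ Nat.prime_two) (· ▸ Nat.prime_three)
  have hne : q ≠ P.p := by rcases hq with rfl | rfl <;> omega
  obtain ⟨σ, hσ⟩ := exists_isFrobeniusAt A hqp hA
  obtain ⟨a, ha, hac⟩ := hmul σ
  have hd := L.dvd_sub_of_frobenius hqp hne hA hσ hac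
  have hW : IntAt A (FE P) := intAt_frey
  have key : ∀ b : ℤ, (b = a - 1 ∨ b = a + 1) → InE0 A (FE P) (b • g) → InE0 A (FE P) g := by
    intro b hb h
    refine mem_E0.1 (mem_of_sub_one_smul_mem (H := E0 hW) P.pp hg ?_ (mem_E0.2 h))
    intro hdvd
    have h1 := dvd_sub hd hdvd
    have h2 : (P.p : ℤ) ∣ (q : ℤ) - 1 ∨ (P.p : ℤ) ∣ (q : ℤ) + 1 := by
      rcases hb with rfl | rfl
      · left
        have := dvd_neg.2 h1
        rwa [show -(a - (q : ℤ) - (a - 1)) = (q : ℤ) - 1 by ring] at this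
      · right
        have := dvd_neg.2 h1
        rwa [show -(a - (q : ℤ) - (a + 1)) = (q : ℤ) + 1 by ring] at this
    rcases h2 with h2 | h2 <;>
      (have := Int.le_of_dvd (by rcases hq with rfl | rfl <;> norm_num) h2
       rcases hq with rfl | rfl <;> omega)
  rcases smul_sub_or_add_inE0 hqp hA hbad (isFrobeniusAt_iff.1 hσ).1 P.hp_odd.pow hg with h | h
  · refine key (a - 1) (Or.inl rfl) ?_
    rwa [sub_zsmul, one_zsmul, ← ha, ← sub_eq_add_neg]
  · refine key (a + 1) (Or.inr rfl) ?_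
    rwa [add_zsmul, one_zsmul, ← ha]

/-- A Frobenius element fixes a nonzero point of order `p`. -/
theorem exists_fixed_finset (σ : GalQ) : ∃ s : Finset (FPt P), s.card = P.p - 1 ∧
    ∀ x ∈ s, x ≠ 0 ∧ P.p • x = 0 ∧ σ • x = x := by
  classical
  have : Fact P.p.Prime := ⟨P.pp⟩
  obtain ⟨e, he, hne⟩ := L.exists_not_mem
  obtain ⟨z, hz0, hzp, hzfix⟩ : ∃ z : FPt P, z ≠ 0 ∧ P.p • z = 0 ∧ σ • z = z := by
    have hde := L.sub_mem_C σ he
    rw [C_eq] at hde
    obtain ⟨k, hk⟩ := hde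
    simp only at hk
    obtain ⟨a, ha⟩ := L.exists_mul σ
    by_cases ha1 : (P.p : ℤ) ∣ a - 1
    · refine ⟨L.c, L.c_ne_zero, L.nsmul_c, ?_⟩
      rw [ha, ← sub_add_cancel a 1, add_zsmul, L.zsmul_c_eq_zero_iff.2 ha1, zero_add, one_zsmul]
    obtain ⟨u, w, huw⟩ := (Nat.prime_iff_prime_int.mp P.pp).coprime_iff_not_dvd.mpr ha1
    refine ⟨e + (-(w * k)) • L.c, fun h => hne ?_, ?_, ?_⟩
    · rw [eq_neg_of_add_eq_zero_left h]
      exact neg_mem (L.C.zsmul_mem L.c_mem _)
    · rw [nsmul_add, he, ← natCast_zsmul _ P.p, ← mul_zsmul, mul_comm, mul_zsmul, natCast_zsmul,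
        L.nsmul_c, zsmul_zero, add_zero]
    · rw [smul_pt_add, smul_zsmul_eq, ha, ← sub_add_cancel (σ • e) e, ← hk, ← mul_zsmul]
      have e1 : (k + -(w * k) * a - -(w * k)) • L.c = 0 :=
        L.zsmul_c_eq_zero_iff.2 ⟨u * k, by linear_combination (-k) * huw⟩
      rw [sub_zsmul, add_zsmul, add_neg_eq_zero] at e1
      rw [← e1]
      abel
  have hord := addOrderOf_eq_prime hzp hz0
  refine ⟨(Finset.Ioo 0 P.p).image (fun i => i • z), ?_, ?_⟩
  · rw [Finset.card_image_of_injOn, Nat.card_Ioo, Nat.sub_zero]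
    intro i hi j hj hij
    simp only [Finset.coe_Ioo, Set.mem_Ioo] at hi hj
    exact (nsmul_injOn_Iio_addOrderOf (x := z)) (by rw [hord]; exact hi.2)
      (by rw [hord]; exact hj.2) hij
  · intro x hx
    obtain ⟨i, hi, rfl⟩ := Finset.mem_image.1 hx
    rw [Finset.mem_Ioo] at hi
    refine ⟨fun h => ?_,
      by rw [← mul_nsmul, mul_nsmul', hzp, nsmul_zero], by rw [nsmul_smul, hzfix]⟩
    have := addOrderOf_dvd_iff_nsmul_eq_zero.2 h
    rw [hord] at this
    exact absurd (Nat.le_of_dvd hi.1 this) (not_le.2 hi.2)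

/-- The curve has bad reduction at `3`. -/
theorem three_dvd (hp : 17 ≤ P.p) : (3 : ℤ) ∣ P.a * P.b * P.c := by
  by_contra hgood
  obtain ⟨A, hA⟩ := exists_liesOverPrime Nat.prime_three
  obtain ⟨σ, hσ⟩ := exists_isFrobeniusAt A Nat.prime_three hA
  obtain ⟨s, hs, hsx⟩ := L.exists_fixed_finset σ
  have hvp : A.valuation (P.p : Qbar) = 1 := val_nat_eq_one Nat.prime_three hA fun h => by
    have := (Nat.prime_dvd_prime_iff_eq Nat.prime_three P.pp).1 h
    omega
  have hE0 : ∀ x : FPt P, InE0 A (FE P) x := inE0_of_good Nat.prime_three (by norm_num) hA hgood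
  have := frobenius_fixed_card_le Nat.prime_three hσ P.hp_odd hvp s fun x hx =>
    ⟨(hsx x hx).1, (hsx x hx).2.1, hE0 x, (hsx x hx).2.2⟩
  omega

end CofixedData

end FLTAgent.IsogenyDescent
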