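import Fermat.Agent.IsogenyDescent.Image
import Fermat.Agent.MazurStep.Main

/-!
# Descent of the component condition along a stable cyclic quotient

For the quotient of the Frey curve by a stable cyclic group, the image of a torsion point gives a
curve over `ℚ` with a point as required by `MazurStep.not_inZeroComponentAt`. Conclusion: the
group above has nonsingular reduction at the bad places away from `p` (`inE0_of_descent`,
`inE0_two_three`), used to climb the tower in `Chain`.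
-/

set_option autoImplicit false

noncomputable section

open WeierstrassCurve WeierstrassCurve.Affine WeierstrassCurve.Affine.Point
open scoped WeierstrassCurve.Affine Pointwise

namespace FLTAgent.IsogenyDescent

open FLTAgent.ECReduction FLTAgent.Density FLTAgent.FreyUnramified

variable {P : FreyPackage}

section Quotient

variable {h : FPt P}

/-- A multiple of a point is killed by whatever kills the point. -/
theorem nsmul_eq_zero_of_mem_zmultiples {N : ℕ} (h0 : N • h = 0) {x : FPt P}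
    (hx : x ∈ AddSubgroup.zmultiples h) : N • x = 0 := by
  obtain ⟨k, rfl⟩ := hx
  simp only
  rw [← natCast_zsmul, ← mul_zsmul, mul_comm, mul_zsmul, natCast_zsmul, h0, zsmul_zero]

/-- The multiples of a point avoiding the node avoid it. -/
theorem inE0_of_mem_zmultiples {B : ValuationSubring Qbar} (hB : InE0 B (FE P) h) {x : FPt P}
    (hx : x ∈ AddSubgroup.zmultiples h) : InE0 B (FE P) x := by
  obtain ⟨k, rfl⟩ := hx
  exact mem_E0.1 (zsmul_mem ((mem_E0 (hW := intAt_frey)).2 hB) k)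

/-- The label adapted to two: `(-b ^ p, -a ^ p, 0)`. -/
theorem isLabel_base (P : FreyPackage) : IsLabel P (-P.b ^ P.p) (-P.a ^ P.p) 0 :=
  Or.inr (Or.inl ⟨rfl, rfl, rfl⟩)

/-- A power of `p` is a unit at every place over two. -/
theorem val_p_pow_eq_one_two {B : ValuationSubring Qbar} (hB : B.LiesOverPrime 2) (n : ℕ) :
    B.valuation ((P.p ^ n : ℕ) : Qbar) = 1 :=
  val_nat_eq_one Nat.prime_two hB fun hd => by
    have := (Nat.prime_dvd_prime_iff_eq Nat.prime_two P.pp).1 (Nat.prime_two.dvd_of_dvd_pow hd)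
    have := P.hp5
    omega

/-- At two the kernel and the label adapted to two satisfy the hypotheses of `TwoData`. -/
theorem twoData_base (hp : 17 ≤ P.p) {n : ℕ} (hh0 : P.p ^ (n + 1) • h = 0)
    {B : ValuationSubring Qbar} (hB : B.LiesOverPrime 2) (hhB : InE0 B (FE P) h) :
    TwoData B.valuation (((-P.b ^ P.p : ℤ)) : Qbar) (((-P.a ^ P.p : ℤ)) : Qbar)
      ((shiftHom (isLabel_base P).isShift).comp (AddSubgroup.zmultiples h).subtype) ∧
    B.valuation (((-P.b ^ P.p : ℤ)) : Qbar) ≤ B.valuation (2 : Qbar) ^ 17 := by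
  have h2 : B.valuation (2 : Qbar) < 1 := by simpa using val_prime_lt hB
  have hb17 : B.valuation (((-P.b ^ P.p : ℤ)) : Qbar) ≤ B.valuation (2 : Qbar) ^ 17 := by
    obtain ⟨b', hb'⟩ := (ZMod.intCast_zmod_eq_zero_iff_dvd P.b 2).1 P.hb2
    rw [hb']
    push_cast
    rw [B.valuation.map_neg, map_pow, map_mul]
    exact (pow_le_pow_left₀ zero_le (mul_le_of_le_one_right' (val_intCast_le B b')) _).trans
      (pow_le_pow_right_of_le_one' h2.le hp)
  refine ⟨⟨h2, hb17.trans_lt ?_, ?_, ?_⟩, hb17⟩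
  · rw [show (4 : Qbar) = 2 ^ 2 by norm_num, map_pow, ← pow_mul]
    exact pow_lt_pow_right_of_lt_one₀ (B.valuation.pos_iff.2 two_ne_zero) h2 (by norm_num)
  · refine val_int_eq_one Nat.prime_two hB fun hd => ?_
    rw [dvd_neg] at hd
    have h1 := Int.prime_two.dvd_of_dvd_pow hd
    have := dvd_gcd h1 ((ZMod.intCast_zmod_eq_zero_iff_dvd P.b 2).1 P.hb2)
    rw [P.hgcdab] at this
    exact Int.prime_two.not_dvd_one this
  · intro x hx
    have hxE := inE0_of_mem_zmultiples hhB x.2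
    have hxne : (x : FPt P) ≠ 0 := fun h0 => hx (Subtype.ext h0)
    have hxt := nsmul_eq_zero_of_mem_zmultiples hh0 x.2
    obtain ⟨hns, ex⟩ := exists_eq_some hxne
    rw [AddMonoidHom.comp_apply, AddSubgroup.subtype_apply, uOf_shiftHom _ hxne,
      Int.cast_zero, sub_zero, map_mul]
    rw [ex] at hxE hxt
    rw [(inE0_two_iff hB (val_x_le_of_torsion intAt_frey (val_p_pow_eq_one_two hB _) P.hp_odd.pow
      (psiVanish_of_odd P.hp_odd.pow) hxt)).1 hxE, mul_one]

variable [Fintype (AddSubgroup.zmultiples h)] (hK : CyclicKernel h)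

/-- A model `y² + xy = x³ + a₂x² + a₄x` over `ℤ` of the quotient, from `A` and `B`. -/
structure ImageModel where
  /-- The first two-torsion parameter. -/
  A : ℤ
  /-- The second two-torsion parameter. -/
  B : ℤ
  /-- The coefficient of `x²`. -/
  a₂ : ℤ
  /-- The coefficient of `x`. -/
  a₄ : ℤ
  A_eq : (A : Qbar) = imgA (hK.kernelData (isLabel_base P))
  B_eq : (B : Qbar) = imgB (hK.kernelData (isLabel_base P))
  dvd_A : (2 : ℤ) ^ 16 ∣ A
  a₂_eq : B - A - 1 = 4 * a₂
  a₄_eq : -(A * B) = 16 * a₄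

variable {hK}

/-- The integral `A`, `B` exist when the kernel avoids the node at every place over two. -/
theorem exists_imageModel (hp : 17 ≤ P.p) {n : ℕ} (hh0 : P.p ^ (n + 1) • h = 0)
    (hE2 : ∀ B : ValuationSubring Qbar, B.LiesOverPrime 2 → InE0 B (FE P) h) :
    Nonempty (ImageModel hK) := by
  classical
  set hk2 := hK.kernelData (isLabel_base P) with hk2def
  obtain ⟨A2, hA2⟩ := exists_int_of_fixed (x := imgA hk2)
    (fun σ => (hK.imgAB_fixed (isLabel_base P) σ).1) fun q hq => by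
    obtain ⟨B, hB⟩ := exists_liesOverPrime hq
    rcases eq_or_ne q 2 with rfl | hq2
    · obtain ⟨ht, h17⟩ := twoData_base hp hh0 hB (hE2 B hB)
      refine ⟨B, hB, ?_⟩
      have h2pos : 0 < B.valuation (2 : Qbar) := B.valuation.pos_iff.2 two_ne_zero
      have h := (val_imgA_two hk2 ht).trans h17
      rw [pow_succ] at h
      exact (le_of_mul_le_mul_right h h2pos).trans (pow_le_one₀ zero_le ht.two_lt.le)
    · exact ⟨B, hB, (hK.imgAB_le (isLabel_base P) hq hq2 hB).1⟩
  obtain ⟨B2, hB2⟩ := exists_int_of_fixed (x := imgB hk2)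
    (fun σ => (hK.imgAB_fixed (isLabel_base P) σ).2) fun q hq => by
    obtain ⟨B, hB⟩ := exists_liesOverPrime hq
    rcases eq_or_ne q 2 with rfl | hq2
    · obtain ⟨ht, -⟩ := twoData_base hp hh0 hB (hE2 B hB)
      refine ⟨B, hB, ?_⟩
      rw [show imgB hk2 = (imgB hk2 - (((-P.a ^ P.p : ℤ)) : Qbar)) +
        (((-P.a ^ P.p : ℤ)) : Qbar) by ring]
      exact val_add_le B ((val_imgB_sub_two hk2 ht).trans (TwoData.four_lt hk2 ht).le) ht.B_unit.le
    · exact ⟨B, hB, (hK.imgAB_le (isLabel_base P) hq hq2 hB).2⟩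
  obtain ⟨B0, hB0⟩ := exists_liesOverPrime Nat.prime_two
  obtain ⟨ht0, h17⟩ := twoData_base hp hh0 hB0 (hE2 B0 hB0)
  have hdA : (2 : ℤ) ^ 16 ∣ A2 := by
    have h := (val_imgA_two hk2 ht0).trans h17
    rw [← hA2, pow_succ] at h
    exact pow_dvd_of_val_le Nat.prime_two hB0
      (by simpa using le_of_mul_le_mul_right h (B0.valuation.pos_iff.2 two_ne_zero))
  have hdB : (4 : ℤ) ∣ B2 - 1 := by
    have h := val_imgB_sub_two hk2 ht0
    rw [← hB2, ← Int.cast_sub, show (4 : Qbar) = ((2 : ℕ) : Qbar) ^ 2 by norm_num, map_pow] at h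
    have h4 := pow_dvd_of_val_le Nat.prime_two hB0 h
    obtain ⟨a₂, ha₂⟩ := exists_a₂ P
    obtain ⟨b', hb'⟩ := (ZMod.intCast_zmod_eq_zero_iff_dvd P.b 2).1 P.hb2
    have h4b : (4 : ℤ) ∣ P.b ^ P.p := by
      rw [hb', mul_pow]
      exact ((dvd_of_eq (show (4 : ℤ) = ((2 : ℕ) : ℤ) ^ 2 by norm_num)).trans
        (pow_dvd_pow _ (by have := P.hp5; omega))).mul_right _
    norm_num at h4
    omega
  obtain ⟨a2, ha2⟩ : (4 : ℤ) ∣ B2 - A2 - 1 := by
    have h4A : (4 : ℤ) ∣ A2 := (show (4 : ℤ) ∣ 2 ^ 16 by norm_num).trans hdA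
    omega
  obtain ⟨a4, ha4⟩ : (16 : ℤ) ∣ -(A2 * B2) :=
    dvd_neg.2 (((show (16 : ℤ) ∣ 2 ^ 16 by norm_num).trans hdA).mul_right _)
  exact ⟨⟨A2, B2, a2, a4, hA2, hB2, hdA, ha2, ha4⟩⟩

namespace ImageModel

variable (M : ImageModel hK)

/-- The integral equation. -/
def curve : WeierstrassCurve ℤ := ⟨1, M.a₂, 0, M.a₄, 0⟩

/-- The equation over `ℚ̄`. -/
abbrev curveBar : WeierstrassCurve Qbar :=
  (M.curve.map (Int.castRingHom ℚ))⁄(AlgebraicClosure ℚ)

/-- The discriminant of the integral equation. -/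
theorem curve_Δ : M.curve.Δ = M.a₄ ^ 2 * (M.A + M.B) ^ 2 := by
  simp only [curve, WeierstrassCurve.Δ, WeierstrassCurve.b₂, WeierstrassCurve.b₄,
    WeierstrassCurve.b₆, WeierstrassCurve.b₈]
  linear_combination (-(M.a₄ ^ 2) * (1 + 4 * M.a₂ + (M.B - M.A))) * M.a₂_eq +
    4 * M.a₄ ^ 2 * M.a₄_eq

/-- The invariant `c₄` of the integral equation. -/
theorem curve_c₄ : M.curve.c₄ = M.A ^ 2 + M.A * M.B + M.B ^ 2 := by
  simp only [curve, WeierstrassCurve.c₄, WeierstrassCurve.b₂, WeierstrassCurve.b₄]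
  linear_combination (-(1 + 4 * M.a₂ + (M.B - M.A))) * M.a₂_eq + 3 * M.a₄_eq

/-- The integral equation is nonsingular. -/
theorem Δ_ne_zero : M.curve.Δ ≠ 0 := by
  classical
  have hm := imgCurve_model (hK.kernelData (isLabel_base P))
  have hA : M.A ≠ 0 := fun h0 => hm.A_ne (by rw [← M.A_eq, h0, Int.cast_zero])
  have hB : M.B ≠ 0 := fun h0 => hm.B_ne (by rw [← M.B_eq, h0, Int.cast_zero])
  have hAB : M.A + M.B ≠ 0 := fun h0 => hm.AB_ne (by
    rw [← M.A_eq, ← M.B_eq, ← Int.cast_add, h0, Int.cast_zero])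
  have h4 : M.a₄ ≠ 0 := fun h0 => by
    have := M.a₄_eq
    rw [h0, mul_zero, neg_eq_zero] at this
    exact mul_ne_zero hA hB this
  rw [M.curve_Δ]
  exact mul_ne_zero (pow_ne_zero 2 h4) (pow_ne_zero 2 hAB)

/-- The coefficient of `x` is even. -/
theorem two_dvd_a₄ : (2 : ℤ) ∣ M.a₄ := by
  obtain ⟨k, hk⟩ := M.dvd_A
  refine ⟨-(k * M.B * 2 ^ 11), mul_left_cancel₀ (show (16 : ℤ) ≠ 0 by norm_num) ?_⟩
  rw [← M.a₄_eq, hk]; ring

/-- The integral equation is multiplicative at two. -/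
theorem multiplicative_two : (2 : ℤ) ∣ M.curve.Δ ∧ ¬ (2 : ℤ) ∣ M.curve.c₄ := by
  refine ⟨by rw [M.curve_Δ]; exact (dvd_pow M.two_dvd_a₄ two_ne_zero).mul_right _, ?_⟩
  rw [M.curve_c₄]
  intro hd
  have h2A : (2 : ℤ) ∣ M.A := (show (2 : ℤ) ∣ 2 ^ 16 by norm_num).trans M.dvd_A
  have h2B : ¬ (2 : ℤ) ∣ M.B := by have := M.a₂_eq; omega
  have : (2 : ℤ) ∣ M.B ^ 2 := by
    have h' := dvd_sub hd (dvd_add ((dvd_pow h2A two_ne_zero)) (h2A.mul_right M.B))
    rwa [add_sub_cancel_left] at h'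
  exact h2B (Int.prime_two.dvd_of_dvd_pow this)

/-- The coefficients over `ℚ̄`. -/
theorem coeffs : M.curveBar.a₁ = 1 ∧ M.curveBar.a₂ = (M.a₂ : Qbar) ∧ M.curveBar.a₃ = 0 ∧
    M.curveBar.a₄ = (M.a₄ : Qbar) ∧ M.curveBar.a₆ = 0 := by
  simp [curve, WeierstrassCurve.baseChange]

/-- The defining relation of `a₂` over `ℚ̄`. -/
theorem four_mul_a₂ : (4 : Qbar) * M.a₂ = imgB (hK.kernelData (isLabel_base P)) -
    imgA (hK.kernelData (isLabel_base P)) - 1 := by
  rw [← M.A_eq, ← M.B_eq]; exact_mod_cast M.a₂_eq.symm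

/-- The defining relation of `a₄` over `ℚ̄`. -/
theorem sixteen_mul_a₄ : (16 : Qbar) * M.a₄ = -(imgA (hK.kernelData (isLabel_base P)) *
    imgB (hK.kernelData (isLabel_base P))) := by
  rw [← M.A_eq, ← M.B_eq]; exact_mod_cast M.a₄_eq.symm

/-- The equation over `ℚ̄` is a shift of the curve of the isogeny. -/
theorem isShift : IsShift M.curveBar.toAffine (imgCurve (hK.kernelData (isLabel_base P)))
    (imgA (hK.kernelData (isLabel_base P))) (imgB (hK.kernelData (isLabel_base P))) 0 := by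
  classical
  obtain ⟨c₁, c₂, c₃, c₄, c₆⟩ := M.coeffs
  exact ⟨imgCurve_model _, c₁, c₃, c₆, by rw [c₂, M.four_mul_a₂]; ring,
    by rw [c₄, M.sixteen_mul_a₄]; ring, by ring⟩

/-- The abscissa of the image of `e`, before scaling. -/
def u (_M : ImageModel hK) (e : FPt P) : Qbar :=
  veluX ((shiftHom (isLabel_base P).isShift).comp (AddSubgroup.zmultiples h).subtype)
    (shiftHom (isLabel_base P).isShift e) - imgRoot0 (hK.kernelData (isLabel_base P))

/-- The ordinate of the image of `e`, before scaling. -/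
def Y (_M : ImageModel hK) (e : FPt P) : Qbar :=
  veluY ((shiftHom (isLabel_base P).isShift).comp (AddSubgroup.zmultiples h).subtype)
    (shiftHom (isLabel_base P).isShift e)

variable {e : FPt P}

/-- The image of a point Galois-invariant modulo the kernel is rational. -/
theorem uY_fixed (hσ : ∀ σ : GalQ, σ • e - e ∈ AddSubgroup.zmultiples h) (σ : GalQ) :
    σ (M.u e) = M.u e ∧ σ (M.Y e) = M.Y e := by
  classical
  have eσ : shiftHom (isLabel_base P).isShift (σ • e) = shiftHom (isLabel_base P).isShift e +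
      ((shiftHom (isLabel_base P).isShift).comp (AddSubgroup.zmultiples h).subtype) ⟨_, hσ σ⟩ := by
    rw [AddMonoidHom.comp_apply, AddSubgroup.subtype_apply, ← map_add, add_sub_cancel]
  obtain ⟨e0, -, -⟩ := shiftHom_torPt (isLabel_base P)
  refine ⟨?_, ?_⟩
  · rw [u, imgRoot0, map_sub, ← e0, (hK.map_veluX (isLabel_base P) σ _).1,
      (hK.map_veluX (isLabel_base P) σ _).1,
      smul_torPt σ (map_intCast σ 0), eσ, veluX_add]
  · rw [Y, (hK.map_veluX (isLabel_base P) σ _).2, eσ, veluY_add]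

omit [Fintype (AddSubgroup.zmultiples h)] in
/-- A point off the kernel is off it in shifted coordinates. -/
theorem shiftHom_not_mem_range {a b r : ℤ} (hl : IsLabel P a b r)
    (he : e ∉ AddSubgroup.zmultiples h) :
    shiftHom hl.isShift e ∉
      ((shiftHom hl.isShift).comp (AddSubgroup.zmultiples h).subtype).range := by
  rintro ⟨x, hx⟩
  exact he (by rw [← shiftHom_injective hl.isShift hx]; exact x.2)

variable (he : e ∉ AddSubgroup.zmultiples h)
include he

/-- The scaled coordinates lie on the integral equation. -/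
theorem equation_image :
    M.curveBar.toAffine.Equation (M.u e / 4) ((M.Y e - M.u e) / 8) := by
  classical
  obtain ⟨c₁, c₂, c₃, c₄, c₆⟩ := M.coeffs
  have hv := ((imgCurve_model (hK.kernelData (isLabel_base P))).equation_iff _ _).1
    (velu_nonsingular _ (shiftHom_not_mem_range (isLabel_base P) he)).1
  rw [equation_iff, c₁, c₂, c₃, c₄, c₆, u, Y]
  set U := veluX ((shiftHom (isLabel_base P).isShift).comp (AddSubgroup.zmultiples h).subtype)
    (shiftHom (isLabel_base P).isShift e) - imgRoot0 (hK.kernelData (isLabel_base P))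
  linear_combination (1 / 64 : Qbar) * hv - (U ^ 2 / 64) * M.four_mul_a₂ -
    (U / 64) * M.sixteen_mul_a₄

/-- The image of `e` on the integral equation. -/
def point : M.curveBar.toAffine.Point :=
  Point.some _ _ ((equation_iff_nonsingular_of_Δ_ne_zero (by
    simp only [WeierstrassCurve.baseChange, WeierstrassCurve.map_Δ]
    simpa using M.Δ_ne_zero)).1 (M.equation_image he))

/-- The image of a point of order `p` off the kernel has order `p`. -/
theorem addOrderOf_point (hpe : P.p • e = 0) : addOrderOf (M.point he) = P.p := by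
  classical
  have : Fact P.p.Prime := ⟨P.pp⟩
  have himg : shiftHom M.isShift (M.point he) =
      veluHom (hK.kernelData (isLabel_base P)) (shiftHom (isLabel_base P).isShift e) := by
    rw [point, shiftHom_some, veluHom_of_not_mem _ (shiftHom_not_mem_range (isLabel_base P) he),
      some.injEq]
    exact ⟨by rw [u]; ring, by rw [u, Y]; ring⟩
  refine addOrderOf_eq_prime (shiftHom_injective M.isShift ?_) (some_ne_zero _)
  rw [map_nsmul, himg, ← map_nsmul, ← map_nsmul, hpe, _root_.map_zero, _root_.map_zero,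
    _root_.map_zero]

/-- The image of a point invariant modulo the kernel is a rational point. -/
theorem smul_point (hσ : ∀ σ : GalQ, σ • e - e ∈ AddSubgroup.zmultiples h) (σ : GalQ) :
    σ • (M.point he : ((M.curve.map (Int.castRingHom ℚ))⁄(AlgebraicClosure ℚ)).Point) =
      M.point he := by
  obtain ⟨f1, f2⟩ := M.uY_fixed hσ σ
  rw [point, smul_some, some.injEq]
  constructor <;> simp [f1, f2, map_ofNat]

omit he

/-- The parameters of any label of the quotient, in terms of those of the label adapted to two. -/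
theorem label_relations {a b r : ℤ} (hl : IsLabel P a b r) {B : ValuationSubring Qbar}
    (hB : B.valuation (imgB (hK.kernelData (isLabel_base P))) ≤ 1) :
    let A₂ := imgA (hK.kernelData (isLabel_base P))
    let B₂ := imgB (hK.kernelData (isLabel_base P))
    let s := rootImage h r - rootImage h 0
    B.valuation s ≤ 1 ∧
    imgB (hK.kernelData hl) - imgA (hK.kernelData hl) = 3 * s + (B₂ - A₂) ∧
    -(imgA (hK.kernelData hl) * imgB (hK.kernelData hl)) =
      3 * s ^ 2 + 2 * s * (B₂ - A₂) - A₂ * B₂ ∧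
    imgA (hK.kernelData hl) ^ 2 + imgA (hK.kernelData hl) * imgB (hK.kernelData hl) +
      imgB (hK.kernelData hl) ^ 2 = A₂ ^ 2 + A₂ * B₂ + B₂ ^ 2 ∧
    (imgA (hK.kernelData hl) * imgB (hK.kernelData hl) *
      (imgA (hK.kernelData hl) + imgB (hK.kernelData hl))) ^ 2 =
        (A₂ * B₂ * (A₂ + B₂)) ^ 2 ∧
    s ^ 3 + (B₂ - A₂) * s ^ 2 - A₂ * B₂ * s = 0 := by
  classical
  intro A₂ B₂ s
  obtain ⟨-, hA₂R, hB₂R⟩ := hK.imgRoots (isLabel_base P)
  obtain ⟨-, hAR, hBR⟩ := hK.imgRoots hl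
  change A₂ = _ at hA₂R
  change B₂ = _ at hB₂R
  change B.valuation B₂ ≤ 1 at hB
  clear_value A₂ B₂
  push_cast at hA₂R hB₂R
  simp only [zero_add, zero_sub, neg_neg] at hA₂R hB₂R
  have hfc : (P.a : Qbar) ^ P.p - (P.c : Qbar) ^ P.p = -(P.b : Qbar) ^ P.p := by
    have hf := congrArg (Int.cast : ℤ → Qbar) P.hFLT
    push_cast at hf
    linear_combination hf
  simp only [s, hAR, hBR, hA₂R, hB₂R] at hB ⊢
  rcases hl with ⟨rfl, rfl, rfl⟩ | ⟨rfl, rfl, rfl⟩ | ⟨rfl, rfl, rfl⟩ <;> push_cast <;>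
    simp only [zero_add, zero_sub, neg_neg, sub_self, ← sub_eq_add_neg, hfc]
  · exact ⟨val_zero_le B, by ring, by ring, by ring, by ring, by ring⟩
  · refine ⟨val_zero_le B, ?_, ?_, ?_, ?_, ?_⟩ <;> first | trivial | ring1
  · refine ⟨?_, ?_, ?_, ?_, ?_, ?_⟩
    rotate_left
    all_goals try ring1
    rw [← B.valuation.map_neg, neg_sub]
    exact hB

include he

/-- At odd bad `q ≠ p` the model is multiplicative, the image of `e` good iff a translate is. -/
theorem odd_place {n : ℕ} (hcard : Fintype.card (AddSubgroup.zmultiples h) = P.p ^ (n + 1))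
    (hpe : P.p • e = 0) {q : ℕ} (hq : q.Prime) (hq2 : q ≠ 2) (hqp : q ≠ P.p)
    (hqbad : (q : ℤ) ∣ P.a * P.b * P.c) {B : ValuationSubring Qbar} (hB : B.LiesOverPrime q) :
    (q : ℤ) ∣ M.curve.Δ ∧ ¬ (q : ℤ) ∣ M.curve.c₄ ∧
      (M.curve.InZeroComponentAt B (M.point he) ↔
        ∃ x : AddSubgroup.zmultiples h, InE0 B (FE P) (e + x)) := by
  classical
  obtain ⟨a, b, r, β, hl, hr, hn⟩ := exists_label hq hq2 hB hqbad
  set hkL := hK.kernelData hl
  have hvp : B.valuation (P.p : Qbar) = 1 := val_nat_eq_one hq hB fun hd =>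
    hqp ((Nat.prime_dvd_prime_iff_eq hq P.pp).1 hd)
  have hM : B.valuation (Fintype.card (AddSubgroup.zmultiples h) : Qbar) = 1 := by
    rw [hcard, Nat.cast_pow, map_pow, hvp, one_pow]
  have hAlt := val_imgA_lt hkL hn
  have hBeq := val_imgB_eq hkL hn hM
  set A₂ := imgA (hK.kernelData (isLabel_base P)) with hA₂
  set B₂ := imgB (hK.kernelData (isLabel_base P)) with hB₂
  have hA2 : (M.A : Qbar) = A₂ := M.A_eq
  have hB2 : (M.B : Qbar) = B₂ := M.B_eq
  obtain ⟨hrL, hsum, hprod, hc4', hsq, hroot⟩ :=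
    label_relations (hK := hK) hl (B := B) (by rw [← hB₂, ← hB2]; exact val_intCast_le B M.B)
  obtain ⟨c₁, c₂, c₃, c₄, c₆⟩ := M.coeffs
  have e₂ := M.four_mul_a₂
  have e₄ := M.sixteen_mul_a₄
  rw [← hA₂, ← hB₂] at e₂ e₄ hsum hprod hc4' hsq hroot
  obtain ⟨β', hβ'⟩ := IsAlgClosed.exists_pow_nat_eq (imgB hkL) two_pos
  have hnL : FreyUnramified.NodeData B.valuation (imgA hkL) (imgB hkL) β' :=
    ⟨⟨hAlt.le, hBeq.le, hn.h2⟩, hAlt, hβ', (pow_eq_one_iff_of_nonneg zero_le two_ne_zero).1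
      (by rw [← map_pow, hβ', hBeq])⟩
  have hsL : IsShift M.curveBar.toAffine (imgCurve hkL) (imgA hkL) (imgB hkL)
      (rootImage h r - rootImage h 0) :=
    ⟨imgCurve_model hkL, c₁, c₃, c₆, by rw [c₂, e₂, hsum]; ring,
      by rw [c₂, c₄, e₂, e₄, hprod]; ring,
      by rw [c₂, c₄, e₂, e₄]; linear_combination hroot⟩
  have h16 : B.valuation (16 : Qbar) = 1 := by
    rw [show (16 : Qbar) = 2 ^ 4 by norm_num, map_pow, hn.h2, one_pow]
  have hABone : B.valuation (imgA hkL + imgB hkL) = 1 := by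
    rw [B.valuation.map_add_eq_of_lt_right (hBeq.symm ▸ hAlt), hBeq]
  refine ⟨?_, ?_, ?_⟩
  · by_contra hd
    have h1 := val_int_eq_one hq hB hd
    rw [M.curve_Δ] at h1
    push_cast at h1
    have h2 : B.valuation ((16 : Qbar) ^ 2 *
        ((M.a₄ : Qbar) ^ 2 * ((M.A : Qbar) + M.B) ^ 2)) = 1 := by
      rw [map_mul, map_pow, h16, one_pow, one_mul, h1]
    rw [show (16 : Qbar) ^ 2 * ((M.a₄ : Qbar) ^ 2 * ((M.A : Qbar) + M.B) ^ 2) =
      (A₂ * B₂ * (A₂ + B₂)) ^ 2 by
        rw [← hA2, ← hB2] at e₄ ⊢; linear_combination (16 * (M.a₄ : Qbar) - (M.A : Qbar) * M.B) *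
          ((M.A : Qbar) + M.B) ^ 2 * e₄,
      ← hsq, map_pow, map_mul, map_mul, hBeq, hABone, mul_one, mul_one] at h2
    exact (pow_lt_one₀ zero_le hAlt two_ne_zero).ne h2
  · intro hd
    have h1 := val_int_lt hB hd
    rw [M.curve_c₄] at h1
    push_cast at h1
    rw [hA2, hB2, ← hc4', B.valuation.map_add_eq_of_lt_right, map_pow, hBeq, one_pow] at h1
    · exact lt_irrefl _ h1
    · rw [map_pow, hBeq, one_pow]
      exact val_add_lt B (val_pow_lt B hAlt two_ne_zero) (val_mul_lt_left B hAlt hBeq.le)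
  · rw [inZeroComponentAt_iff, inE0_iff_offNode (intAt_baseChange M.curve) hsL hnL hrL, point,
      shiftHom_some, mem_offNode]
    have hval := val_velu_image hkL hn hM hvp (g := shiftHom hl.isShift e)
      (by rw [← map_nsmul, hpe, _root_.map_zero]) (shiftHom_not_mem_range hl he)
    rw [hK.velu_sub_root hl he] at hval
    have hu' : M.u e = 4 * veluX (AddSubgroup.zmultiples h).subtype e - rootImage h 0 :=
      (hK.velu_sub_root (isLabel_base P) he).trans (by rw [Int.cast_zero])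
    rw [show 4 * (M.u e / 4) - (rootImage h r - rootImage h 0) =
      4 * veluX (AddSubgroup.zmultiples h).subtype e - rootImage h r by rw [hu']; ring]
    constructor
    · intro hge
      obtain ⟨x, hx⟩ := hval.2.1 (le_antisymm hval.1 hge)
      refine ⟨x, (inE0_iff_offNode intAt_frey hl.isShift hn hr).2 ?_⟩
      rw [map_add]
      exact hx
    · rintro ⟨x, hx⟩
      refine (hval.2.2 ⟨x, ?_⟩).ge
      have := (inE0_iff_offNode intAt_frey hl.isShift hn hr).1 hx
      rw [map_add] at this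
      exact this

/-- At two, when no translate of `e` avoids the node, the image of `e` reduces to the node. -/
theorem val_u_two (hp : 17 ≤ P.p) {n : ℕ} (hh0 : P.p ^ (n + 1) • h = 0) (hpe : P.p • e = 0)
    {B : ValuationSubring Qbar} (hB : B.LiesOverPrime 2) (hhB : InE0 B (FE P) h)
    (hnE : ∀ x : AddSubgroup.zmultiples h, ¬ InE0 B (FE P) (e + x)) :
    B.valuation (M.u e / 4) < 1 := by
  classical
  obtain ⟨ht, -⟩ := twoData_base hp hh0 hB hhB
  have h4pos := TwoData.four_pos (hK.kernelData (isLabel_base P)) ht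
  rw [map_div₀, div_lt_one₀ h4pos]
  refine val_velu_image_two _ ht (g := shiftHom (isLabel_base P).isShift e) fun x => ?_
  have hne : e + (x : FPt P) ≠ 0 := fun h0 =>
    he (by rw [eq_neg_of_add_eq_zero_left h0]; exact neg_mem x.2)
  rw [AddMonoidHom.comp_apply, AddSubgroup.subtype_apply, ← map_add,
    uOf_shiftHom _ hne, Int.cast_zero, sub_zero, map_mul]
  have htor : P.p ^ (n + 1) • (e + (x : FPt P)) = 0 := by
    rw [nsmul_add, nsmul_eq_zero_of_mem_zmultiples hh0 x.2, pow_succ, mul_nsmul', hpe, nsmul_zero,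
      add_zero]
  have hnEx := hnE x
  obtain ⟨hns, ex⟩ := exists_eq_some hne
  rw [ex] at hnEx htor
  have hle := val_x_le_of_torsion intAt_frey (val_p_pow_eq_one_two hB _) P.hp_odd.pow
    (psiVanish_of_odd P.hp_odd.pow) htor
  exact mul_lt_of_lt_one_right h4pos
    (lt_of_le_of_ne hle fun h1 => hnEx ((inE0_two_iff hB hle).2 h1))

/-- At two, when no translate of `e` avoids the node, neither does its image. -/
theorem not_inZeroComponentAt_two (hp : 17 ≤ P.p) {n : ℕ} (hh0 : P.p ^ (n + 1) • h = 0)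
    (hpe : P.p • e = 0) {B : ValuationSubring Qbar} (hB : B.LiesOverPrime 2)
    (hhB : InE0 B (FE P) h) (hnE : ∀ x : AddSubgroup.zmultiples h, ¬ InE0 B (FE P) (e + x)) :
    ¬ M.curve.InZeroComponentAt B (M.point he) := by
  classical
  obtain ⟨c₁, c₂, c₃, c₄, c₆⟩ := M.coeffs
  rw [inZeroComponentAt_iff, point, inE0_some, not_not]
  have hx := M.val_u_two he hp hh0 hpe hB hhB hnE
  have hy := val_le_of_monic_quadratic (intAt_baseChange M.curve) hx.le
    ((equation_iff ..).1 (M.equation_image he))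
  have ha4v : B.valuation (M.a₄ : Qbar) < 1 := val_int_lt hB (by exact_mod_cast M.two_dvd_a₄)
  have hy1 : B.valuation ((M.Y e - M.u e) / 8) < 1 := by
    have heq := (equation_iff ..).1 (M.equation_image he)
    rw [c₁, c₂, c₃, c₄, c₆] at heq
    set x := M.u e / 4
    set y := (M.Y e - M.u e) / 8
    have hprod : B.valuation (y * (y + x)) < 1 := by
      rw [show y * (y + x) = x * (x ^ 2 + (M.a₂ : Qbar) * x + (M.a₄ : Qbar)) by
        linear_combination heq]
      exact val_mul_lt_left B hx (val_add_le B (val_add_le B (val_pow_le B hx.le 2)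
        (val_mul_le B (val_intCast_le B _) hx.le)) (val_intCast_le B _))
    rcases val_lt_one_or_of_mul_lt B hprod with h' | h'
    · exact h'
    · rw [show y = (y + x) - x by ring]; exact val_sub_lt B h' hx
  refine ⟨hx.le, hy, ?_, ?_⟩
  · change B.valuation (M.curveBar.a₁ * ((M.Y e - M.u e) / 8) -
      (3 * (M.u e / 4) ^ 2 + 2 * M.curveBar.a₂ * (M.u e / 4) + M.curveBar.a₄)) < 1
    rw [c₁, c₂, c₄, one_mul]
    exact val_sub_lt B hy1 (val_add_lt B (val_add_lt B (val_mul_lt_right B (val_ofNat_le B 3)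
      (val_pow_lt B hx two_ne_zero)) (val_mul_lt_right B (val_mul_le B (val_ofNat_le B 2)
      (val_intCast_le B _)) hx)) ha4v)
  · change B.valuation (2 * ((M.Y e - M.u e) / 8) + M.curveBar.a₁ * (M.u e / 4) + M.curveBar.a₃) < 1
    rw [c₁, c₃, one_mul, add_zero]
    exact val_add_lt B (val_mul_lt_right B (val_ofNat_le B 2) hy1) hx

end ImageModel

end Quotient

namespace CofixedData

variable (L : CofixedData P)
include L

/-- A stable point above the generator of the line acts with the character of the line. -/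
theorem exists_common_mul {n : ℕ} {h : FPt P} (hc : P.p ^ n • h = L.c)
    (hstab : ∀ σ : GalQ, σ • h ∈ AddSubgroup.zmultiples h) (σ : GalQ) :
    ∃ a : ℤ, σ • h = a • h ∧ σ • L.c = a • L.c := by
  obtain ⟨a, ha⟩ := hstab σ
  refine ⟨a, ha.symm, ?_⟩
  rw [← hc, nsmul_smul]
  simp only at ha
  rw [← ha, ← natCast_zsmul, ← natCast_zsmul _ (P.p ^ n), ← mul_zsmul, ← mul_zsmul, mul_comm]

theorem addOrderOf_lift {n : ℕ} {h : FPt P} (hc : P.p ^ n • h = L.c) :
    addOrderOf h = P.p ^ (n + 1) := by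
  have : Fact P.p.Prime := ⟨P.pp⟩
  refine addOrderOf_eq_prime_pow (fun h0 => L.c_ne_zero (hc ▸ h0)) ?_
  rw [pow_succ', mul_nsmul', hc, L.nsmul_c]

/-- Points of order `p` in the group generated by a lift lie on the line. -/
theorem mem_C_of_mem_zmultiples {n : ℕ} {h : FPt P} (hc : P.p ^ n • h = L.c) {x : FPt P}
    (hx : x ∈ AddSubgroup.zmultiples h) (hpx : P.p • x = 0) : x ∈ L.C := by
  obtain ⟨k, rfl⟩ := hx
  simp only at hpx ⊢
  have hd : ((addOrderOf h : ℕ) : ℤ) ∣ (P.p : ℤ) * k := by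
    rw [addOrderOf_dvd_iff_zsmul_eq_zero, mul_zsmul, natCast_zsmul, hpx]
  rw [L.addOrderOf_lift hc, pow_succ', Nat.cast_mul,
    mul_dvd_mul_iff_left (by exact_mod_cast P.hp0)] at hd
  obtain ⟨j, hj⟩ := hd
  rw [hj, mul_comm, mul_zsmul, natCast_zsmul, hc, L.C_eq]
  exact ⟨j, rfl⟩

/-- At two and three the kernel avoids the node and no translate of `e` off the line does. -/
theorem inE0_two_three (hp : 17 ≤ P.p) {n : ℕ} {h : FPt P} (hc : P.p ^ n • h = L.c)
    (hstab : ∀ σ : GalQ, σ • h ∈ AddSubgroup.zmultiples h) {e : FPt P} (hpe : P.p • e = 0)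
    (heC : e ∉ L.C) {q : ℕ} (hq : q = 2 ∨ q = 3) (hqbad : (q : ℤ) ∣ P.a * P.b * P.c)
    {B : ValuationSubring Qbar} (hB : B.LiesOverPrime q) :
    InE0 B (FE P) h ∧ ∀ x : AddSubgroup.zmultiples h, ¬ InE0 B (FE P) (e + x) := by
  classical
  have hqp : q.Prime := hq.elim (· ▸ Nat.prime_two) (· ▸ Nat.prime_three)
  have hh0 : P.p ^ (n + 1) • h = 0 := L.addOrderOf_lift hc ▸ addOrderOf_nsmul_eq_zero h
  have hhB := L.inE0_of_small hp hq hB hqbad hh0 (L.exists_common_mul hc hstab)
  refine ⟨hhB, fun x hex => heC (L.mem_C_of_inE0 hp hqp (by rcases hq with rfl | rfl <;> omega)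
    hB hqbad ?_ hpe ?_)⟩
  · rw [← hc]; exact mem_E0.1 (nsmul_mem ((mem_E0 (hW := intAt_frey)).2 hhB) _)
  · have := InE0.sub intAt_frey hex (inE0_of_mem_zmultiples hhB x.2)
    rwa [add_sub_cancel_right] at this

/-- A point of order `p` is Galois-invariant modulo the group generated by a lift. -/
theorem smul_sub_mem_zmultiples {n : ℕ} {h : FPt P} (hc : P.p ^ n • h = L.c) {e : FPt P}
    (hpe : P.p • e = 0) (σ : GalQ) : σ • e - e ∈ AddSubgroup.zmultiples h := by
  have hd := L.sub_mem_C σ hpe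
  rw [L.C_eq] at hd
  obtain ⟨k, hk⟩ := hd
  rw [← hk]
  simp only
  rw [← hc]
  exact zsmul_mem (nsmul_mem (AddSubgroup.mem_zmultiples h) _) k

/-- Descent: if `p • h` avoids the node at an odd bad prime, so does `h`. -/
theorem inE0_of_descent (hp : 17 ≤ P.p) {n : ℕ} {h : FPt P}
    (hc : P.p ^ n • h = L.c) (hstab : ∀ σ : GalQ, σ • h ∈ AddSubgroup.zmultiples h)
    {ℓ : ℕ} (hℓ : ℓ.Prime) (hℓ2 : ℓ ≠ 2) (hℓp : ℓ ≠ P.p) {A : ValuationSubring Qbar}
    (hA : A.LiesOverPrime ℓ) (hbad : (ℓ : ℤ) ∣ P.a * P.b * P.c)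
    (hph : InE0 A (FE P) (P.p • h)) : InE0 A (FE P) h := by
  classical
  by_contra hh
  obtain ⟨e, hpe, heC⟩ := L.exists_not_mem
  have he0 : e ∉ AddSubgroup.zmultiples h := fun he => heC (L.mem_C_of_mem_zmultiples hc he hpe)
  have hord := L.addOrderOf_lift hc
  have hK : CyclicKernel h := ⟨addOrderOf_pos_iff.1 (hord ▸ pow_pos P.pp.pos _),
    hord ▸ P.hp_odd.pow, hstab⟩
  let := hK.fintype
  have hh0 : P.p ^ (n + 1) • h = 0 := hord ▸ addOrderOf_nsmul_eq_zero h
  have h2 := fun {B : ValuationSubring Qbar} (hB : B.LiesOverPrime 2) =>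
    L.inE0_two_three hp hc hstab hpe heC (Or.inl rfl) P.two_dvd_abc hB
  obtain ⟨M⟩ := exists_imageModel (hK := hK) hp hh0 fun B hB => (h2 hB).1
  have hplace := fun {q : ℕ} (hq : q.Prime) => M.odd_place he0 (hK.card_eq.trans hord) hpe hq
  have h3 := fun {B : ValuationSubring Qbar} (hB : B.LiesOverPrime 3) =>
    hplace Nat.prime_three (by norm_num) (by omega) (L.three_dvd hp) hB
  obtain ⟨A3, hA3⟩ := exists_liesOverPrime Nat.prime_three
  have hℓ' := hplace hℓ hℓ2 hℓp hbad hA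
  refine MazurStep.not_inZeroComponentAt P.pp
    (by simp only [Finset.mem_insert, Finset.mem_singleton]; omega) M.curve
    M.Δ_ne_zero (M.point he0) (M.smul_point he0 (L.smul_sub_mem_zmultiples hc hpe))
    (M.addOrderOf_point he0 hpe) M.multiplicative_two.1 M.multiplicative_two.2
    (fun B hB => M.not_inZeroComponentAt_two he0 hp hh0 hpe hB (h2 hB).1 (h2 hB).2)
    (h3 hA3).1 (h3 hA3).2.1 (fun B hB hz => ?_) hℓ hℓp hℓ'.1 hℓ'.2.1 A hA ?_
  · obtain ⟨x, hx⟩ := (h3 hB).2.2.1 hz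
    exact (L.inE0_two_three hp hc hstab hpe heC (Or.inr rfl) (L.three_dvd hp) hB).2 x hx
  · obtain ⟨i, hi⟩ := exists_add_zsmul_inE0 hℓ hℓ2 hA hbad hh hph
      (show InE0 A (FE P) (P.p • e) by rw [hpe]; exact trivial)
    exact hℓ'.2.2.2 ⟨⟨i • h, zsmul_mem (AddSubgroup.mem_zmultiples h) i⟩, hi⟩

end CofixedData

end FLTAgent.IsogenyDescent
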