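import Fermat.Prelude.Def_ExtCitation_AdmissibleExtension_v2
import Fermat.Agent.IsogenyDescent.Descent
import Fermat.Agent.ECTorsion.Galois
import Fermat.Agent.ExtVanishing.Main

/-!
# The tower of stable cyclic groups above a cofixed line

Each level lifts by the vanishing of extensions (`exists_level_succ`), and a tall tower
contradicts the count of points over a finite field. The result is `no_cofixed_line`.
-/

set_option autoImplicit false

noncomputable section

open WeierstrassCurve WeierstrassCurve.Affine WeierstrassCurve.Affine.Point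
open scoped WeierstrassCurve.Affine Pointwise

namespace FLTAgent.IsogenyDescent

open FLTAgent.ECReduction FLTAgent.Density

variable {P : FreyPackage}

theorem smul_pt_sub (σ : GalQ) (x y : FPt P) : σ • (x - y) = σ • x - σ • y :=
  map_sub (DistribSMul.toAddMonoidHom (P.freyCurve⁄Qbar).Point σ) x y

theorem smul_pt_zero (σ : GalQ) : σ • (0 : FPt P) = 0 :=
  _root_.map_zero (DistribSMul.toAddMonoidHom (P.freyCurve⁄Qbar).Point σ)

/-- Inertia moves odd torsion by points with nonsingular reduction, at every prime. -/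
theorem smul_sub_inE0_any {q : ℕ} (hq : q.Prime) {A : ValuationSubring Qbar}
    (hA : A.LiesOverPrime q) {σ : GalQ} (hσ : σ ∈ A.inertiaSubgroupIn ℚ) {m : ℕ} (hm : Odd m)
    {x : FPt P} (hx : m • x = 0) : InE0 A (FE P) (σ • x - x) := by
  have hi := inertiaElt_of_mem hσ
  rcases eq_or_ne q 2 with rfl | hq2
  · obtain ⟨nd, -⟩ := node_two (P := P) hA
    exact smul_sub_inE0 (W₀ := P.freyCurve.toAffine) intAt_frey nd hi hm hx
  rcases good_or_node (P := P) hq hq2 hA with hg | ⟨⟨nd⟩⟩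
  · rcases σ • x - x with _ | ⟨a, b, h⟩
    · exact trivial
    · exact hg a b h.1
  · exact smul_sub_inE0 (W₀ := P.freyCurve.toAffine) intAt_frey nd hi hm hx

theorem val_pow_p_eq_one {q : ℕ} (hq : q.Prime) (hqp : q ≠ P.p) {A : ValuationSubring Qbar}
    (hA : A.LiesOverPrime q) (k : ℕ) : A.valuation ((P.p ^ k : ℕ) : Qbar) = 1 :=
  val_nat_eq_one hq hA fun hd =>
    hqp ((Nat.prime_dvd_prime_iff_eq hq P.pp).1 (hq.dvd_of_dvd_pow hd))

/-- Inertia at a good prime other than `p` fixes the `p`-power torsion. -/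
theorem smul_eq_of_good {q : ℕ} (hq : q.Prime) (hqp : q ≠ P.p) {A : ValuationSubring Qbar}
    (hA : A.LiesOverPrime q) (hgood : ¬ (q : ℤ) ∣ P.a * P.b * P.c) {σ : GalQ}
    (hσ : σ ∈ A.inertiaSubgroupIn ℚ) {k : ℕ} {x : FPt P} (hx : P.p ^ k • x = 0) : σ • x = x := by
  have hq2 : q ≠ 2 := fun h => hgood (h ▸ P.two_dvd_abc)
  exact smul_eq_of_inE0 (inertiaElt_of_mem hσ) P.hp_odd.pow (val_pow_p_eq_one hq hqp hA k) hx
    (inE0_of_good hq hq2 hA hgood x)

/-- Decomposition groups preserve reduction to the origin. -/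
theorem inE1_smul {A : ValuationSubring Qbar} {σ : GalQ} (hσ : σ ∈ A.decompositionSubgroup ℚ)
    {x : FPt P} (hx : InE1 A (FE P) x) : InE1 A (FE P) (σ • x) := by
  rcases x with _ | ⟨a, b, h⟩
  · exact hx
  rw [smul_some, inE1_some, val_map_of_mem_decomposition hσ]
  exact hx

namespace CofixedData

variable (L : CofixedData P)

/-- Level `n` of the tower: a stable cyclic group of order `p ^ (n + 1)` above the line, with
trivial action on the quotient and nonsingular reduction at the bad places away from `p`. -/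
structure Level (n : ℕ) (g : FPt P) : Prop where
  gen : P.p ^ n • g = L.c
  stable : ∀ σ : GalQ, σ • g ∈ AddSubgroup.zmultiples g
  cof : ∀ σ : GalQ, ∀ x : FPt P, P.p ^ (n + 1) • x = 0 → σ • x - x ∈ AddSubgroup.zmultiples g
  avoid : ∀ q : ℕ, q.Prime → q ≠ P.p → (q : ℤ) ∣ P.a * P.b * P.c →
    ∀ A : ValuationSubring Qbar, A.LiesOverPrime q → InE0 A (FE P) g

include L

theorem nsmul_gen {n : ℕ} {g : FPt P} (hg : P.p ^ n • g = L.c) : P.p ^ (n + 1) • g = 0 :=
  L.addOrderOf_lift hg ▸ addOrderOf_nsmul_eq_zero g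

theorem C_le {n : ℕ} {g : FPt P} (hg : P.p ^ n • g = L.c) {x : FPt P} (hx : x ∈ L.C) :
    x ∈ AddSubgroup.zmultiples g := by
  rw [L.C_eq] at hx
  exact AddSubgroup.zmultiples_le.2
    (hg ▸ nsmul_mem (AddSubgroup.mem_zmultiples g) _) hx

theorem avoid_of_nsmul (hp : 17 ≤ P.p) {n : ℕ} {g : FPt P}
    (hg : P.p ^ n • g = L.c) (hstab : ∀ σ : GalQ, σ • g ∈ AddSubgroup.zmultiples g)
    (hph : ∀ q : ℕ, q.Prime → q ≠ P.p → (q : ℤ) ∣ P.a * P.b * P.c →
      ∀ A : ValuationSubring Qbar, A.LiesOverPrime q → InE0 A (FE P) (P.p • g)) :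
    ∀ q : ℕ, q.Prime → q ≠ P.p → (q : ℤ) ∣ P.a * P.b * P.c →
      ∀ A : ValuationSubring Qbar, A.LiesOverPrime q → InE0 A (FE P) g := by
  intro q hq hqp hbad A hA
  rcases eq_or_ne q 2 with rfl | hq2
  · exact L.inE0_of_small hp (Or.inl rfl) hA hbad (L.nsmul_gen hg) (L.exists_common_mul hg hstab)
  · exact L.inE0_of_descent hp hg hstab hq hq2 hqp hA hbad (hph q hq hqp hbad A hA)

theorem level_zero (hp : 17 ≤ P.p) : L.Level 0 L.c := by
  have hg : P.p ^ 0 • L.c = L.c := by rw [pow_zero, one_nsmul]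
  have hst : ∀ σ : GalQ, σ • L.c ∈ AddSubgroup.zmultiples L.c := fun σ =>
    L.C_eq ▸ L.smul_mem_C σ L.c_mem
  refine ⟨hg, hst, fun σ x hx => ?_, L.avoid_of_nsmul hp hg hst fun q _ _ _ A _ => ?_⟩
  · rw [zero_add, pow_one] at hx
    exact L.C_eq ▸ L.sub_mem_C σ hx
  · rw [L.nsmul_c]; exact trivial

/-- The trivial action on the quotient propagates up the tower. -/
theorem cof_succ (hp : 17 ≤ P.p) {n : ℕ} {g h : FPt P} (hL : L.Level n g) (hph : P.p • h = g)
    (hstab : ∀ σ : GalQ, σ • h ∈ AddSubgroup.zmultiples h)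
    (havoid : ∀ q : ℕ, q.Prime → q ≠ P.p → (q : ℤ) ∣ P.a * P.b * P.c →
      ∀ A : ValuationSubring Qbar, A.LiesOverPrime q → InE0 A (FE P) h)
    (σ : GalQ) (x : FPt P) (hx : P.p ^ (n + 1 + 1) • x = 0) :
    σ • x - x ∈ AddSubgroup.zmultiples h := by
  classical
  have hg1 : P.p ^ (n + 1) • h = L.c := by rw [pow_succ, mul_nsmul', hph, hL.gen]
  set Z := AddSubgroup.zmultiples h with hZ
  have hZσ : ∀ (τ : GalQ), ∀ y ∈ Z, τ • y ∈ Z := by
    rintro τ y ⟨k, rfl⟩
    simp only
    rw [smul_zsmul_eq]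
    exact zsmul_mem (hstab τ) k
  let H : Subgroup GalQ :=
    { carrier := {τ | ∀ y : FPt P, P.p ^ (n + 1 + 1) • y = 0 → τ • y - y ∈ Z}
      one_mem' := fun y _ => by rw [one_smul, sub_self]; exact zero_mem Z
      mul_mem' := fun {τ₁ τ₂} h₁ h₂ y hy => by
        rw [mul_smul, show τ₁ • τ₂ • y - y = (τ₁ • τ₂ • y - τ₁ • y) + (τ₁ • y - y) by abel,
          ← smul_pt_sub]
        exact add_mem (hZσ τ₁ _ (h₂ y hy)) (h₁ y hy)
      inv_mem' := fun {τ} hτ y hy => by
        have := hZσ τ⁻¹ _ (neg_mem (hτ y hy))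
        rwa [neg_sub, smul_pt_sub, inv_smul_smul] at this }
  suffices htop : H = ⊤ by
    exact (show σ ∈ H by rw [htop]; trivial) x hx
  refine eq_top_of_inertia_le H ?_ ?_
  · have hne : ((P.p ^ (n + 1 + 1) : ℕ) : Qbar) ≠ 0 :=
      Nat.cast_ne_zero.2 (pow_ne_zero _ P.hp0)
    have : (P.freyCurve⁄Qbar).IsElliptic := frey_isElliptic
    have := ECTorsion.finite_torsionBy P.freyCurve.toAffine hne
    obtain ⟨E, hE, hEfix⟩ := ECTorsion.exists_fixingSubgroup_smul_eq (S := ℚ) (K := Qbar)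
      P.freyCurve.toAffine (n := P.p ^ (n + 1 + 1))
    refine Subgroup.isOpen_mono (fun τ hτ y hy => ?_) (IntermediateField.fixingSubgroup_isOpen E)
    have h := congrArg Subtype.val (hEfix τ hτ ⟨y, (ECTorsion.mem_torsionBy_iff_nsmul _ y).2 hy⟩)
    change τ • y = y at h
    rw [h, sub_self]
    exact zero_mem Z
  intro q hq A hA τ hτ y hy
  set d := τ • y - y with hd
  have hpy : P.p ^ (n + 1) • (P.p • y) = 0 := by rw [← mul_nsmul', ← pow_succ, hy]
  obtain ⟨i, hi⟩ := hL.cof τ _ hpy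
  simp only at hi
  have hz : P.p • (d - i • h) = 0 := by
    rw [nsmul_sub, hd, nsmul_sub, ← nsmul_smul, ← hi, ← natCast_zsmul _ P.p, ← mul_zsmul, mul_comm,
      mul_zsmul, natCast_zsmul, hph, sub_self]
  have hW : IntAt A (FE P) := intAt_frey
  have hd0 : InE0 A (FE P) d := smul_sub_inE0_any hq hA hτ P.hp_odd.pow hy
  suffices hC : d - i • h ∈ L.C by
    have := add_mem (L.C_le hg1 hC) (zsmul_mem (AddSubgroup.mem_zmultiples h) i)
    rwa [sub_add_cancel] at this
  rcases eq_or_ne q P.p with rfl | hqp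
  · have h1 : InE1 A (FE P) h := L.inE1_of_mul hA (L.nsmul_gen hg1) (L.exists_common_mul hg1 hstab)
    have hzE0 : InE0 A (FE P) (d - i • h) := (mem_E0 (hW := hW)).1
      (sub_mem ((mem_E0 (hW := hW)).2 hd0) (zsmul_mem ((mem_E0 (hW := hW)).2 (InE1.inE0 h1)) i))
    refine L.mem_C_of_inE1 hA hz ?_
    by_cases hbad : (P.p : ℤ) ∣ P.a * P.b * P.c
    · exact inE1_of_inE0 hA hbad hz hzE0
    · have hdE1 : InE1 A (FE P) d := smul_sub_inE1 (inertiaElt_of_mem hτ)
        (inE0_of_good P.pp (by omega) hA hbad y)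
      exact (mem_E1 (hW := hW)).1
        (sub_mem ((mem_E1 (hW := hW)).2 hdE1) (zsmul_mem ((mem_E1 (hW := hW)).2 h1) i))
  · by_cases hbad : (q : ℤ) ∣ P.a * P.b * P.c
    · have hh := (mem_E0 (hW := hW)).2 (havoid q hq hqp hbad A hA)
      refine L.mem_C_of_inE0 hp hq hqp hA hbad ?_ hz ?_
      · rw [← hg1]; exact (mem_E0 (hW := hW)).1 (nsmul_mem hh _)
      · exact (mem_E0 (hW := hW)).1 (sub_mem ((mem_E0 (hW := hW)).2 hd0) (zsmul_mem hh i))
    · have h1 : d = 0 := by
        rw [hd, smul_eq_of_good hq hqp hA hbad hτ hy, sub_self]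
      have h2 : i • g = 0 := by
        rw [hi, ← nsmul_zero P.p, ← h1, hd, nsmul_sub, nsmul_smul]
      rw [h1, zero_sub]
      refine neg_mem (L.mem_C_of_mem_zmultiples hg1 (zsmul_mem (AddSubgroup.mem_zmultiples h) i) ?_)
      rw [← natCast_zsmul, ← mul_zsmul, mul_comm, mul_zsmul, natCast_zsmul, hph, h2]

end CofixedData

namespace CofixedData

variable (L : CofixedData P)

/-- A level of the tower, bundled. -/
structure Stage where
  n : ℕ
  g : FPt P
  lev : L.Level n g

namespace Stage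

variable {L} (st : L.Stage)

/-- The points whose multiple by `p` lies in the group of the level. -/
def S : AddSubgroup (FPt P) :=
  (AddSubgroup.zmultiples st.g).comap (nsmulAddMonoidHom P.p)

theorem mem_S {x : FPt P} : x ∈ st.S ↔ P.p • x ∈ AddSubgroup.zmultiples st.g := Iff.rfl

/-- The group of the level, inside `S`. -/
def Z : AddSubgroup st.S := (AddSubgroup.zmultiples st.g).addSubgroupOf st.S

/-- The two-dimensional module to be split. -/
def V : Type := st.S ⧸ st.Z

instance : AddCommGroup st.V := inferInstanceAs (AddCommGroup (st.S ⧸ st.Z))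

/-- The projection. -/
def proj : st.S →+ st.V := QuotientAddGroup.mk' st.Z

theorem proj_surjective : Function.Surjective st.proj := QuotientAddGroup.mk'_surjective st.Z

theorem proj_eq_zero {s : st.S} : st.proj s = 0 ↔ (s : FPt P) ∈ AddSubgroup.zmultiples st.g :=
  QuotientAddGroup.eq_zero_iff s

theorem gen_mem_S : st.g ∈ st.S := nsmul_mem (AddSubgroup.mem_zmultiples st.g) P.p

theorem zmultiples_le_S : AddSubgroup.zmultiples st.g ≤ st.S :=
  AddSubgroup.zmultiples_le.2 st.gen_mem_S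

instance : Module (ZMod P.p) st.V :=
  AddCommGroup.zmodModule fun w => by
    obtain ⟨s, rfl⟩ := st.proj_surjective w
    rw [← map_nsmul, st.proj_eq_zero]
    exact s.2

theorem nsmul_S (s : st.S) : P.p ^ (st.n + 1 + 1) • (s : FPt P) = 0 := by
  obtain ⟨k, hk⟩ := (st.mem_S).1 s.2
  simp only at hk
  rw [pow_succ, mul_nsmul', ← hk, ← natCast_zsmul, ← mul_zsmul, mul_comm, mul_zsmul,
    natCast_zsmul, L.nsmul_gen st.lev.gen, zsmul_zero]

theorem smul_mem_Z (σ : GalQ) {x : FPt P} (hx : x ∈ AddSubgroup.zmultiples st.g) :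
    σ • x ∈ AddSubgroup.zmultiples st.g := by
  obtain ⟨k, rfl⟩ := hx
  simp only
  rw [smul_zsmul_eq]
  exact zsmul_mem (st.lev.stable σ) k

theorem smul_mem_S (σ : GalQ) {x : FPt P} (hx : x ∈ st.S) : σ • x ∈ st.S := by
  rw [mem_S, ← nsmul_smul]
  exact st.smul_mem_Z σ hx

/-- The action on `S`. -/
def act (σ : GalQ) : st.S →+ st.S where
  toFun s := ⟨σ • (s : FPt P), st.smul_mem_S σ s.2⟩
  map_zero' := Subtype.ext (smul_pt_zero σ)
  map_add' s t := Subtype.ext (smul_pt_add σ (s : FPt P) t)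

/-- The action on `V`. -/
def actV (σ : GalQ) : st.V →+ st.V :=
  QuotientAddGroup.map st.Z st.Z (st.act σ) fun _ hs => st.smul_mem_Z σ hs

theorem actV_proj (σ : GalQ) (s : st.S) : st.actV σ (st.proj s) = st.proj (st.act σ s) := rfl

instance : DistribMulAction GalQ st.V where
  smul σ w := st.actV σ w
  one_smul w := by
    obtain ⟨s, rfl⟩ := st.proj_surjective w
    change st.actV 1 _ = _
    rw [actV_proj]
    exact congrArg st.proj (Subtype.ext (one_smul GalQ (s : FPt P)))
  mul_smul σ τ w := by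
    obtain ⟨s, rfl⟩ := st.proj_surjective w
    change st.actV (σ * τ) _ = st.actV σ (st.actV τ _)
    rw [actV_proj, actV_proj, actV_proj]
    exact congrArg st.proj (Subtype.ext (mul_smul σ τ (s : FPt P)))
  smul_zero σ := map_zero (st.actV σ)
  smul_add σ := map_add (st.actV σ)

theorem smul_proj (σ : GalQ) (s : st.S) : σ • st.proj s = st.proj (st.act σ s) := rfl

instance : SMulCommClass GalQ (ZMod P.p) st.V :=
  ⟨fun σ k w => ZMod.map_smul (st.actV σ) k w⟩

/-- The torsion of order `p` inside `S`. -/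
def torS : AddSubgroup st.S := ((nsmulAddMonoidHom P.p).comp st.S.subtype).ker

/-- The image of the torsion of order `p`. -/
def CV : Submodule (ZMod P.p) st.V := AddSubgroup.toZModSubmodule P.p (st.torS.map st.proj)

theorem natCard_S : Nat.card st.S = P.p ^ 2 * P.p ^ (st.n + 1) := by
  have : (P.freyCurve⁄Qbar).IsElliptic := frey_isElliptic
  set f : st.S →+ FPt P := (nsmulAddMonoidHom P.p).comp st.S.subtype with hf
  have hr : f.range = AddSubgroup.zmultiples st.g := by
    refine le_antisymm ?_ ?_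
    · rintro _ ⟨s, rfl⟩; exact s.2
    · intro y hy
      obtain ⟨z, hz⟩ := ECTorsion.nsmul_surjective (P.freyCurve⁄Qbar) P.hp0 y
      simp only at hz
      exact ⟨⟨z, (st.mem_S).2 (by rw [hz]; exact hy)⟩, hz⟩
  have hk : Nat.card f.ker = P.p ^ 2 := by
    rw [← ECTorsion.card_nsmul_eq_zero (P.freyCurve⁄Qbar) (Nat.cast_ne_zero.2 P.hp0 :
      (P.p : Qbar) ≠ 0)]
    exact Nat.card_congr
      { toFun := fun s => ⟨(s.1 : FPt P), s.2⟩
        invFun := fun x => ⟨⟨x.1, (st.mem_S).2 (by rw [x.2]; exact zero_mem _)⟩, x.2⟩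
        left_inv := fun _ => rfl
        right_inv := fun _ => rfl }
  rw [AddSubgroup.card_eq_card_quotient_mul_card_addSubgroup f.ker,
    Nat.card_congr (QuotientAddGroup.quotientKerEquivRange f).toEquiv, hr, Nat.card_zmultiples,
    L.addOrderOf_lift st.lev.gen, hk, mul_comm]

theorem natCard_V : Nat.card st.V = P.p ^ 2 := by
  have h := AddSubgroup.card_eq_card_quotient_mul_card_addSubgroup st.Z
  have hZ : Nat.card st.Z = P.p ^ (st.n + 1) :=
    (Nat.card_congr (AddSubgroup.addSubgroupOfEquivOfLe st.zmultiples_le_S).toEquiv).trans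
      (by rw [Nat.card_zmultiples, L.addOrderOf_lift st.lev.gen])
  rw [natCard_S, hZ] at h
  exact (Nat.eq_of_mul_eq_mul_right (pow_pos P.pp.pos _) h).symm

theorem natCard_CV [Fact P.p.Prime] : Nat.card st.CV = P.p := by
  let e : FT P →+ st.S :=
    { toFun := fun x => ⟨(x : FPt P), (st.mem_S).2 (by rw [nsmul_coe]; exact zero_mem _)⟩
      map_zero' := rfl
      map_add' := fun _ _ => rfl }
  set f : FT P →+ st.V := st.proj.comp e with hf
  have hr : f.range = st.CV.toAddSubgroup := by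
    ext w
    constructor
    · rintro ⟨x, rfl⟩
      exact ⟨e x, nsmul_coe x, rfl⟩
    · rintro ⟨s, hs, rfl⟩
      exact ⟨toFT (s : FPt P) hs, rfl⟩
  have hk : f.ker = L.N.toAddSubgroup := by
    ext x
    rw [AddMonoidHom.mem_ker, hf, AddMonoidHom.comp_apply, st.proj_eq_zero]
    constructor
    · intro hx
      exact L.coe_mem_C.1 (L.mem_C_of_mem_zmultiples st.lev.gen hx (nsmul_coe x))
    · intro hx
      exact L.C_le st.lev.gen (L.coe_mem_C.2 hx)
  have h := AddSubgroup.card_eq_card_quotient_mul_card_addSubgroup f.ker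
  rw [Nat.card_congr (QuotientAddGroup.quotientKerEquivRange f).toEquiv, hr, natCard_torsion] at h
  have hN : Nat.card f.ker = P.p := by
    rw [hk]
    change Nat.card L.N = P.p
    have := Module.finite_of_finrank_pos (show 0 < Module.finrank (ZMod P.p) (FT P) by
      rw [finrank_eq_two]; norm_num)
    rw [Module.natCard_eq_pow_finrank (K := ZMod P.p), finrank_line L.ne_bot L.ne_top,
      Nat.card_zmod, pow_one]
  rw [hN, pow_two] at h
  exact (Nat.eq_of_mul_eq_mul_right P.pp.pos h).symm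

theorem exists_E1_lift {A : ValuationSubring Qbar} (hA : A.LiesOverPrime P.p) :
    ∃ s : FPt P, P.p • s = st.g ∧ InE1 A (FE P) s := by
  have : (P.freyCurve⁄Qbar).IsElliptic := frey_isElliptic
  obtain ⟨s₀, hs₀⟩ := ECTorsion.nsmul_surjective (P.freyCurve⁄Qbar) P.hp0 st.g
  simp only at hs₀
  obtain ⟨σ, hσ, hne⟩ := L.exists_inertia_ne hA
  obtain ⟨a, hag, hac⟩ := L.exists_common_mul st.lev.gen st.lev.stable σ
  have hnd := L.not_dvd_sub_one hne hac
  set w := σ • s₀ - a • s₀ with hw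
  have hpw : P.p • w = 0 := by
    rw [hw, nsmul_sub, ← nsmul_smul, hs₀, hag, ← natCast_zsmul _ P.p, ← mul_zsmul, mul_comm,
      mul_zsmul, natCast_zsmul, hs₀, sub_self]
  obtain ⟨u, t, hut⟩ := (Nat.prime_iff_prime_int.mp P.pp).coprime_iff_not_dvd.mpr hnd
  set s := s₀ + t • w with hs
  have hps : P.p • s = st.g := by
    rw [hs, nsmul_add, hs₀, ← natCast_zsmul _ P.p, ← mul_zsmul, mul_comm, mul_zsmul, natCast_zsmul,
      hpw, zsmul_zero, add_zero]
  refine ⟨s, hps, ?_⟩
  have hz : σ • s - a • s ∈ AddSubgroup.zmultiples st.g := by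
    have e0 : (u * (P.p : ℤ)) • w = 0 := by rw [mul_zsmul, natCast_zsmul, hpw, zsmul_zero]
    have e : σ • s - a • s = (u * (P.p : ℤ)) • w + t • (σ • w - w) := by
      rw [show u * (P.p : ℤ) = 1 - t * (a - 1) by linear_combination hut, hs, smul_pt_add,
        smul_zsmul_eq]
      have h1 : σ • s₀ = w + a • s₀ := by rw [hw]; abel
      clear_value w
      rw [h1]
      generalize σ • w = w'
      module
    rw [e, e0, zero_add]
    exact L.C_le st.lev.gen (L.C.zsmul_mem (L.sub_mem_C σ hpw) t)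
  have hW : IntAt A (FE P) := intAt_frey
  have hg1 : InE1 A (FE P) st.g :=
    L.inE1_of_mul hA (L.nsmul_gen st.lev.gen) (L.exists_common_mul st.lev.gen st.lev.stable)
  obtain ⟨k, hk⟩ := hz
  simp only at hk
  have hps2 : P.p ^ (st.n + 1 + 1) • s = 0 := by
    rw [pow_succ, mul_nsmul', hps, L.nsmul_gen st.lev.gen]
  have e : (a - 1) • s = (σ • s - s) - k • st.g := by
    rw [hk, sub_zsmul, one_zsmul]; abel
  have h0 : InE0 A (FE P) s := by
    refine (mem_E0 (hW := hW)).1 (mem_of_sub_one_smul_mem P.pp hps2 hnd ?_)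
    rw [e]
    exact sub_mem ((mem_E0 (hW := hW)).2 (smul_sub_inE0_any P.pp hA hσ P.hp_odd.pow hps2))
      (zsmul_mem ((mem_E0 (hW := hW)).2 (InE1.inE0 hg1)) k)
  refine (mem_E1 (hW := hW)).1 (mem_of_sub_one_smul_mem P.pp hps2 hnd ?_)
  rw [e]
  exact sub_mem ((mem_E1 (hW := hW)).2 (smul_sub_inE1 (inertiaElt_of_mem hσ) h0))
    (zsmul_mem ((mem_E1 (hW := hW)).2 hg1) k)

theorem admissible [Fact P.p.Prime] (hp : 17 ≤ P.p) :
    ExtCitation.IsAdmissibleExtensionCts P.p st.V st.CV where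
  stable σ w hw := by
    obtain ⟨s, hs, rfl⟩ := hw
    refine ⟨st.act σ s, ?_, rfl⟩
    change P.p • (σ • (s : FPt P)) = 0
    rw [← nsmul_smul, show P.p • (s : FPt P) = 0 from hs, smul_pt_zero]
  fixed_sub σ w hw := by
    obtain ⟨s, hs, rfl⟩ := hw
    rw [smul_proj, ← sub_eq_zero, ← map_sub, st.proj_eq_zero]
    exact L.C_le st.lev.gen (L.sub_mem_C σ hs)
  cyclo_quot σ w := by
    obtain ⟨s, rfl⟩ := st.proj_surjective w
    obtain ⟨a, hag, hac⟩ := L.exists_common_mul st.lev.gen st.lev.stable σ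
    rw [smul_proj, L.cycloExp_eq hac, Int.cast_smul_eq_zsmul, ← map_zsmul, ← map_sub]
    refine ⟨st.act σ s - a • s, ?_, rfl⟩
    change P.p • ((st.act σ s - a • s : st.S) : FPt P) = 0
    rw [AddSubgroup.coe_sub, AddSubgroup.coe_zsmul, nsmul_sub]
    obtain ⟨k, hk⟩ := (st.mem_S).1 s.2
    simp only at hk
    change P.p • (σ • (s : FPt P)) - P.p • (a • (s : FPt P)) = 0
    rw [← nsmul_smul, ← natCast_zsmul (a • (s : FPt P)) P.p, ← mul_zsmul, mul_comm, mul_zsmul,
      natCast_zsmul, ← hk, smul_zsmul_eq, hag, ← mul_zsmul, ← mul_zsmul, mul_comm, sub_self]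
  card_sub := st.natCard_CV
  card_total := st.natCard_V
  unramified_outside q hq hqp A hA σ hσ w := by
    obtain ⟨s, rfl⟩ := st.proj_surjective w
    rw [smul_proj, ← sub_eq_zero, ← map_sub, st.proj_eq_zero, AddSubgroup.coe_sub]
    change σ • (s : FPt P) - s ∈ _
    by_cases hbad : (q : ℤ) ∣ P.a * P.b * P.c
    · have hg0 := st.lev.avoid q hq hqp hbad A hA
      refine L.C_le st.lev.gen (L.mem_C_of_inE0 hp hq hqp hA hbad ?_ ?_
        (smul_sub_inE0_any hq hA hσ P.hp_odd.pow (st.nsmul_S s)))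
      · rw [← st.lev.gen]
        exact (mem_E0 (hW := intAt_frey)).1 (nsmul_mem ((mem_E0 (hW := intAt_frey)).2 hg0) _)
      · obtain ⟨k, hk⟩ := (st.mem_S).1 s.2
        simp only at hk
        rw [nsmul_sub, ← nsmul_smul, ← hk, smul_zsmul_eq,
          smul_eq_of_inE0 (inertiaElt_of_mem hσ) P.hp_odd.pow (val_pow_p_eq_one hq hqp hA _)
            (L.nsmul_gen st.lev.gen) hg0, sub_self]
    · rw [smul_eq_of_good hq hqp hA hbad hσ (st.nsmul_S s), sub_self]
      exact zero_mem _
  locally_split A hA := by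
    have hW : IntAt A (FE P) := intAt_frey
    have hg1 : InE1 A (FE P) st.g :=
      L.inE1_of_mul hA (L.nsmul_gen st.lev.gen) (L.exists_common_mul st.lev.gen st.lev.stable)
    set E := ((E1 hW).comap st.S.subtype).map st.proj with hE
    refine ⟨AddSubgroup.toZModSubmodule P.p E, ?_, ?_, ?_⟩
    · intro σ hσ w hw
      obtain ⟨s, hs, rfl⟩ := hw
      exact ⟨st.act σ s, inE1_smul hσ hs, rfl⟩
    · rw [Submodule.disjoint_def]
      rintro w ⟨s, hs, rfl⟩ ⟨s', hs', he⟩
      rw [st.proj_eq_zero]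
      have hd : ((s' : FPt P) - s) ∈ AddSubgroup.zmultiples st.g := by
        have := (st.proj_eq_zero (s := s' - s)).1 (by rw [map_sub, he, sub_self])
        simpa using this
      refine L.C_le st.lev.gen (L.mem_C_of_inE1 hA hs ((mem_E1 (hW := hW)).1 ?_))
      have h1 := sub_mem (show (s' : FPt P) ∈ E1 hW from hs')
        (AddSubgroup.zmultiples_le.2 ((mem_E1 (hW := hW)).2 hg1) hd)
      rwa [sub_sub_cancel] at h1
    · rw [codisjoint_iff, eq_top_iff]
      intro w _
      obtain ⟨s, rfl⟩ := st.proj_surjective w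
      obtain ⟨t, ht, ht1⟩ := st.exists_E1_lift hA
      obtain ⟨k, hk⟩ := (st.mem_S).1 s.2
      simp only at hk
      have htS : t ∈ st.S := (st.mem_S).2 (by rw [ht]; exact AddSubgroup.mem_zmultiples _)
      rw [← sub_add_cancel s (k • ⟨t, htS⟩), map_add]
      refine Submodule.add_mem_sup ⟨s - k • ⟨t, htS⟩, ?_, rfl⟩ ⟨k • ⟨t, htS⟩, ?_, rfl⟩
      · change P.p • ((s - k • ⟨t, htS⟩ : st.S) : FPt P) = 0
        rw [AddSubgroup.coe_sub, AddSubgroup.coe_zsmul, nsmul_sub,
          ← natCast_zsmul (k • t) P.p, ← mul_zsmul, mul_comm, mul_zsmul, natCast_zsmul, ht, hk,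
          sub_self]
      · exact zsmul_mem (show (⟨t, htS⟩ : st.S) ∈ (E1 hW).comap st.S.subtype from ht1) k
  open_kernel := by
    have : (P.freyCurve⁄Qbar).IsElliptic := frey_isElliptic
    have := ECTorsion.finite_torsionBy P.freyCurve.toAffine
      (n := P.p ^ (st.n + 1 + 1)) (Nat.cast_ne_zero.2 (pow_ne_zero _ P.hp0) :
        ((P.p ^ (st.n + 1 + 1) : ℕ) : Qbar) ≠ 0)
    obtain ⟨E, hEd, hEfix⟩ := ECTorsion.exists_fixingSubgroup_smul_eq (S := ℚ) (K := Qbar)
      P.freyCurve.toAffine (n := P.p ^ (st.n + 1 + 1))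
    let H : Subgroup GalQ :=
      { carrier := {σ | ∀ w : st.V, σ • w = w}
        one_mem' := fun w => one_smul _ w
        mul_mem' := fun {a b} ha hb w => by rw [mul_smul, hb w, ha w]
        inv_mem' := fun {a} ha w => by rw [inv_smul_eq_iff, ha w] }
    refine Subgroup.isOpen_mono (H₂ := H) (fun σ hσ w => ?_)
      (IntermediateField.fixingSubgroup_isOpen E)
    obtain ⟨s, rfl⟩ := st.proj_surjective w
    rw [smul_proj]
    refine congrArg st.proj (Subtype.ext ?_)
    have h := congrArg Subtype.val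
      (hEfix σ hσ ⟨s, (ECTorsion.mem_torsionBy_iff_nsmul _ _).2 (st.nsmul_S s)⟩)
    exact h

end Stage

include L

/-- Vanishing of extensions lifts a level. -/
theorem exists_level_succ [Fact P.p.Prime] (hp : 17 ≤ P.p) {n : ℕ} {g : FPt P}
    (hL : L.Level n g) : ∃ h, L.Level (n + 1) h := by
  have : (P.freyCurve⁄Qbar).IsElliptic := frey_isElliptic
  let st : L.Stage := ⟨n, g, hL⟩
  obtain ⟨C', hC', hcompl⟩ := ExtVanishing.extVanishingCts (p := P.p) (by omega) st.V st.CV
    (st.admissible hp)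
  obtain ⟨s₀, hs₀⟩ := ECTorsion.nsmul_surjective (P.freyCurve⁄Qbar) P.hp0 g
  simp only at hs₀
  have hmem : s₀ ∈ st.S := (st.mem_S).2 (by rw [hs₀]; exact AddSubgroup.mem_zmultiples g)
  obtain ⟨w₁, hw₁, w₂, hw₂, hw⟩ := Submodule.mem_sup.1
    (hcompl.sup_eq_top.ge (Submodule.mem_top (x := st.proj ⟨s₀, hmem⟩)))
  obtain ⟨e, he, rfl⟩ := hw₁
  have hpe : P.p • (e : FPt P) = 0 := he
  set hS' : st.S := ⟨s₀, hmem⟩ - e with hhS
  have hprojh : st.proj hS' = w₂ := by rw [hhS, map_sub, ← hw, add_sub_cancel_left]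
  set h : FPt P := (hS' : FPt P) with hh
  have hph : P.p • h = g := by
    rw [hh, hhS, AddSubgroup.coe_sub, nsmul_sub, hpe, sub_zero]
    exact hs₀
  have hg1 : P.p ^ (n + 1) • h = L.c := by rw [pow_succ, mul_nsmul', hph, hL.gen]
  have hgZ : AddSubgroup.zmultiples g ≤ AddSubgroup.zmultiples h :=
    AddSubgroup.zmultiples_le.2 (hph ▸ nsmul_mem (AddSubgroup.mem_zmultiples h) _)
  have hstab : ∀ σ : GalQ, σ • h ∈ AddSubgroup.zmultiples h := by
    intro σ
    have hσw := hC' σ w₂ hw₂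
    rw [← hprojh, Stage.smul_proj] at hσw
    obtain ⟨k, hk⟩ := (st.mem_S).1 (st.act σ hS').2
    simp only at hk
    set r : st.S := st.act σ hS' - k • hS' with hr
    have hrE : st.proj r ∈ st.CV := ⟨r, by
      change P.p • (r : FPt P) = 0
      rw [hr, AddSubgroup.coe_sub, AddSubgroup.coe_zsmul, nsmul_sub,
        ← natCast_zsmul (k • (hS' : FPt P)) P.p, ← mul_zsmul, mul_comm, mul_zsmul, natCast_zsmul,
        ← hh, hph]
      rw [hk]
      exact sub_self _, rfl⟩
    have hrC : st.proj r ∈ C' := by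
      rw [hr, map_sub, map_zsmul, hprojh]
      exact C'.sub_mem hσw (zsmul_mem hw₂ k)
    have hr0 : st.proj r = 0 := by
      have := hcompl.disjoint
      rw [Submodule.disjoint_def] at this
      exact this _ hrE hrC
    have hmem' := hgZ ((st.proj_eq_zero).1 hr0)
    rw [hr, AddSubgroup.coe_sub, AddSubgroup.coe_zsmul, ← hh] at hmem'
    have := add_mem hmem' (zsmul_mem (AddSubgroup.mem_zmultiples h) k)
    rw [sub_add_cancel] at this
    exact this
  have havoid := L.avoid_of_nsmul hp hg1 hstab (by rw [hph]; exact hL.avoid)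
  exact ⟨h, hg1, hstab, fun σ x hx => L.cof_succ hp hL hph hstab havoid σ x hx, havoid⟩

/-- No cofixed line for `p ≥ 17`. -/
theorem false_of_cofixed [Fact P.p.Prime] (hp : 17 ≤ P.p) : False := by
  classical
  have : (P.freyCurve⁄Qbar).IsElliptic := frey_isElliptic
  have levels : ∀ n, ∃ g, L.Level n g := by
    intro n
    induction n with
    | zero => exact ⟨L.c, L.level_zero hp⟩
    | succ n ih => obtain ⟨g, hg⟩ := ih; exact L.exists_level_succ hp hg
  set M := (P.a * P.b * P.c).natAbs + P.p + 3 with hM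
  obtain ⟨ℓ, hℓM, hℓ⟩ := Nat.exists_infinite_primes M
  have hgood : ¬ (ℓ : ℤ) ∣ P.a * P.b * P.c := fun h => by
    have := Nat.le_of_dvd (Int.natAbs_pos.2 P.habc0) (Int.natCast_dvd.1 h)
    omega
  set N := ℓ * ℓ + 2 with hN
  obtain ⟨g, hL⟩ := levels N
  obtain ⟨A, hA⟩ := exists_liesOverPrime hℓ
  obtain ⟨σ, hσ⟩ := exists_isFrobeniusAt A hℓ hA
  set m := P.p ^ (N + 1) with hm
  have hm0 : (m : Qbar) ≠ 0 := Nat.cast_ne_zero.2 (pow_ne_zero _ P.hp0)
  have := ECTorsion.finite_torsionBy P.freyCurve.toAffine hm0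
  set T := Submodule.torsionBy ℤ (P.freyCurve⁄Qbar).Point (m : ℕ) with hT
  let f : T →+ FPt P :=
    { toFun := fun x => σ • (x : FPt P) - x
      map_zero' := by simp
      map_add' := fun x y => by
        rw [Submodule.coe_add, smul_pt_add]; abel }
  have hr : f.range ≤ AddSubgroup.zmultiples g := by
    rintro _ ⟨x, rfl⟩
    exact hL.cof σ x ((ECTorsion.mem_torsionBy_iff_nsmul _ _).1 x.2)
  have hgfin : IsOfFinAddOrder g := addOrderOf_pos_iff.1 (by
    rw [L.addOrderOf_lift hL.gen]; exact pow_pos P.pp.pos _)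
  have : Finite (AddSubgroup.zmultiples g) :=
    Finite.of_equiv _ (finEquivZMultiples hgfin)
  have hrc : Nat.card f.range ≤ m := by
    refine (Nat.card_le_card_of_injective _ (AddSubgroup.inclusion_injective hr)).trans_eq ?_
    rw [Nat.card_zmultiples, L.addOrderOf_lift hL.gen]
  have hcard := AddSubgroup.card_eq_card_quotient_mul_card_addSubgroup f.ker
  rw [Nat.card_congr (QuotientAddGroup.quotientKerEquivRange f).toEquiv,
    ECTorsion.card_torsionBy P.freyCurve.toAffine hm0] at hcard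
  have hker : m ≤ Nat.card f.ker := by
    have h1 : m * m ≤ m * Nat.card f.ker := by
      rw [← pow_two, hcard]; exact Nat.mul_le_mul_right _ hrc
    exact Nat.le_of_mul_le_mul_left h1 (pow_pos P.pp.pos _)
  have : Fintype f.ker := Fintype.ofFinite _
  set s : Finset (FPt P) :=
    ((Finset.univ : Finset f.ker).erase 0).image (fun x : f.ker => ((x : T) : FPt P)) with hs
  have hscard : s.card = Nat.card f.ker - 1 := by
    rw [hs, Finset.card_image_of_injective _
      (fun a b h => Subtype.ext (Subtype.ext h)), Finset.card_erase_of_mem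
      (Finset.mem_univ _), Finset.card_univ, Nat.card_eq_fintype_card]
  have hq2 : ℓ ≠ 2 := by omega
  have hvp : A.valuation ((m : ℕ) : Qbar) = 1 := val_pow_p_eq_one hℓ (by omega) hA _
  have hle := frobenius_fixed_card_le hℓ hσ P.hp_odd.pow hvp s fun x hx => by
    obtain ⟨y, hy, rfl⟩ := Finset.mem_image.1 hx
    refine ⟨fun h0 => (Finset.mem_erase.1 hy).1 (Subtype.ext (Subtype.ext h0)),
      (ECTorsion.mem_torsionBy_iff_nsmul _ _).1 (y : T).2, inE0_of_good hℓ hq2 hA hgood _, ?_⟩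
    exact sub_eq_zero.1 y.2
  have hbig : N + 1 < m := by
    rw [hm]
    exact Nat.lt_pow_self P.pp.one_lt
  omega

end CofixedData

/-- The Frey curve has no cofixed line for `p ≥ 17`. -/
theorem no_cofixed_line (P : FreyPackage) (hp : 17 ≤ P.p) :
    ¬ HasGaloisStableCofixedLine (K := AlgebraicClosure ℚ) ℚ P.freyCurve P.p := fun h => by
  have : Fact P.p.Prime := ⟨P.pp⟩
  obtain ⟨L⟩ := nonempty_cofixedData h
  exact L.false_of_cofixed hp

end FLTAgent.IsogenyDescent
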