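import Fermat.Agent.IsogenyDescent.Relation

/-!
# Fibres of the translation sum

Two points outside the kernel with the same image differ by the kernel up to sign
(`sub_or_add_mem_of_veluX_eq`, `sub_mem_of_velu_eq`). The images `imgRoot0`, `imgRoot1`,
`imgRoot2` of the points of order two are distinct and split the image cubic (`velu_relation`).
-/

set_option autoImplicit false

namespace FLTAgent.IsogenyDescent

open WeierstrassCurve WeierstrassCurve.Affine WeierstrassCurve.Affine.Point
open FLTAgent.FreyUnramified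
open Polynomial

variable {K : Type*} [Field K] [DecidableEq K] {W : WeierstrassCurve.Affine K} {A B : K}
  {M : Type*} [AddCommGroup M] [Fintype M] [DecidableEq M] {ι : M →+ W.Point}

variable (A B) in
/-- The polynomial whose roots are the abscissae of the points with `veluX = c`. -/
noncomputable def fibrePoly (ι : M →+ W.Point) (c : K) : K[X] :=
  (X - C c) * (∏ x ∈ Finset.univ.erase (0 : M), (X - C (uOf (ι x)))) +
    ∑ x ∈ Finset.univ.erase (0 : M),
      (C (dF A B (uOf (ι x))) *
          ∏ y ∈ (Finset.univ.erase (0 : M)).erase x, (X - C (uOf (ι y))) +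
        C (2 * yOf (ι x) ^ 2) *
          ∏ y ∈ ((Finset.univ.erase (0 : M)).erase x).erase (-x), (X - C (uOf (ι y))))

omit [Fintype M] [DecidableEq M] in
lemma natDegree_linear_prod (s : Finset M) :
    (∏ y ∈ s, (X - C (uOf (ι y)))).natDegree = s.card := by
  rw [natDegree_prod_of_monic _ _ (fun y _ => monic_X_sub_C _)]
  simp

lemma monic_fibrePoly (c : K) :
    (fibrePoly A B ι c).Monic ∧ (fibrePoly A B ι c).natDegree = Fintype.card M := by
  classical
  have hD : (∏ x ∈ Finset.univ.erase (0 : M), (X - C (uOf (ι x)))).Monic :=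
    monic_prod_of_monic _ _ fun y _ => monic_X_sub_C _
  have hmain := (monic_X_sub_C c).mul hD
  have hcard : (Finset.univ.erase (0 : M)).card + 1 = Fintype.card M := by
    rw [Finset.card_erase_add_one (Finset.mem_univ _), Finset.card_univ]
  have hdeg : ((X - C c) * ∏ x ∈ Finset.univ.erase (0 : M), (X - C (uOf (ι x)))).natDegree =
      Fintype.card M := by
    rw [(monic_X_sub_C c).natDegree_mul hD, natDegree_X_sub_C, natDegree_linear_prod, ← hcard,
      add_comm]
  have hlt : (∑ x ∈ Finset.univ.erase (0 : M),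
      (C (dF A B (uOf (ι x))) *
          ∏ y ∈ (Finset.univ.erase (0 : M)).erase x, (X - C (uOf (ι y))) +
        C (2 * yOf (ι x) ^ 2) *
          ∏ y ∈ ((Finset.univ.erase (0 : M)).erase x).erase (-x),
            (X - C (uOf (ι y))))).natDegree < Fintype.card M := by
    refine lt_of_le_of_lt (natDegree_sum_le_of_forall_le (n := (Finset.univ.erase (0 : M)).card) _ _
      fun x hx => ?_) (by omega)
    refine (natDegree_add_le _ _).trans (max_le ?_ ?_) <;>
      refine (natDegree_C_mul_le _ _).trans ?_ <;> rw [natDegree_linear_prod]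
    · exact Finset.card_erase_le
    · exact Finset.card_erase_le.trans Finset.card_erase_le
  rw [← hdeg] at hlt
  exact ⟨hmain.add_of_left (degree_lt_degree hlt),
    (natDegree_add_eq_left_of_natDegree_lt hlt).trans hdeg⟩

variable (hk : KernelData W A B ι)
include hk

lemma fibrePoly_eval (c : K) {u : K} (hne : ∀ x : M, x ≠ 0 → u ≠ uOf (ι x)) :
    (fibrePoly A B ι c).eval u =
      (u + veluR A B ι u - c) * ∏ x ∈ Finset.univ.erase (0 : M), (u - uOf (ι x)) := by
  simp only [fibrePoly, eval_add, eval_mul, eval_sub, eval_X, eval_C, eval_prod, eval_finsetSum]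
  rw [show (u + veluR A B ι u - c) = (u - c) + veluR A B ι u by ring, add_mul, add_right_inj,
    veluR, Finset.sum_mul]
  refine Finset.sum_congr rfl fun x hx => ?_
  have hx0 := (Finset.mem_erase.mp hx).1
  have hd : u - uOf (ι x) ≠ 0 := sub_ne_zero_of_ne (hne x hx0)
  have hneg : -x ∈ (Finset.univ.erase (0 : M)).erase x :=
    Finset.mem_erase.mpr ⟨fun h => hx0 (eq_zero_of_two_nsmul hk.odd
      (by rw [two_nsmul]; exact (eq_neg_iff_add_eq_zero.mp h.symm))),
      Finset.mem_erase.mpr ⟨neg_ne_zero.mpr hx0, Finset.mem_univ _⟩⟩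
  have e1 := Finset.mul_prod_erase (Finset.univ.erase (0 : M)) (fun y => u - uOf (ι y)) hx
  have e2 := Finset.mul_prod_erase _ (fun y => u - uOf (ι y)) hneg
  simp only [map_neg, uOf_neg] at e2
  rw [← e1, ← e2]
  field_simp

lemma fibrePoly_eval_translate (a : W.Point) (ha : a ∉ ι.range) (x : M) :
    (fibrePoly A B ι (veluX ι a)).eval (uOf (a + ι x)) = 0 := by
  have hmem : a + ι x ∉ ι.range := fun h => ha (by
    simpa using AddSubgroup.sub_mem _ h (⟨x, rfl⟩ : ι x ∈ ι.range))
  rw [fibrePoly_eval hk _ fun y hy => hk.uOf_ne hmem hy,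
    ← veluX_eq ι hk.model hk.inj (hk.ne_zero_of_not_mem hmem) fun y hy => hk.uOf_ne hmem hy,
    veluX_add, sub_self, zero_mul]

omit [DecidableEq M] hk in
lemma card_image_translate (hι : Function.Injective ι) (a : W.Point) (ha : a ∉ ι.range) :
    Fintype.card M ≤ 2 * (Finset.univ.image fun x : M => uOf (a + ι x)).card := by
  classical
  rw [← Finset.card_univ]
  refine Finset.card_le_mul_card_image _ 2 fun b hb => ?_
  obtain ⟨x₀, -, hx₀⟩ := Finset.mem_image.mp hb
  subst hx₀
  have key : ∀ x ∈ ({y ∈ (Finset.univ : Finset M) | uOf (a + ι y) = uOf (a + ι x₀)} : Finset M),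
      a + ι x = a + ι x₀ ∨ a + ι x = -(a + ι x₀) := fun x hx =>
    eq_or_eq_neg_of_uOf_eq (fun h0 =>
      ha ⟨-x, by rw [map_neg]; exact (eq_neg_of_add_eq_zero_left h0).symm⟩)
      (fun h0 => ha ⟨-x₀, by rw [map_neg]; exact (eq_neg_of_add_eq_zero_left h0).symm⟩)
      (Finset.mem_filter.mp hx).2
  refine le_trans (Finset.card_le_card_of_injOn (fun x => a + ι x)
    (t := {a + ι x₀, -(a + ι x₀)}) (fun x hx => ?_)
    (fun x _ y _ e => hι (add_left_cancel e))) Finset.card_le_two
  rcases key x hx with h | h <;> simp [h]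

/-- Points with the same image abscissa agree up to sign modulo the kernel. -/
lemma sub_or_add_mem_of_veluX_eq {a b : W.Point} (ha : a ∉ ι.range) (hb : b ∉ ι.range)
    (h : veluX ι a = veluX ι b) : a - b ∈ ι.range ∨ a + b ∈ ι.range := by
  classical
  by_contra hcon
  rw [not_or] at hcon
  set Sa := Finset.univ.image fun x : M => uOf (a + ι x) with hSa
  set Sb := Finset.univ.image fun x : M => uOf (b + ι x) with hSb
  have hnz : ∀ {c : W.Point}, c ∉ ι.range → ∀ x, c + ι x ≠ 0 := fun hc x h0 =>
    hc ⟨-x, by rw [map_neg]; exact (eq_neg_of_add_eq_zero_left h0).symm⟩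
  have hdisj : Disjoint Sa Sb := by
    rw [Finset.disjoint_left]
    intro u hu hu'
    obtain ⟨x, -, rfl⟩ := Finset.mem_image.mp hu
    obtain ⟨y, -, hy⟩ := Finset.mem_image.mp hu'
    rcases eq_or_eq_neg_of_uOf_eq (hnz hb y) (hnz ha x) hy with e | e
    · exact hcon.1 ⟨y - x, by
        rw [map_sub, sub_eq_sub_iff_add_eq_add, add_comm, e]⟩
    · exact hcon.2 ⟨-x - y, by
        rw [map_sub, map_neg]
        rw [neg_add] at e
        calc -ι x - ι y = a + (-a + -ι x) - ι y := by abel
          _ = a + b := by rw [← e]; abel⟩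
  have hroots : ∀ u ∈ Sa ∪ Sb, (fibrePoly A B ι (veluX ι a)).IsRoot u := by
    intro u hu
    rcases Finset.mem_union.mp hu with hu | hu <;> obtain ⟨x, -, rfl⟩ := Finset.mem_image.mp hu
    · exact fibrePoly_eval_translate hk a ha x
    · rw [h]; exact fibrePoly_eval_translate hk b hb x
  obtain ⟨hmonic, hdeg⟩ := monic_fibrePoly (ι := ι) (A := A) (B := B) (veluX ι a)
  have hcard : (Sa ∪ Sb).card ≤ Fintype.card M := by
    rw [← hdeg]
    exact card_le_degree_of_subset_roots fun u hu =>
      (mem_roots hmonic.ne_zero).mpr (hroots u (by simpa using hu))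
  rw [Finset.card_union_of_disjoint hdisj] at hcard
  have h1 := card_image_translate hk.inj a ha
  have h2 := card_image_translate hk.inj b hb
  obtain ⟨j, hj⟩ := hk.odd
  rw [← hSa] at h1
  rw [← hSb] at h2
  omega

/-- The abscissae of the images of the two-torsion points. -/
noncomputable def imgRoot0 : K := veluX ι (pt0 hk.model)

/-- The abscissa of the image of `(A, 0)`. -/
noncomputable def imgRoot1 : K := veluX ι (pt1 hk.model)

/-- The abscissa of the image of `(-B, 0)`. -/
noncomputable def imgRoot2 : K := veluX ι (pt2 hk.model)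

lemma pt_not_mem {Y : K} {u : K} (h : W.Nonsingular u Y) (hY : Y = 0) :
    Point.some u Y h ∉ ι.range :=
  hk.not_mem_range_of_yOf_eq_zero (some_ne_zero h) hY

lemma veluX_pt_ne {u u' : K} (h : W.Nonsingular u 0) (h' : W.Nonsingular u' 0) (hne : u ≠ u') :
    veluX ι (Point.some u 0 h) ≠ veluX ι (Point.some u' 0 h') := by
  intro he
  have hneg : -(Point.some u' 0 h' : W.Point) = Point.some u' 0 h' := by
    rw [neg_some, some.injEq]
    exact ⟨rfl, by rw [hk.model.negY_eq, _root_.neg_zero]⟩
  have hneg' : -(Point.some u 0 h : W.Point) = Point.some u 0 h := by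
    rw [neg_some, some.injEq]
    exact ⟨rfl, by rw [hk.model.negY_eq, _root_.neg_zero]⟩
  have hor := sub_or_add_mem_of_veluX_eq hk (pt_not_mem hk h rfl) (pt_not_mem hk h' rfl) he
  rw [sub_eq_add_neg, hneg, or_self] at hor
  obtain ⟨x, hx⟩ := hor
  have h2 : ι (2 • x) = 0 := by
    rw [map_nsmul, hx, two_nsmul]
    calc Point.some u 0 h + Point.some u' 0 h' + (Point.some u 0 h + Point.some u' 0 h')
        = (Point.some u 0 h + Point.some u 0 h) + (Point.some u' 0 h' + Point.some u' 0 h') := by
          abel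
      _ = (Point.some u 0 h + -Point.some u 0 h) + (Point.some u' 0 h' + -Point.some u' 0 h') := by
          rw [hneg, hneg']
      _ = 0 := by abel
  have hx0 : x = 0 := eq_zero_of_two_nsmul hk.odd (hk.inj (h2.trans (_root_.map_zero ι).symm))
  rw [hx0, _root_.map_zero] at hx
  have := eq_neg_of_add_eq_zero_left hx.symm
  rw [hneg, some.injEq] at this
  exact hne this.1

lemma imgRoot_ne : imgRoot0 hk ≠ imgRoot1 hk ∧ imgRoot0 hk ≠ imgRoot2 hk ∧
    imgRoot1 hk ≠ imgRoot2 hk := by
  refine ⟨veluX_pt_ne hk _ _ hk.model.A_ne.symm, veluX_pt_ne hk _ _ ?_, veluX_pt_ne hk _ _ ?_⟩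
  · exact fun h => hk.model.B_ne (by linear_combination h)
  · exact fun h => hk.model.AB_ne (by linear_combination h)

variable [IsAlgClosed K] [DecidableEq (FractionRing W.CoordinateRing)]

/-- The Weierstrass equation of the image. -/
lemma velu_relation {a : W.Point} (ha : a ∉ ι.range) :
    veluY ι a ^ 2 =
      (veluX ι a - imgRoot0 hk) * (veluX ι a - imgRoot1 hk) * (veluX ι a - imgRoot2 hk) := by
  obtain ⟨c, hc⟩ := exists_velu_constant hk
  have hroot : ∀ {u : K} (h : W.Nonsingular u 0),
      -veluCubic A B ι (veluX ι (Point.some u 0 h)) = c := fun {u} h => by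
    have := hc _ (pt_not_mem hk h rfl)
    rw [hk.veluY_eq_zero (some_ne_zero h) rfl] at this
    rwa [zero_pow two_ne_zero, zero_sub] at this
  have h0 : -veluCubic A B ι (imgRoot0 hk) = c := hroot _
  have h1 : -veluCubic A B ι (imgRoot1 hk) = c := hroot _
  have h2 : -veluCubic A B ι (imgRoot2 hk) = c := hroot _
  have hX := hc a ha
  obtain ⟨n01, n02, n12⟩ := imgRoot_ne hk
  generalize imgRoot0 hk = r0, imgRoot1 hk = r1, imgRoot2 hk = r2 at *
  simp only [veluCubic] at h0 h1 h2 hX
  have q01 : r0 ^ 2 + r0 * r1 + r1 ^ 2 + (B - A) * (r0 + r1) + veluA4 A B ι = 0 :=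
    mul_left_cancel₀ (sub_ne_zero_of_ne n01) (by linear_combination h1 - h0)
  have q02 : r0 ^ 2 + r0 * r2 + r2 ^ 2 + (B - A) * (r0 + r2) + veluA4 A B ι = 0 :=
    mul_left_cancel₀ (sub_ne_zero_of_ne n02) (by linear_combination h2 - h0)
  have hsum : r0 + r1 + r2 + (B - A) = 0 :=
    mul_left_cancel₀ (sub_ne_zero_of_ne n12) (by linear_combination q01 - q02)
  linear_combination hX - h0 + (veluX ι a - r0) * q01 +
    (veluX ι a - r0) * (veluX ι a - r1) * hsum

/-- The map to the image is injective modulo the kernel. -/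
lemma sub_mem_of_velu_eq {a b : W.Point} (ha : a ∉ ι.range) (hb : b ∉ ι.range)
    (hX : veluX ι a = veluX ι b) (hY : veluY ι a = veluY ι b) : a - b ∈ ι.range := by
  rcases sub_or_add_mem_of_veluX_eq hk ha hb hX with h | h
  · exact h
  obtain ⟨x, hx⟩ := h
  have hYb : veluY ι a = -veluY ι b := by
    rw [show a = -b + ι x by rw [hx]; abel, veluY_add, veluY_neg ι hk.model]
  have hY0 : veluY ι a = 0 := by
    have h2 : 2 * veluY ι a = 0 := by
      rw [← hY] at hYb; linear_combination hYb
    exact (mul_eq_zero.mp h2).resolve_left hk.model.two_ne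
  have hrel := velu_relation hk ha
  rw [hY0, zero_pow two_ne_zero] at hrel
  have key : ∀ {u : K} (h : W.Nonsingular u 0), veluX ι a = veluX ι (Point.some u 0 h) →
      a + a ∈ ι.range := by
    intro u h he
    have hneg : -(Point.some u 0 h : W.Point) = Point.some u 0 h := by
      rw [neg_some, some.injEq]
      exact ⟨rfl, by rw [hk.model.negY_eq, _root_.neg_zero]⟩
    have hor := sub_or_add_mem_of_veluX_eq hk ha (pt_not_mem hk h rfl) he
    rw [sub_eq_add_neg, hneg, or_self] at hor
    have h2 := AddSubgroup.add_mem _ hor hor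
    rwa [add_add_add_comm, ← sub_neg_eq_add (Point.some u 0 h), hneg, sub_self, add_zero] at h2
  have haa : a + a ∈ ι.range := by
    rcases mul_eq_zero.mp hrel.symm with h' | h'
    · rcases mul_eq_zero.mp h' with h' | h' <;> exact key _ (sub_eq_zero.mp h')
    · exact key _ (sub_eq_zero.mp h')
  have := AddSubgroup.sub_mem _ haa (⟨x, hx⟩ : a + b ∈ ι.range)
  rwa [show a + a - (a + b) = a - b by abel] at this

end FLTAgent.IsogenyDescent
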