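import Fermat.Agent.IsogenyDescent.CollinearBound
import Fermat.Agent.IsogenyDescent.Fibre

/-!
# Images of collinear points are collinear

The determinant `colDet` of three translation sums is an everywhere integral function of a
generic point, hence constant, and it vanishes at a test point: `colDet_eq_zero`.
-/

set_option autoImplicit false

namespace FLTAgent.IsogenyDescent

open WeierstrassCurve WeierstrassCurve.Affine WeierstrassCurve.Affine.Point
open FLTAgent.FreyUnramified

variable {K : Type*} [Field K] [DecidableEq K] {W : WeierstrassCurve.Affine K} {A B : K}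
  {M : Type*} [AddCommGroup M] [Fintype M] [DecidableEq M] {ι : M →+ W.Point}

variable [IsAlgClosed K] [DecidableEq (FractionRing W.CoordinateRing)] (hk : KernelData W A B ι)
include hk

local notation "φ" => constHom W
local notation "ιL" => AddMonoidHom.comp (pointMap (constHom W)) ι

/-- At every place the determinant at the generic point is integral. -/
lemma colDet_generic_le {b : W.Point} (hb : b ∉ ι.range)
    {V : ValuationSubring (FractionRing W.CoordinateRing)} (hV : ContainsConstants φ V) :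
    V.valuation (colDet ιL (genPoint hk) (pointMap φ b) (-(genPoint hk + pointMap φ b))) ≤ 1 := by
  have hWL := isModel_map (constHom W) hk.model
  have hci := hV.intCoeff (A := A) (B := B) hk.model.two_ne
  have hM := intPoints_map hk hV
  have hy1 := yOf_map_eq_one hk hV
  have hbL : pointMap φ b ∉ (ιL).range := by
    rintro ⟨x, hx⟩
    exact hb ⟨x, pointMap_injective φ hx⟩
  have hbi : ∀ x : M, V.valuation (uOf (pointMap φ b + ιL x)) ≤ 1 ∧
      V.valuation (yOf (pointMap φ b + ιL x)) ≤ 1 := fun x => by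
    rw [AddMonoidHom.comp_apply, ← map_add, uOf_pointMap, yOf_pointMap]
    exact ⟨hV.le_one _, hV.le_one _⟩
  set G := genPoint hk with hG
  set c := -(G + pointMap φ b) with hc
  have hcr : c ∉ (ιL).range := by
    rintro ⟨x, hx⟩
    refine genPoint_not_mem hk (-(ι x + b)) ?_
    rw [map_neg, map_add, ← AddMonoidHom.comp_apply, hx, hc, hG]
    abel
  rcases translate_or_away hci hM hWL hy1 (genPoint_not_mem_range hk) with ⟨x, hx⟩ | ⟨hGu, hGa⟩
  · have := colDet_le hci hM hWL (injective_map hk) hx hbL hbi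
    rwa [show -(G + ιL x + pointMap φ b) = c + ιL (-x) by rw [hc, map_neg]; abel, colDet_add]
      at this
  rcases translate_or_away hci hM hWL hy1 hcr with ⟨x, hx⟩ | ⟨hcu, hca⟩
  · have := colDet_le hci hM hWL (injective_map hk) hx hbL hbi
    rw [show -(c + ιL x + pointMap φ b) = G + ιL (-x) by rw [hc, map_neg]; abel, colDet_add,
      colDet_swap, Valuation.map_neg] at this
    exact this
  · have hG0 : G ≠ 0 := fun h0 => genPoint_not_mem hk 0 (by rw [← hG, h0, _root_.map_zero])
    have hc0 : c ≠ 0 := fun h0 => hcr (by rw [h0]; exact zero_mem _)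
    obtain ⟨-, -, hX1, hY1⟩ := velu_of_away hci hM hWL (injective_map hk) hG0 hGu hGa
    obtain ⟨-, -, hX3, hY3⟩ := velu_of_away hci hM hWL (injective_map hk) hc0 hcu hca
    unfold colDet
    rw [veluX_pointMap, veluY_pointMap]
    exact val_add_le' (val_sub_le' (val_mul_le' hX1 (val_sub_le' (hV.le_one _) hY3))
        (val_mul_le' hY1 (val_sub_le' (hV.le_one _) hX3)))
      (val_sub_le' (val_mul_le' (hV.le_one _) hY3) (val_mul_le' hX3 (hV.le_one _)))

omit [DecidableEq M] [IsAlgClosed K] [DecidableEq (FractionRing W.CoordinateRing)] in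
lemma veluY_eq_zero_of_add_self_mem {a : W.Point} (h : a + a ∈ ι.range) : veluY ι a = 0 := by
  obtain ⟨x, hx⟩ := h
  have e : veluY ι a = -veluY ι a := by
    conv_lhs => rw [show a = -a + ι x by rw [hx]; abel, veluY_add, veluY_neg ι hk.model]
  have : 2 * veluY ι a = 0 := by linear_combination e
  exact (mul_eq_zero.mp this).resolve_left hk.model.two_ne

omit [IsAlgClosed K] in
omit [DecidableEq (FractionRing W.CoordinateRing)] in
/-- A test point at which the determinant visibly vanishes. -/
lemma exists_test_point {b : W.Point} (hb : b ∉ ι.range) :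
    ∃ a : W.Point, a ∉ ι.range ∧ -(a + b) ∉ ι.range ∧ colDet ι a b (-(a + b)) = 0 := by
  by_cases h2 : b + b ∈ ι.range
  swap
  · exact ⟨b, hb, fun h => h2 (by simpa using AddSubgroup.neg_mem _ h), colDet_self ι b _⟩
  obtain ⟨a, ha0, hay, hab⟩ : ∃ a : W.Point, a ≠ 0 ∧ yOf a = 0 ∧ a + b ∉ ι.range := by
    have hT := pt0 hk.model
    by_cases h0 : pt0 hk.model + b ∈ ι.range
    · refine ⟨pt1 hk.model, some_ne_zero _, rfl, fun h1 => ?_⟩
      have h01 : pt0 hk.model - pt1 hk.model ∈ ι.range := by
        simpa using AddSubgroup.sub_mem _ h0 h1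
      obtain ⟨x, hx⟩ := h01
      have hneg : ∀ {u : K} (h : W.Nonsingular u 0),
          -(Point.some u 0 h : W.Point) = Point.some u 0 h := fun h => by
        rw [neg_some, some.injEq]
        exact ⟨rfl, by rw [hk.model.negY_eq, _root_.neg_zero]⟩
      have h2x : ι x = -ι x := by
        rw [hx, neg_sub, pt0, pt1, sub_eq_add_neg, hneg, sub_eq_add_neg, hneg, add_comm]
      rw [← map_neg] at h2x
      have hx0 : x = 0 := eq_zero_of_two_nsmul hk.odd (by
        rw [two_nsmul]; exact eq_neg_iff_add_eq_zero.mp (hk.inj h2x))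
      rw [hx0, _root_.map_zero, eq_comm, sub_eq_zero, pt0, pt1, some.injEq] at hx
      exact hk.model.A_ne hx.1.symm
    · exact ⟨pt0 hk.model, some_ne_zero _, rfl, h0⟩
  have har : a ∉ ι.range := hk.not_mem_range_of_yOf_eq_zero ha0 hay
  refine ⟨a, har, fun h => hab (by simpa using AddSubgroup.neg_mem _ h), ?_⟩
  have haneg : -a = a := by
    obtain ⟨h, e⟩ := exists_eq_some ha0
    rw [e, neg_some, some.injEq]
    exact ⟨rfl, by rw [hk.model.negY_eq, hay, _root_.neg_zero]⟩
  have hYa : veluY ι a = 0 := hk.veluY_eq_zero ha0 hay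
  have hYb : veluY ι b = 0 := veluY_eq_zero_of_add_self_mem hk h2
  have hYc : veluY ι (-(a + b)) = 0 := by
    refine veluY_eq_zero_of_add_self_mem hk ?_
    rw [show -(a + b) + -(a + b) = -(a + a) + -(b + b) by abel,
      show a + a = 0 by rw [add_eq_zero_iff_eq_neg, haneg], _root_.neg_zero, zero_add]
    exact AddSubgroup.neg_mem _ h2
  unfold colDet
  rw [hYa, hYb, hYc]
  ring

/-- Specialisation of the generic determinant. -/
lemma colDet_centre {b a : W.Point} (ha : a ∉ ι.range)
    (hab : -(a + b) ∉ ι.range) {V : ValuationSubring (FractionRing W.CoordinateRing)}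
    (hV : ContainsConstants φ V)
    (hu : V.valuation (uOf (genPoint hk) - φ (uOf a)) < 1)
    (hy : V.valuation (yOf (genPoint hk) - φ (yOf a)) < 1) :
    V.valuation (colDet ιL (genPoint hk) (pointMap φ b) (-(genPoint hk + pointMap φ b)) -
      φ (colDet ι a b (-(a + b)))) < 1 := by
  have hWL := isModel_map (constHom W) hk.model
  have hci := hV.intCoeff (A := A) (B := B) hk.model.two_ne
  have hG0 : genPoint hk ≠ 0 := fun h0 => genPoint_not_mem hk 0 (by rw [h0, _root_.map_zero])
  obtain ⟨hX1, hY1⟩ := velu_centre hk hV ha hG0 hu hy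
  set G := genPoint hk with hG
  set c := -(G + pointMap φ b) with hc
  -- `G - a` reduces to the origin
  obtain ⟨hnG, eG⟩ := exists_eq_some hG0
  have ha0 : pointMap φ a ≠ 0 := fun h0 =>
    hk.ne_zero_of_not_mem ha ((pointMap_injective φ) (h0.trans (_root_.map_zero _).symm))
  obtain ⟨hna, ea⟩ := exists_eq_some ha0
  have hmem := sub_mem_kerReduction hWL hci hna hnG
    (fun h1 => absurd h1 (by rw [uOf_pointMap]; exact not_lt.mpr (hV.le_one _)))
    (fun _ => by rw [uOf_pointMap]; exact hu) (fun _ => by rw [yOf_pointMap]; exact hy)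
    (fun _ h1 h2 => by
      obtain ⟨hna', -⟩ := exists_eq_some (hk.ne_zero_of_not_mem ha)
      rw [yOf_pointMap] at h1
      rw [uOf_pointMap] at h2
      have hy0 : yOf a = 0 := by
        by_contra hne; exact absurd h1 (hV.eq_one hne).ge.not_gt
      have hd0 : dF A B (uOf a) = 0 := by
        by_contra hne
        refine absurd (h2.trans_eq' (congrArg _ ?_)) (hV.eq_one hne).ge.not_gt
        simp only [dF, map_add, map_mul, map_sub, map_pow, map_neg, map_ofNat]
      rcases ((nonsingular_iff' _ _).mp hna').2 with h3 | h3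
      · rw [hk.model.a₁, hk.model.a₂, hk.model.a₄] at h3
        exact h3 (by simp only [dF] at hd0; linear_combination -hd0)
      · rw [hk.model.a₁, hk.model.a₃, hy0] at h3
        exact h3 (by ring))
  rw [← eG, ← ea] at hmem
  have hS0 : -(G - pointMap φ a) ≠ 0 := by
    rw [neg_ne_zero, sub_ne_zero]; exact genPoint_not_mem hk a
  obtain ⟨hnS, eS⟩ := exists_eq_some hS0
  have hS : 1 < V.valuation (uOf (-(G - pointMap φ a))) :=
    (neg_mem hmem) _ _ hnS eS
  have hc' : pointMap φ (-(a + b)) ≠ 0 := fun h0 =>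
    hk.ne_zero_of_not_mem hab ((pointMap_injective φ) (h0.trans (_root_.map_zero _).symm))
  obtain ⟨hu3, hy3, -⟩ := add_origin hWL hci hS hc'
    (by rw [uOf_pointMap]; exact hV.le_one _) (by rw [yOf_pointMap]; exact hV.le_one _)
  rw [show -(G - pointMap φ a) + pointMap φ (-(a + b)) = c by
    rw [hc, map_neg, map_add]; abel, uOf_pointMap] at hu3
  rw [show -(G - pointMap φ a) + pointMap φ (-(a + b)) = c by
    rw [hc, map_neg, map_add]; abel, yOf_pointMap] at hy3
  have hc0 : c ≠ 0 := by
    intro h0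
    refine genPoint_not_mem hk (-b) ?_
    rw [hc, neg_eq_zero] at h0
    rw [map_neg]; exact eq_neg_of_add_eq_zero_left h0
  obtain ⟨hX3, hY3⟩ := velu_centre hk hV hab hc0 hu3 hy3
  simp only [colDet, veluX_pointMap, veluY_pointMap, map_add, map_sub, map_mul]
  generalize veluX ιL G = X₁, veluY ιL G = Y₁, veluX ιL c = X₃, veluY ιL c = Y₃ at *
  have hXa : V.valuation (φ (veluX ι a)) ≤ 1 := hV.le_one _
  have hYa : V.valuation (φ (veluY ι a)) ≤ 1 := hV.le_one _
  have hX3' : V.valuation X₃ ≤ 1 := by
    rw [← sub_add_cancel X₃ (φ (veluX ι (-(a + b))))]; exact val_add_le' hX3.le (hV.le_one _)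
  have hY3' : V.valuation Y₃ ≤ 1 := by
    rw [← sub_add_cancel Y₃ (φ (veluY ι (-(a + b))))]; exact val_add_le' hY3.le (hV.le_one _)
  rw [show X₁ * (φ (veluY ι b) - Y₃) - Y₁ * (φ (veluX ι b) - X₃) +
      (φ (veluX ι b) * Y₃ - X₃ * φ (veluY ι b)) -
      (φ (veluX ι a) * (φ (veluY ι b) - φ (veluY ι (-(a + b)))) -
        φ (veluY ι a) * (φ (veluX ι b) - φ (veluX ι (-(a + b)))) +
        (φ (veluX ι b) * φ (veluY ι (-(a + b))) - φ (veluX ι (-(a + b))) * φ (veluY ι b))) =
      (X₁ - φ (veluX ι a)) * (φ (veluY ι b) - Y₃) - (Y₁ - φ (veluY ι a)) * (φ (veluX ι b) - X₃) +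
      (φ (veluX ι b) - φ (veluX ι a)) * (Y₃ - φ (veluY ι (-(a + b)))) +
      (φ (veluY ι a) - φ (veluY ι b)) * (X₃ - φ (veluX ι (-(a + b)))) by ring]
  have sm : ∀ {s t : FractionRing W.CoordinateRing},
      V.valuation s < 1 → V.valuation t ≤ 1 → V.valuation (s * t) < 1 := fun hs ht => by
    rw [Valuation.map_mul]; exact (mul_le_of_le_one_right zero_le ht).trans_lt hs
  refine V.valuation.map_add_lt (V.valuation.map_add_lt (V.valuation.map_sub_lt
    (sm hX1 (val_sub_le' (hV.le_one _) hY3')) (sm hY1 (val_sub_le' (hV.le_one _) hX3'))) ?_) ?_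
  · rw [mul_comm]; exact sm hY3 (val_sub_le' (hV.le_one _) hXa)
  · rw [mul_comm]; exact sm hX3 (val_sub_le' hYa (hV.le_one _))

/-- The images of three points adding to zero, none in the kernel, are collinear. -/
theorem colDet_eq_zero {a b : W.Point} (ha : a ∉ ι.range) (hb : b ∉ ι.range)
    (hab : -(a + b) ∉ ι.range) : colDet ι a b (-(a + b)) = 0 := by
  obtain ⟨d, hd⟩ := mem_range_of_forall_mem φ
    (z := colDet ιL (genPoint hk) (pointMap φ b) (-(genPoint hk + pointMap φ b)))
    fun V hV => (V.valuation_le_one_iff _).mp (colDet_generic_le hk hb hV)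
  have key : ∀ a : W.Point, a ∉ ι.range → -(a + b) ∉ ι.range → colDet ι a b (-(a + b)) = d := by
    intro a ha hab
    obtain ⟨hns, ea⟩ := exists_eq_some (hk.ne_zero_of_not_mem ha)
    obtain ⟨V, hV, hu, hy⟩ := exists_centre (W := W) hns.left
    have h := colDet_centre hk ha hab hV hu hy
    rw [← hd, ← map_sub] at h
    by_contra hne
    exact absurd h (hV.eq_one (sub_ne_zero_of_ne (Ne.symm hne))).ge.not_gt
  obtain ⟨a', ha', hab', h0⟩ := exists_test_point hk hb
  rw [key a ha hab, ← key a' ha' hab', h0]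

end FLTAgent.IsogenyDescent
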