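import Fermat.Agent.IsogenyDescent.Specialise

/-!
# Integrality of the collinearity determinant

`colDet` of three translation sums is integral at every place of the function field (`colDet_le`),
also where one of the points reduces to the origin. Used by `Collinear`.
-/

set_option autoImplicit false

namespace FLTAgent.IsogenyDescent

open WeierstrassCurve WeierstrassCurve.Affine WeierstrassCurve.Affine.Point
open FLTAgent.FreyUnramified

variable {F : Type*} [Field F] [DecidableEq F] {W : WeierstrassCurve.Affine F} {A B : F}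
  {Γ₀ : Type*} [LinearOrderedCommGroupWithZero Γ₀] {v : Valuation F Γ₀}

omit [DecidableEq F] in
lemma val_yOf_sq (hW : IsModel W A B) (hc : IntCoeff v A B) {G : W.Point}
    (hu : 1 < v (uOf G)) : v (yOf G) ^ 2 = v (uOf G) ^ 3 := by
  obtain ⟨h, e⟩ := exists_eq_some (P := G) fun h0 => by
    rw [h0, uOf_zero, _root_.map_zero] at hu
    exact not_lt_zero hu
  exact val_Y_sq hW hc h hu

/-- Adding an integral point to a point reducing to the origin. -/
lemma add_origin (hW : IsModel W A B) (hc : IntCoeff v A B) {G q : W.Point}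
    (hu : 1 < v (uOf G)) (hq : q ≠ 0) (hqu : v (uOf q) ≤ 1) (hqy : v (yOf q) ≤ 1) :
    v (uOf (G + q) - uOf q) < 1 ∧ v (yOf (G + q) - yOf q) < 1 ∧
      v (uOf G * (yOf q + yOf (G + q)) - yOf G * (uOf q - uOf (G + q))) ≤ 1 := by
  have hG : G ≠ 0 := fun h0 => by
    rw [h0, uOf_zero, _root_.map_zero] at hu
    exact not_lt_zero hu
  have hne : uOf G ≠ uOf q := fun e => absurd (e ▸ hu) (not_lt.mpr hqu)
  obtain ⟨hX, hY, -⟩ := coords_add hW hG hq hne
  have hy2 := val_yOf_sq hW hc hu
  have eG := equation_of hW G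
  have eq' := equation_of hW q
  generalize uOf (G + q) = u₃, yOf (G + q) = y₃ at *
  generalize uOf G = u, yOf G = y, uOf q = r, yOf q = s at *
  set d := u - r with hd
  have hd0 : d ≠ 0 := sub_ne_zero_of_ne hne
  have hvd : v d = v u := val_sub_eq_of_one_lt hu hqu
  have hupos : 0 < v u := zero_lt_one.trans hu
  have huy : v u < v y := by
    apply lt_of_pow_two_lt
    rw [hy2]
    exact pow_lt_pow_right₀ hu (by norm_num)
  have hy1 : 1 < v y := hu.trans huy
  have hys : v (y - s) = v y := v.map_sub_eq_of_lt_left (hqy.trans_lt hy1)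
  -- the slope
  set l := (y - s) / d with hl
  have hvl : v l = v y / v u := by rw [hl, map_div₀, hys, hvd]
  -- the numerator of `u₃ - r`
  set N := dF A B r * u - 2 * r ^ 3 - (B - A) * r ^ 2 - 2 * y * s + s ^ 2 with hN
  have hdiff : u₃ - r = N / d ^ 2 := by
    rw [hX, hl, hN, dF]
    field_simp
    rw [hd]
    linear_combination eG
  have hvN : v N ≤ v y := by
    refine v.map_add_le (v.map_sub_le (v.map_sub_le (v.map_sub_le ?_ ?_) ?_) ?_) ?_
    · rw [map_mul]; exact (mul_le_of_le_one_left zero_le (dF_le hc hqu)).trans huy.le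
    · exact (val_mul_le' hc.h2.le (val_pow_le' hqu 3)).trans hy1.le
    · exact (val_mul_le' hc.a₂_le (val_pow_le' hqu 2)).trans hy1.le
    · rw [map_mul, map_mul, hc.h2, one_mul]; exact mul_le_of_le_one_right zero_le hqy
    · exact (val_pow_le' hqy 2).trans hy1.le
  have hvdiff : v (u₃ - r) ≤ v y / v u ^ 2 := by
    rw [hdiff, map_div₀, map_pow, hvd]
    exact div_le_div_of_nonneg_right hvN zero_le
  have hyu2 : v y < v u ^ 2 := by
    apply lt_of_pow_two_lt
    rw [hy2, ← pow_mul]
    exact pow_lt_pow_right₀ hu (by norm_num)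
  have hsmall : v (u₃ - r) < 1 :=
    hvdiff.trans_lt ((div_lt_one₀ (pow_pos hupos 2)).mpr hyu2)
  have hprod : v l * v (u₃ - r) ≤ 1 := by
    refine (mul_le_mul' hvl.le hvdiff).trans ?_
    rw [div_mul_div_comm, ← pow_two, hy2, div_le_one₀ (mul_pos hupos (pow_pos hupos 2)),
      ← pow_succ']
  refine ⟨hsmall, ?_, ?_⟩
  · have e : y₃ - s = -(l * (u₃ - r) + 2 * s) := by
      rw [hY, hl]; field_simp; ring
    rw [e, v.map_neg]
    have e2 : l * (u₃ - r) + 2 * s = ((y - s) * (dF A B r * u - 2 * r ^ 3 - (B - A) * r ^ 2 + s ^ 2)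
        + 2 * y * s ^ 2 + 2 * s * (d ^ 3 - y ^ 2)) / d ^ 3 := by
      rw [hdiff, hl, hN]; field_simp; ring
    rw [e2, map_div₀, map_pow, hvd, div_lt_one₀ (pow_pos hupos 3)]
    have hlt : ∀ z, v z ≤ v y * v u → v z < v u ^ 3 := fun z hz => hz.trans_lt (by
      rw [pow_succ]; exact mul_lt_mul_of_pos_right hyu2 hupos)
    have hlin : v (dF A B r * u - 2 * r ^ 3 - (B - A) * r ^ 2 + s ^ 2) ≤ v u := by
      refine v.map_add_le (v.map_sub_le (v.map_sub_le ?_ ?_) ?_) ?_
      · rw [map_mul]; exact mul_le_of_le_one_left zero_le (dF_le hc hqu)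
      · exact (val_mul_le' hc.h2.le (val_pow_le' hqu 3)).trans hu.le
      · exact (val_mul_le' hc.a₂_le (val_pow_le' hqu 2)).trans hu.le
      · exact (val_pow_le' hqy 2).trans hu.le
    refine v.map_add_lt (v.map_add_lt (hlt _ ?_) (hlt _ ?_)) ?_
    · rw [map_mul, hys]; exact mul_le_mul' le_rfl hlin
    · rw [map_mul, map_mul, hc.h2, one_mul]
      exact (mul_le_of_le_one_right zero_le (val_pow_le' hqy 2)).trans
        (le_mul_of_one_le_right' hu.le)
    · rw [map_mul, map_mul, hc.h2, one_mul]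
      refine (mul_le_of_le_one_left zero_le hqy).trans_lt ?_
      rw [hd, eG, show (u - r) ^ 3 - u * (u - A) * (u + B) =
        -(3 * r + (B - A)) * u ^ 2 + (3 * r ^ 2 + A * B) * u - r ^ 3 by ring]
      have hu2 : v u ^ 2 < v u ^ 3 := pow_lt_pow_right₀ hu (by norm_num)
      refine (v.map_sub_le (v.map_add_le ?_ ?_) ?_).trans_lt hu2
      · rw [map_mul, v.map_neg, map_pow]
        exact mul_le_of_le_one_left zero_le
          (val_add_le' (val_mul_le' (val_ofNat_le' 3) hqu) hc.a₂_le)
      · rw [map_mul]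
        exact (mul_le_of_le_one_left zero_le (val_add_le' (val_mul_le' (val_ofNat_le' 3)
          (val_pow_le' hqu 2)) (val_mul_le' hc.hA hc.hB))).trans (le_self_pow₀ hu.le two_ne_zero)
      · exact (val_pow_le' hqu 3).trans (one_le_pow₀ hu.le)
  · have e : u * (s + y₃) - y * (r - u₃) = -((l * r - s) * (u₃ - r)) := by
      rw [hY, hl]; field_simp; rw [hd]; ring
    rw [e, v.map_neg, map_mul]
    refine (mul_le_mul' (v.map_sub (l * r) s) le_rfl).trans ?_
    rcases max_choice (v (l * r)) (v s) with h | h <;> rw [h]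
    · rw [map_mul]
      exact (mul_le_mul' (mul_le_of_le_one_right zero_le hqu) le_rfl).trans hprod
    · exact mul_le_one₀ hqy zero_le hsmall.le

section Det

variable {M : Type*} [AddCommGroup M] [Fintype M] [DecidableEq M] (ι : M →+ W.Point)

/-- The collinearity determinant of the images of three points. -/
def colDet (P Q R : W.Point) : F :=
  veluX ι P * (veluY ι Q - veluY ι R) - veluY ι P * (veluX ι Q - veluX ι R) +
    (veluX ι Q * veluY ι R - veluX ι R * veluY ι Q)

omit [DecidableEq M] in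
lemma colDet_swap (P Q R : W.Point) : colDet ι R Q P = -colDet ι P Q R := by
  unfold colDet; ring

omit [DecidableEq M] in
lemma colDet_self (P R : W.Point) : colDet ι P P R = 0 := by
  unfold colDet; ring

omit [DecidableEq M] in
lemma colDet_add (P Q R : W.Point) (x y : M) :
    colDet ι (P + ι x) Q (R + ι y) = colDet ι P Q R := by
  simp only [colDet, veluX_add, veluY_add]

variable {ι}

/-- The determinant is bounded when the moving point reduces to the origin. -/
lemma colDet_le (hc : IntCoeff v A B) (hM : IntPoints v ι) (hW : IsModel W A B)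
    (hι : Function.Injective ι) {G b : W.Point} (hu : 1 < v (uOf G)) (hb : b ∉ ι.range)
    (hbi : ∀ x : M, v (uOf (b + ι x)) ≤ 1 ∧ v (yOf (b + ι x)) ≤ 1) :
    v (colDet ι G b (-(G + b))) ≤ 1 := by
  have hne : ∀ x : M, x ≠ 0 → uOf G ≠ uOf (ι x) := fun x hx e =>
    absurd (hM x hx).1 (not_le.mpr (e ▸ hu))
  have hG : G ≠ 0 := fun h0 => by
    rw [h0, uOf_zero, _root_.map_zero] at hu
    exact not_lt_zero hu
  have hq : ∀ x : M, b + ι x ≠ 0 := fun x h0 =>
    hb ⟨-x, by rw [map_neg]; exact (eq_neg_of_add_eq_zero_left h0).symm⟩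
  have hstep := fun x => add_origin hW hc (q := b + ι x) hu (hq x) (hbi x).1 (hbi x).2
  have hXb : veluX ι b = (∑ x, uOf (b + ι x)) - ∑ x, uOf (ι x) := rfl
  have hXc : veluX ι (-(G + b)) = (∑ x, uOf (G + (b + ι x))) - ∑ x, uOf (ι x) := by
    rw [veluX_neg]; simp only [veluX, add_assoc]
  have hYb : veluY ι b = ∑ x, yOf (b + ι x) := rfl
  have hYc : veluY ι (-(G + b)) = -∑ x, yOf (G + (b + ι x)) := by
    rw [veluY_neg ι hW]; simp only [veluY, add_assoc]
  have hdX : veluX ι b - veluX ι (-(G + b)) = ∑ x, (uOf (b + ι x) - uOf (G + (b + ι x))) := by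
    rw [hXb, hXc, Finset.sum_sub_distrib]; ring
  have hdY : veluY ι b - veluY ι (-(G + b)) = ∑ x, (yOf (b + ι x) + yOf (G + (b + ι x))) := by
    rw [hYb, hYc, Finset.sum_add_distrib]; ring
  have hXb1 : v (veluX ι b) ≤ 1 := by
    rw [hXb]
    refine val_sub_le' (val_sum_le' fun x _ => (hbi x).1) (val_sum_le' fun x _ => ?_)
    by_cases hx : x = 0
    · simp [hx]
    · exact (hM x hx).1
  have hYb1 : v (veluY ι b) ≤ 1 := by rw [hYb]; exact val_sum_le' fun x _ => (hbi x).2
  have hdX1 : v (veluX ι b - veluX ι (-(G + b))) ≤ 1 := by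
    rw [hdX]
    exact val_sum_le' fun x _ => by rw [v.map_sub_swap]; exact (hstep x).1.le
  have hdY1 : v (veluY ι b - veluY ι (-(G + b))) ≤ 1 := by
    rw [hdY]
    refine val_sum_le' fun x _ => ?_
    rw [show yOf (b + ι x) + yOf (G + (b + ι x)) =
      (yOf (G + (b + ι x)) - yOf (b + ι x)) + 2 * yOf (b + ι x) by ring]
    exact val_add_le' (hstep x).2.1.le (val_mul_le' hc.h2.le (hbi x).2)
  have hXc1 : v (veluX ι (-(G + b))) ≤ 1 := by
    rw [show veluX ι (-(G + b)) = veluX ι b - (veluX ι b - veluX ι (-(G + b))) by ring]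
    exact val_sub_le' hXb1 hdX1
  have hYc1 : v (veluY ι (-(G + b))) ≤ 1 := by
    rw [show veluY ι (-(G + b)) = veluY ι b - (veluY ι b - veluY ι (-(G + b))) by ring]
    exact val_sub_le' hYb1 hdY1
  have hmain : v (uOf G * (veluY ι b - veluY ι (-(G + b))) -
      yOf G * (veluX ι b - veluX ι (-(G + b)))) ≤ 1 := by
    rw [hdX, hdY, Finset.mul_sum, Finset.mul_sum, ← Finset.sum_sub_distrib]
    exact val_sum_le' fun x _ => (hstep x).2.2
  have eX := veluX_eq ι hW hι hG hne
  have eY := veluY_eq ι hW hι hG hne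
  have hR : v (veluX ι G - uOf G) ≤ 1 := by
    rw [eX, add_sub_cancel_left]; exact (R_lt hc hM hu).le
  have hS : v (veluY ι G - yOf G) ≤ 1 := by
    rw [eY, show yOf G * (1 - veluS A B ι (uOf G)) - yOf G = -(yOf G * veluS A B ι (uOf G)) by ring,
      v.map_neg]
    have hu0 : uOf G ≠ 0 := v.ne_zero_iff.mp (zero_lt_one.trans hu).ne'
    rw [show yOf G * veluS A B ι (uOf G) = yOf G / uOf G ^ 2 * (uOf G ^ 2 * veluS A B ι (uOf G)) by
      field_simp]
    refine val_mul_le' ?_ (u2S_le hc hM hu)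
    rw [map_div₀, map_pow, div_le_one₀ (pow_pos (zero_lt_one.trans hu) 2)]
    refine (lt_of_pow_two_lt ?_).le
    rw [val_yOf_sq hW hc hu, ← pow_mul]
    exact pow_lt_pow_right₀ hu (by norm_num)
  have key : colDet ι G b (-(G + b)) =
      (veluX ι G - uOf G) * (veluY ι b - veluY ι (-(G + b))) -
      (veluY ι G - yOf G) * (veluX ι b - veluX ι (-(G + b))) +
      (uOf G * (veluY ι b - veluY ι (-(G + b))) - yOf G * (veluX ι b - veluX ι (-(G + b)))) +
      (veluX ι b * veluY ι (-(G + b)) - veluX ι (-(G + b)) * veluY ι b) := by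
    unfold colDet; ring
  rw [key]
  exact val_add_le' (val_add_le' (val_sub_le' (val_mul_le' hR hdY1) (val_mul_le' hS hdX1)) hmain)
    (val_sub_le' (val_mul_le' hXb1 hYc1) (val_mul_le' hXc1 hYb1))

end Det

end FLTAgent.IsogenyDescent
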