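import Fermat.Agent.IsogenyDescent.Collinear
import Fermat.Agent.ECTorsion.Torsion

/-!
# The isogeny with given kernel

The translation sums define a map `veluPoint` to the image curve `imgCurve`; it is additive
(`veluPoint_add`) by collinearity, giving the homomorphism `veluHom` with the given kernel.
-/

set_option autoImplicit false
set_option linter.unusedSectionVars false

namespace FLTAgent.IsogenyDescent

open WeierstrassCurve WeierstrassCurve.Affine WeierstrassCurve.Affine.Point
open FLTAgent.FreyUnramified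

variable {K : Type*} [Field K] [DecidableEq K] {W : WeierstrassCurve.Affine K} {A B : K}
  {M : Type*} [AddCommGroup M] [Fintype M] [DecidableEq M] {ι : M →+ W.Point}
  (hk : KernelData W A B ι)
include hk

/-- The two-torsion parameter `A'` of the image. -/
noncomputable def imgA : K := imgRoot1 hk - imgRoot0 hk

/-- The two-torsion parameter `B'` of the image. -/
noncomputable def imgB : K := imgRoot0 hk - imgRoot2 hk

/-- The image curve. -/
noncomputable def imgCurve : WeierstrassCurve.Affine K :=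
  ⟨0, imgB hk - imgA hk, 0, -(imgA hk * imgB hk), 0⟩

lemma imgCurve_model : IsModel (imgCurve hk) (imgA hk) (imgB hk) := by
  obtain ⟨h01, h02, h12⟩ := imgRoot_ne hk
  refine ⟨rfl, rfl, rfl, rfl, rfl, hk.model.two_ne, sub_ne_zero_of_ne h01.symm,
    sub_ne_zero_of_ne h02, ?_⟩
  rw [imgA, imgB, sub_add_sub_cancel]
  exact sub_ne_zero_of_ne h12

variable [IsAlgClosed K]

lemma velu_nonsingular {a : W.Point} (ha : a ∉ ι.range) :
    (imgCurve hk).Nonsingular (veluX ι a - imgRoot0 hk) (veluY ι a) := by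
  classical
  refine (imgCurve_model hk).nonsingular ?_
  rw [velu_relation hk ha, imgA, imgB]
  ring

open scoped Classical in
/-- The isogeny on points. -/
noncomputable def veluPoint (a : W.Point) : (imgCurve hk).Point :=
  if ha : a ∈ ι.range then 0
  else Point.some (veluX ι a - imgRoot0 hk) (veluY ι a) (velu_nonsingular hk ha)

lemma veluPoint_of_mem {a : W.Point} (ha : a ∈ ι.range) : veluPoint hk a = 0 := dif_pos ha

lemma veluPoint_of_not_mem {a : W.Point} (ha : a ∉ ι.range) :
    veluPoint hk a =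
      Point.some (veluX ι a - imgRoot0 hk) (veluY ι a) (velu_nonsingular hk ha) := dif_neg ha

lemma not_mem_add {a : W.Point} (ha : a ∉ ι.range) (x : M) : a + ι x ∉ ι.range := fun h =>
  ha (by simpa using AddSubgroup.sub_mem _ h (⟨x, rfl⟩ : ι x ∈ ι.range))

lemma veluPoint_add_ker (a : W.Point) (x : M) : veluPoint hk (a + ι x) = veluPoint hk a := by
  by_cases ha : a ∈ ι.range
  · rw [veluPoint_of_mem hk ha, veluPoint_of_mem hk (AddSubgroup.add_mem _ ha ⟨x, rfl⟩)]
  · rw [veluPoint_of_not_mem hk ha, veluPoint_of_not_mem hk (not_mem_add hk ha x), some.injEq,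
      veluX_add, veluY_add]
    exact ⟨rfl, rfl⟩

lemma veluPoint_neg (a : W.Point) : veluPoint hk (-a) = -veluPoint hk a := by
  by_cases ha : a ∈ ι.range
  · rw [veluPoint_of_mem hk ha, veluPoint_of_mem hk (AddSubgroup.neg_mem _ ha), _root_.neg_zero]
  · rw [veluPoint_of_not_mem hk ha,
      veluPoint_of_not_mem hk (fun h => ha (by simpa using AddSubgroup.neg_mem _ h)), neg_some,
      some.injEq, (imgCurve_model hk).negY_eq, veluX_neg, veluY_neg ι hk.model]
    exact ⟨rfl, rfl⟩

/-- Three distinct points of the image curve on a line add to zero. -/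
lemma add_add_eq_zero_of_det {W' : WeierstrassCurve.Affine K} {A' B' : K}
    (hW' : IsModel W' A' B') {X₁ Y₁ X₂ Y₂ X₃ Y₃ : K} (h₁ : W'.Nonsingular X₁ Y₁)
    (h₂ : W'.Nonsingular X₂ Y₂) (h₃ : W'.Nonsingular X₃ Y₃)
    (h12 : ¬(X₁ = X₂ ∧ Y₁ = Y₂)) (h13 : ¬(X₁ = X₃ ∧ Y₁ = Y₃)) (h23 : ¬(X₂ = X₃ ∧ Y₂ = Y₃))
    (hdet : X₁ * (Y₂ - Y₃) - Y₁ * (X₂ - X₃) + (X₂ * Y₃ - X₃ * Y₂) = 0) :
    Point.some X₁ Y₁ h₁ + Point.some X₂ Y₂ h₂ + Point.some X₃ Y₃ h₃ = 0 := by
  have same : ∀ {X Y Y' : K}, W'.Nonsingular X Y → W'.Nonsingular X Y' → Y = Y' ∨ Y = -Y' :=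
    fun h h' => by
      rcases Affine.Y_eq_of_X_eq h.left h'.left rfl with e | e
      · exact Or.inl e
      · exact Or.inr (e.trans (hW'.negY_eq _ _))
  by_cases hx : X₁ = X₂
  · -- a vertical line carries at most two points
    exfalso
    subst hx
    have hY : Y₁ ≠ Y₂ := fun h => h12 ⟨rfl, h⟩
    have h3 : X₃ = X₁ := by
      have : (X₃ - X₁) * (Y₁ - Y₂) = 0 := by linear_combination hdet
      exact sub_eq_zero.mp ((mul_eq_zero.mp this).resolve_right (sub_ne_zero_of_ne hY))
    subst h3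
    have e3 : Y₂ = -Y₁ := ((same h₂ h₁).resolve_left (fun h => hY h.symm))
    rcases same h₃ h₁ with e | e
    · exact h13 ⟨rfl, e.symm⟩
    · exact h23 ⟨rfl, e3.trans e.symm⟩
  obtain ⟨u₃, Y₀, l, μ, hns, hadd, ht⟩ := add_triple hW' h₁ h₂ (fun h => hx h.1)
  rw [hadd]
  have hy₃ : Y₃ = l * X₃ + μ := by
    refine mul_left_cancel₀ (sub_ne_zero_of_ne hx) ?_
    rw [ht.y₁, ht.y₂] at hdet
    linear_combination -hdet
  have hX3 : X₃ = u₃ := by
    have he := (hW'.equation_iff _ _).mp h₃.left
    rw [hy₃] at he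
    have hprod : (X₃ - X₁) * (X₃ - X₂) * (X₃ - u₃) = 0 := by
      linear_combination -he - X₃ ^ 2 * ht.e₁ + X₃ * ht.e₂ - ht.e₃
    rcases mul_eq_zero.mp hprod with h | h
    · rcases mul_eq_zero.mp h with h | h
      · exact absurd ⟨(sub_eq_zero.mp h).symm, by rw [ht.y₁, hy₃, sub_eq_zero.mp h]⟩ h13
      · exact absurd ⟨(sub_eq_zero.mp h).symm, by rw [ht.y₂, hy₃, sub_eq_zero.mp h]⟩ h23
    · exact sub_eq_zero.mp h
  refine add_eq_zero_iff_eq_neg.mpr ?_
  rw [neg_some, some.injEq, hW'.negY_eq, hy₃, ht.y₃, hX3]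
  exact ⟨rfl, rfl⟩

/-- Additivity for three classes adding to zero in general position. -/
lemma veluPoint_three {a b : W.Point} (ha : a ∉ ι.range) (hb : b ∉ ι.range)
    (hab : a + b ∉ ι.range) (h1 : a - b ∉ ι.range) (h2 : a + (a + b) ∉ ι.range)
    (h3 : b + (a + b) ∉ ι.range) :
    veluPoint hk (a + b) = veluPoint hk a + veluPoint hk b := by
  classical
  have hc : -(a + b) ∉ ι.range := fun h => hab (by simpa using AddSubgroup.neg_mem _ h)
  have hdet := colDet_eq_zero hk ha hb hc
  have distinct : ∀ {P Q : W.Point}, P ∉ ι.range → Q ∉ ι.range → P - Q ∉ ι.range →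
      ¬(veluX ι P - imgRoot0 hk = veluX ι Q - imgRoot0 hk ∧ veluY ι P = veluY ι Q) :=
    fun hP hQ hPQ h => hPQ (sub_mem_of_velu_eq hk hP hQ (sub_left_inj.mp h.1) h.2)
  have h0 := add_add_eq_zero_of_det hk (imgCurve_model hk) (velu_nonsingular hk ha)
    (velu_nonsingular hk hb) (velu_nonsingular hk hc) (distinct ha hb h1)
    (distinct ha hc (by rwa [sub_neg_eq_add])) (distinct hb hc (by rwa [sub_neg_eq_add]))
    (by simp only [colDet] at hdet; linear_combination hdet)
  rw [← veluPoint_of_not_mem hk ha, ← veluPoint_of_not_mem hk hb, ← veluPoint_of_not_mem hk hc,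
    veluPoint_neg, add_neg_eq_zero] at h0
  exact h0.symm

omit [IsAlgClosed K] in
lemma infinite_point [IsAlgClosed K] : Infinite W.Point := by
  classical
  have h : ∀ u : K, ∃ Y : K, Y ^ 2 = u * (u - A) * (u + B) := fun u =>
    IsAlgClosed.exists_pow_nat_eq _ two_pos
  choose Y hY using h
  exact Infinite.of_injective (fun u => Point.some u (Y u) (hk.model.nonsingular (hY u)))
    fun u u' e => by simpa using congrArg uOf e

/-- There are points avoiding finitely many classes, and with doubles avoiding finitely many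
others. -/
lemma exists_generic (S D : Finset W.Point) :
    ∃ r : W.Point, (∀ t ∈ S, r - t ∉ ι.range) ∧ ∀ s ∈ D, r + r - s ∉ ι.range := by
  classical
  have : (W⁄K).IsElliptic := by
    constructor
    have : (W⁄K).Δ = W.Δ := by simp [Affine.baseChange, WeierstrassCurve.baseChange]
    rw [this]
    exact isUnit_iff_ne_zero.mpr hk.model.Δ_ne
  have hfin2 : {r : W.Point | 2 • r = 0}.Finite := by
    have hcard := ECTorsion.card_nsmul_eq_zero (k := K) (W := W⁄K) (n := 2)
      (by exact_mod_cast hk.model.two_ne)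
    have hK : (W⁄K) = W := by simp [Affine.baseChange, WeierstrassCurve.baseChange]
    rw [hK] at hcard
    exact Set.finite_coe_iff.mp (Nat.finite_of_card_ne_zero (α := {P : W.Point // 2 • P = 0})
      (by rw [hcard]; norm_num))
  have hfib : ∀ s : W.Point, ∀ x : M, {r : W.Point | r + r - s = ι x}.Finite := by
    intro s x
    by_cases hne : {r : W.Point | r + r - s = ι x}.Nonempty
    · obtain ⟨r₀, hr₀⟩ := hne
      refine Set.Finite.subset (hfin2.image fun d => r₀ + d) ?_
      intro r hr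
      refine ⟨r - r₀, ?_, by abel_nf⟩
      change 2 • (r - r₀) = 0
      rw [two_nsmul, show r - r₀ + (r - r₀) = (r + r - s) - (r₀ + r₀ - s) by abel, hr, hr₀,
        sub_self]
    · rw [Set.not_nonempty_iff_eq_empty.mp hne]; exact Set.finite_empty
  have hbad : ((⋃ t ∈ S, Set.range fun x : M => t + ι x) ∪
      ⋃ s ∈ D, ⋃ x : M, {r : W.Point | r + r - s = ι x}).Finite :=
    ((S.finite_toSet).biUnion fun t _ => Set.finite_range _).union
      ((D.finite_toSet).biUnion fun s _ => Set.finite_iUnion (hfib s))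
  have := infinite_point hk
  obtain ⟨r, hr⟩ := hbad.exists_notMem
  rw [Set.mem_union, not_or] at hr
  refine ⟨r, fun t ht h => hr.1 ?_, fun s hs h => hr.2 ?_⟩
  · obtain ⟨x, hx⟩ := h
    exact Set.mem_biUnion ht ⟨x, by simp only [hx]; abel⟩
  · obtain ⟨x, hx⟩ := h
    exact Set.mem_biUnion hs (Set.mem_iUnion.mpr ⟨x, hx.symm⟩)

/-- Additivity of the isogeny. -/
theorem veluPoint_add (a b : W.Point) :
    veluPoint hk (a + b) = veluPoint hk a + veluPoint hk b := by
  classical
  by_cases ha : a ∈ ι.range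
  · obtain ⟨x, rfl⟩ := ha
    rw [veluPoint_of_mem hk ⟨x, rfl⟩, zero_add, add_comm, veluPoint_add_ker]
  by_cases hb : b ∈ ι.range
  · obtain ⟨x, rfl⟩ := hb
    rw [veluPoint_of_mem hk ⟨x, rfl⟩, add_zero, veluPoint_add_ker]
  by_cases hab : a + b ∈ ι.range
  · obtain ⟨x, hx⟩ := hab
    rw [veluPoint_of_mem hk ⟨x, hx⟩, show b = -a + ι x by rw [hx]; abel, veluPoint_add_ker,
      veluPoint_neg, add_neg_cancel]
  -- pass through a general point
  obtain ⟨r, hr, hr2, hr3, hr4⟩ : ∃ r : W.Point,
      (∀ t ∈ ({0, -(a + b), a + b, -b, b, a - b, -(a + b) - (a + b), -b - b, -(a + a + b)} :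
        Finset W.Point), r - t ∉ ι.range) ∧
      r + r + (a + b) ∉ ι.range ∧ r + r + b ∉ ι.range ∧
      (b + r) + (b + r) + a ∉ ι.range := by
    obtain ⟨r, h, h'⟩ := exists_generic hk
      ({0, -(a + b), a + b, -b, b, a - b, -(a + b) - (a + b), -b - b, -(a + a + b)} :
        Finset W.Point) ({-(a + b), -b, -(b + b + a)} : Finset W.Point)
    simp only [Finset.mem_insert, Finset.mem_singleton, forall_eq_or_imp, forall_eq,
      sub_neg_eq_add] at h'
    refine ⟨r, h, h'.1, h'.2.1, ?_⟩
    rw [show (b + r) + (b + r) + a = r + r + (b + b + a) by abel]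
    exact h'.2.2
  simp only [Finset.mem_insert, Finset.mem_singleton, forall_eq_or_imp, forall_eq] at hr
  obtain ⟨t0, t1, t2, t3, t4, t5, t6, t7, t8⟩ := hr
  have nn : ∀ {P Q : W.Point}, P ∉ ι.range → Q = P ∨ Q = -P → Q ∉ ι.range := by
    rintro P Q hP (rfl | rfl)
    · exact hP
    · exact fun h => hP (by simpa using AddSubgroup.neg_mem _ h)
  have hr' : r ∉ ι.range := by simpa using t0
  have hbr : b + r ∉ ι.range := nn t3 (Or.inl (by abel))
  have habr : a + b + r ∉ ι.range := nn t1 (Or.inl (by abel))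
  have i1 : veluPoint hk (a + b + r) = veluPoint hk (a + b) + veluPoint hk r :=
    veluPoint_three hk hab hr' habr (nn t2 (Or.inr (by abel))) (nn t6 (Or.inl (by abel)))
      (nn hr2 (Or.inl (by abel)))
  have i2 : veluPoint hk (b + r) = veluPoint hk b + veluPoint hk r :=
    veluPoint_three hk hb hr' hbr (nn t4 (Or.inr (by abel))) (nn t7 (Or.inl (by abel)))
      (nn hr3 (Or.inl (by abel)))
  have i3 : veluPoint hk (a + (b + r)) = veluPoint hk a + veluPoint hk (b + r) :=
    veluPoint_three hk ha hbr (by rwa [← add_assoc]) (nn t5 (Or.inr (by abel)))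
      (nn t8 (Or.inl (by abel))) (nn hr4 (Or.inl (by abel)))
  rw [← add_assoc, i1, i2, ← add_assoc] at i3
  exact add_right_cancel i3

/-- The isogeny with kernel `ι.range`. -/
noncomputable def veluHom : W.Point →+ (imgCurve hk).Point :=
  AddMonoidHom.mk' (veluPoint hk) (veluPoint_add hk)

lemma veluHom_of_not_mem {a : W.Point} (ha : a ∉ ι.range) :
    veluHom hk a =
      Point.some (veluX ι a - imgRoot0 hk) (veluY ι a) (velu_nonsingular hk ha) :=
  veluPoint_of_not_mem hk ha

end FLTAgent.IsogenyDescent
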