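import Mathlib.Algebra.Polynomial.Derivative
import Mathlib.Algebra.Polynomial.Roots
import Mathlib.Tactic.LinearCombination
import Mathlib.Tactic.FieldSimp
import Mathlib.Tactic.Ring
import Mathlib.Algebra.GroupWithZero.Basic
import Mathlib.GroupTheory.OrderOfElement

/-!
# A sum over a coset of roots of unity

`sum_div_one_sub_sq` evaluates `∑ z / (1 - z)²` over the translates of an embedded finite group,
through logarithmic derivatives. Used for the image at a node.
-/

set_option autoImplicit false

namespace FLTAgent.IsogenyDescent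

open Polynomial

variable {k : Type*} [Field k]

lemma sum_inv_of_linear_prod {α : Type*} (s : Finset α) (a : α → k) (x : k)
    (h : ∀ i ∈ s, x ≠ a i) :
    (derivative (∏ i ∈ s, (X - C (a i)))).eval x =
        (∏ i ∈ s, (X - C (a i))).eval x * ∑ i ∈ s, (x - a i)⁻¹ ∧
      (derivative (derivative (∏ i ∈ s, (X - C (a i))))).eval x =
        (∏ i ∈ s, (X - C (a i))).eval x *
          ((∑ i ∈ s, (x - a i)⁻¹) ^ 2 - ∑ i ∈ s, (x - a i)⁻¹ ^ 2) := by
  classical
  induction s using Finset.induction with
  | empty => simp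
  | insert j s hj ih =>
    obtain ⟨h1, h2⟩ := ih fun i hi => h i (Finset.mem_insert_of_mem hi)
    have hd : x - a j ≠ 0 := sub_ne_zero_of_ne (h j (Finset.mem_insert_self j s))
    simp only [Finset.prod_insert hj, Finset.sum_insert hj, derivative_mul, derivative_add,
      derivative_X_sub_C, derivative_one, eval_add, eval_mul, eval_sub, eval_X, eval_C, eval_one,
      eval_zero, h1, h2]
    constructor
    · field_simp
    · field_simp; ring

variable {M : Type*} [AddCommGroup M] [Fintype M]

/-- The sum of `z / (1 - z)²` over the translates of `s` by an embedded finite group. -/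
theorem sum_div_one_sub_sq (χ : M → k) (hmul : ∀ x y, χ (x + y) = χ x * χ y) (h0 : χ 0 = 1)
    (hinj : Function.Injective χ) {s : k} (hs : s ≠ 0) (hS : s ^ Fintype.card M ≠ 1) :
    ∑ x, s * χ x / (1 - s * χ x) ^ 2 =
      (Fintype.card M : k) ^ 2 * s ^ Fintype.card M / (1 - s ^ Fintype.card M) ^ 2 := by
  classical
  set m := Fintype.card M with hm
  have hm0 : 0 < m := Fintype.card_pos
  have hpow : ∀ (n : ℕ) (x : M), χ (n • x) = χ x ^ n := fun n x => by
    induction n with
    | zero => simp [h0]
    | succ n ih => rw [succ_nsmul, hmul, ih, pow_succ]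
  have hroot : ∀ x, (s * χ x) ^ m = s ^ m := fun x => by
    rw [mul_pow, ← hpow, hm, card_nsmul_eq_zero, h0, mul_one]
  have hne : ∀ x ∈ (Finset.univ : Finset M), (1 : k) ≠ s * χ x := fun x _ h => hS (by
    rw [← hroot x, ← h, one_pow])
  have hprod : ∏ x : M, (X - C (s * χ x)) = X ^ m - C (s ^ m) := by
    have hmonic : (X ^ m - C (s ^ m)).Monic := monic_X_pow_sub_C _ hm0.ne'
    have hroots : (X ^ m - C (s ^ m)).roots = Finset.univ.val.map fun x => s * χ x := by
      refine (Multiset.eq_of_le_of_card_le ?_ ?_).symm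
      · refine (Multiset.le_iff_subset ?_).mpr fun z hz => ?_
        · exact Multiset.Nodup.map (fun x y h => hinj (mul_left_cancel₀ hs h)) Finset.univ.nodup
        · obtain ⟨x, -, rfl⟩ := Multiset.mem_map.mp hz
          rw [mem_roots hmonic.ne_zero, IsRoot, eval_sub, eval_pow, eval_X, eval_C, hroot, sub_self]
      · rw [Multiset.card_map]
        exact (card_roots' _).trans (by rw [natDegree_X_pow_sub_C]; rfl)
    have := prod_multiset_X_sub_C_of_monic_of_roots_card_eq hmonic (by
      rw [hroots, Multiset.card_map, natDegree_X_pow_sub_C]; rfl)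
    rw [hroots, Multiset.map_map] at this
    exact this
  obtain ⟨h1, h2⟩ := sum_inv_of_linear_prod Finset.univ (fun x => s * χ x) 1 hne
  rw [hprod] at h1 h2
  simp only [derivative_sub, derivative_X_pow, derivative_C, sub_zero, derivative_mul,
    eval_sub, eval_pow, eval_X, eval_C, eval_mul, one_pow, mul_one, zero_mul, zero_add] at h1 h2
  generalize hs1 : ∑ x : M, (1 - s * χ x)⁻¹ = S1 at h1 h2
  generalize hs2 : ∑ x : M, (1 - s * χ x)⁻¹ ^ 2 = S2 at h2
  have hsum : ∑ x, s * χ x / (1 - s * χ x) ^ 2 = S2 - S1 := by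
    rw [← hs1, ← hs2, ← Finset.sum_sub_distrib]
    refine Finset.sum_congr rfl fun x hx => ?_
    have : 1 - s * χ x ≠ 0 := sub_ne_zero_of_ne (hne x hx)
    field_simp
    ring
  have hS' : 1 - s ^ m ≠ 0 := sub_ne_zero_of_ne (Ne.symm hS)
  have e1 : S1 = (m : k) / (1 - s ^ m) := by
    rw [eq_div_iff hS']; linear_combination -h1
  rw [hsum, e1]
  rw [e1, Nat.cast_sub hm0, Nat.cast_one] at h2
  field_simp at h2 ⊢
  linear_combination h2

end FLTAgent.IsogenyDescent
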