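import Fermat.Agent.IsogenyDescent.Torus
import Fermat.Agent.IsogenyDescent.RootSum
import Fermat.Agent.IsogenyDescent.Hom

/-!
# The image curve at a node prime to the degree

The image again has a node (`val_imgA_lt`, `val_imgB_eq`), and whether the image of a torsion
point avoids it is read off from the translates (`val_velu_image`).
-/

set_option autoImplicit false
set_option linter.unusedSectionVars false

noncomputable section

namespace FLTAgent.IsogenyDescent

open WeierstrassCurve WeierstrassCurve.Affine WeierstrassCurve.Affine.Point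
open FLTAgent.FreyUnramified

variable {K : Type*} [Field K] [DecidableEq K] {W : WeierstrassCurve.Affine K} {A B β : K}
  {Γ₀ : Type*} [LinearOrderedCommGroupWithZero Γ₀] {v : Valuation K Γ₀}
  {M : Type*} [AddCommGroup M] [Fintype M] [DecidableEq M] {ι : M →+ W.Point}

lemma NodeData.val_B (hn : NodeData v A B β) : v B = 1 := by
  rw [← hn.sq, map_pow, hn.β_unit, one_pow]

lemma mem_offNode_iff_uOf (hW : IsModel W A B) (hn : NodeData v A B β) {P : W.Point}
    (hP : P ≠ 0) : P ∈ offNode hW hn.toIntCoeff hn.A_lt ↔ 1 ≤ v (uOf P) := by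
  rcases P with _ | ⟨u, Y, h⟩
  · exact absurd rfl hP
  · exact mem_offNode (hW := hW) (h := h)

lemma val_uOf_lt_of_not_mem (hW : IsModel W A B) (hn : NodeData v A B β) {P : W.Point}
    (hP : P ∉ offNode hW hn.toIntCoeff hn.A_lt) : P ≠ 0 ∧ v (uOf P) < 1 := by
  have h0 : P ≠ 0 := fun h => hP (by rw [h]; exact zero_mem _)
  exact ⟨h0, not_le.mp fun h => hP ((mem_offNode_iff_uOf hW hn h0).mpr h)⟩

lemma val_natCast_of_dvd {a b : ℕ} (hb : v (b : K) = 1) (hab : a ∣ b) : v (a : K) = 1 := by
  obtain ⟨c, rfl⟩ := hab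
  rw [Nat.cast_mul, map_mul] at hb
  refine le_antisymm (val_natCast_le' a) ?_
  rw [← hb]
  exact mul_le_of_le_one_right zero_le (val_natCast_le' c)

lemma red_natCast (m : ℕ) : red v (m : K) = m := by
  induction m with
  | zero => simp [red_zero]
  | succ m ih =>
    rw [Nat.cast_succ, red_add (val_natCast_le' m) (by rw [map_one]), ih, red_one, Nat.cast_succ]

lemma torusParam_nsmul (hW : IsModel W A B) (hn : NodeData v A B β) {H : AddSubgroup W.Point}
    (hH : IsTorusGroup hW hn H) {P : W.Point} (hP : P ∈ H) (i : ℕ) :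
    torusParam v β (i • P) = torusParam v β P ^ i := by
  induction i with
  | zero => rw [zero_nsmul, torusParam_zero, pow_zero]
  | succ i ih =>
    rw [succ_nsmul, torusParam_add hW hn hH (nsmul_mem hP i) hP, ih, pow_succ]

variable (hk : KernelData W A B ι) (hn : NodeData v A B β)
include hk hn

/-- The kernel points off the node. -/
def offKer : AddSubgroup M := (offNode hk.model hn.toIntCoeff hn.A_lt).comap ι

/-- A sum of translates, all on the node, is small. -/
lemma val_sum_translate_lt {G : W.Point}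
    (hall : ∀ x, G + ι x ∉ offNode hk.model hn.toIntCoeff hn.A_lt) :
    v (∑ x, uOf (G + ι x)) < 1 :=
  v.map_sum_lt one_ne_zero fun x _ => (val_uOf_lt_of_not_mem hk.model hn (hall x)).2

lemma translate_mem_torus {n : ℕ} {G : W.Point}
    (hG : G ∈ offNode hk.model hn.toIntCoeff hn.A_lt) (hnG : n • G = 0) {x : M}
    (hx : x ∈ offKer hk hn) :
    G + ι x ∈ torusSubgroup hk.model hn (n * Fintype.card M) := by
  refine ⟨add_mem hG hx, ?_⟩
  change (n * Fintype.card M) • (G + ι x) = 0
  rw [nsmul_add, ← map_nsmul, mul_comm, mul_nsmul' G, hnG, nsmul_zero, zero_add, mul_nsmul,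
    card_nsmul_eq_zero, nsmul_zero, _root_.map_zero]

/-- A sum of translates, one of which is off the node, is a unit. -/
theorem val_sum_translate_eq_one (hM : v (Fintype.card M : K) = 1) {n : ℕ} (hvn : v (n : K) = 1)
    {G : W.Point} (hG : G ∈ offNode hk.model hn.toIntCoeff hn.A_lt) (hnG : n • G = 0)
    (hGr : G ∉ ι.range) : v (∑ x, uOf (G + ι x)) = 1 := by
  classical
  set E := offNode hk.model hn.toIntCoeff hn.A_lt with hE
  set N := n * Fintype.card M with hN
  have hvN : v (N : K) = 1 := by rw [hN, Nat.cast_mul, map_mul, hvn, hM, one_mul]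
  set H := torusSubgroup hk.model hn N
  have hH := torusSubgroup_isTorusGroup hk.model hn hvN
  have hker : ∀ x : offKer hk hn, ι (x : M) ∈ H := fun x => by
    have := translate_mem_torus hk hn (n := n) (G := 0) (zero_mem _) (nsmul_zero n) x.2
    rwa [zero_add] at this
  have hGH : G ∈ H := by
    simpa using translate_mem_torus hk hn hG hnG (zero_mem (offKer hk hn))
  set χ : offKer hk hn → Res v := fun x => torusParam v β (ι (x : M)) with hχ
  have hmul : ∀ x y, χ (x + y) = χ x * χ y := fun x y => by
    rw [hχ]; dsimp only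
    rw [AddSubgroup.coe_add, map_add, torusParam_add hk.model hn hH (hker x) (hker y)]
  have h0 : χ 0 = 1 := by simp [hχ, torusParam_zero]
  have hinj : Function.Injective χ := fun x y hxy => by
    by_contra hne
    have h1 : ι ((x - y : offKer hk hn) : M) ≠ 0 := hk.map_ne_zero
      (fun h => hne (sub_eq_zero.mp (Subtype.ext h)))
    refine torusParam_ne_one hk.model hn hH (hker (x - y)) h1 ?_
    have h2 : χ (x - y) * χ y = χ x := by rw [← hmul, sub_add_cancel]
    have h3 : χ y ≠ 0 := fun h => by
      have := hmul y (-y)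
      rw [add_neg_cancel, h0, h, zero_mul] at this
      exact one_ne_zero this
    rw [hxy] at h2
    exact mul_eq_right₀ h3 |>.mp h2
  set s := torusParam v β G with hs
  have hs0 : s ≠ 0 := fun h => by
    have := torusParam_neg hk.model hn hH hGH
    rw [← hs, h, zero_mul] at this
    exact zero_ne_one this
  set m := Fintype.card (offKer hk hn) with hm
  have hmpos : 0 < m := Fintype.card_pos
  have hmdvd : m ∣ Fintype.card M := by
    rw [hm, ← Nat.card_eq_fintype_card, ← Nat.card_eq_fintype_card]
    exact AddSubgroup.card_addSubgroup_dvd_card _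
  have hS : s ^ m ≠ 1 := by
    intro h
    obtain ⟨x, hx⟩ : ∃ x, χ x = s := by
      by_contra hne
      have hp : (Polynomial.X ^ m - Polynomial.C (1 : Res v)) ≠ 0 :=
        Polynomial.X_pow_sub_C_ne_zero hmpos _
      have hsub : insert s (Finset.univ.image χ) ⊆
          (Polynomial.X ^ m - Polynomial.C (1 : Res v)).roots.toFinset := fun z hz => by
        rw [Multiset.mem_toFinset, Polynomial.mem_roots hp, Polynomial.IsRoot, Polynomial.eval_sub,
          Polynomial.eval_pow, Polynomial.eval_X, Polynomial.eval_C, sub_eq_zero]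
        rcases Finset.mem_insert.mp hz with rfl | hz
        · exact h
        · obtain ⟨x, -, rfl⟩ := Finset.mem_image.mp hz
          have : ∀ i : ℕ, χ (i • x) = χ x ^ i := fun i => by
            induction i with
            | zero => simp [h0]
            | succ i ih => rw [succ_nsmul, hmul, ih, pow_succ]
          rw [← this, hm, card_nsmul_eq_zero, h0]
      have := (Finset.card_le_card hsub).trans
        ((Multiset.toFinset_card_le _).trans (Polynomial.card_roots' _))
      rw [Polynomial.natDegree_X_pow_sub_C, Finset.card_insert_of_notMem (by simpa using hne),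
        Finset.card_image_of_injective _ hinj, Finset.card_univ, ← hm] at this
      omega
    have hd : G - ι (x : M) ∈ H := sub_mem hGH (hker x)
    refine torusParam_ne_one hk.model hn hH hd (fun h' => hGr ⟨x, (sub_eq_zero.mp h').symm⟩) ?_
    have h2 := torusParam_add hk.model hn hH hd (hker x)
    rw [sub_add_cancel, ← hs] at h2
    rw [show torusParam v β (ι (x : M)) = s from hx] at h2
    exact (mul_eq_right₀ hs0).mp h2.symm
  -- split off the kernel points at the node
  have hle : ∀ x, v (uOf (G + ι x)) ≤ 1 := fun x => by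
    by_cases hx : x ∈ offKer hk hn
    · have hne : G + ι x ≠ 0 := fun h =>
        hGr ⟨-x, by rw [map_neg]; exact (eq_neg_of_add_eq_zero_left h).symm⟩
      exact (torus_coords hk.model hn hH (translate_mem_torus hk hn hG hnG hx) hne).1.le
    · exact (val_uOf_lt_of_not_mem hk.model hn fun h => hx (by
        have := sub_mem h hG
        rwa [add_sub_cancel_left] at this)).2.le
  have hred : red v (∑ x, uOf (G + ι x)) =
      4 * red v B * ((m : Res v) ^ 2 * s ^ m / (1 - s ^ m) ^ 2) := by
    rw [red_sum (fun x _ => hle x),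
      ← Finset.sum_filter_add_sum_filter_not Finset.univ (· ∈ offKer hk hn),
      Finset.sum_eq_zero (s := Finset.univ.filter (¬ · ∈ offKer hk hn)) fun x hx => ?_, add_zero,
      Finset.sum_subtype (Finset.univ.filter (· ∈ offKer hk hn)) (p := (· ∈ offKer hk hn))
        (by simp), ← sum_div_one_sub_sq χ hmul h0 hinj hs0 hS, Finset.mul_sum]
    · refine Finset.sum_congr rfl fun x _ => ?_
      rw [red_uOf hk.model hn hH (translate_mem_torus hk hn hG hnG x.2),
        torusParam_add hk.model hn hH hGH (hker x)]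
    · exact red_eq_zero (val_uOf_lt_of_not_mem hk.model hn fun h => (Finset.mem_filter.mp hx).2 (by
        have := sub_mem h hG
        rwa [add_sub_cancel_left] at this)).2
  have hsum : v (∑ x, uOf (G + ι x)) ≤ 1 := v.map_sum_le fun x _ => hle x
  refine le_antisymm hsum (not_lt.mp fun hlt => ?_)
  rw [red_eq_zero hlt] at hred
  have h4 : (4 : Res v) ≠ 0 := by
    intro h
    have := (red_eq_zero_iff (v := v) (val_natCast_le' (F := K) 4)).mp (by
      rw [red_natCast]; exact_mod_cast h)
    rw [show ((4 : ℕ) : K) = 2 * 2 by norm_num, map_mul, hn.h2, one_mul] at this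
    exact lt_irrefl _ this
  have hBne : red v B ≠ 0 := fun h => by
    have := (red_eq_zero_iff hn.hB).mp h
    rw [NodeData.val_B hn] at this
    exact lt_irrefl _ this
  have hm0 : (m : Res v) ≠ 0 := fun h => by
    rw [← red_natCast] at h
    have := (red_eq_zero_iff (val_natCast_le' m)).mp h
    rw [val_natCast_of_dvd hM hmdvd] at this
    exact lt_irrefl _ this
  exact mul_ne_zero (mul_ne_zero h4 hBne) (div_ne_zero (mul_ne_zero (pow_ne_zero 2 hm0)
    (pow_ne_zero m hs0)) (pow_ne_zero 2 (sub_ne_zero_of_ne (Ne.symm hS)))) hred.symm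

/-- A point of order two at the node stays there under translation by the kernel. -/
lemma add_ker_not_mem {T : W.Point} (hT : T ∉ offNode hk.model hn.toIntCoeff hn.A_lt)
    (h2 : 2 • T = 0) (x : M) : T + ι x ∉ offNode hk.model hn.toIntCoeff hn.A_lt := fun h => by
  refine hT ?_
  obtain ⟨k, hk'⟩ := hk.odd
  have := nsmul_mem h (Fintype.card M)
  rwa [nsmul_add, ← map_nsmul, card_nsmul_eq_zero, _root_.map_zero, add_zero, hk', succ_nsmul,
    mul_comm 2 k, mul_nsmul', h2, nsmul_zero, zero_add] at this

lemma two_nsmul_of_yOf_eq_zero {T : W.Point} (hT : T ≠ 0) (h : yOf T = 0) : 2 • T = 0 := by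
  obtain ⟨hns, e⟩ := exists_eq_some hT
  rw [two_nsmul, e]
  exact add_of_Y_eq rfl (by rw [hk.model.negY_eq, h, _root_.neg_zero])

lemma pt_not_mem_of_lt {T : W.Point} (hT : T ≠ 0) (hy : yOf T = 0) (hu : v (uOf T) < 1) (x : M) :
    T + ι x ∉ offNode hk.model hn.toIntCoeff hn.A_lt :=
  add_ker_not_mem hk hn (fun h =>
    absurd ((mem_offNode_iff_uOf hk.model hn hT).mp h) (not_le.mpr hu))
    (two_nsmul_of_yOf_eq_zero hk hn hT hy) x

lemma val_sum_pt0_lt : v (∑ x, uOf (pt0 hk.model + ι x)) < 1 :=
  val_sum_translate_lt hk hn fun x => pt_not_mem_of_lt hk hn (some_ne_zero _) (by simp)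
    (by simp) x

/-- The image again has `v A' < 1`. -/
theorem val_imgA_lt : v (imgA hk) < 1 := by
  rw [imgA, imgRoot1, imgRoot0, veluX, veluX, sub_sub_sub_cancel_right]
  exact v.map_sub_lt (val_sum_translate_lt hk hn fun x => pt_not_mem_of_lt hk hn (some_ne_zero _)
    (by simp) (by simpa [pt1] using hn.A_lt) x) (val_sum_pt0_lt hk hn)

/-- The image again has `v B' = 1`. -/
theorem val_imgB_eq (hM : v (Fintype.card M : K) = 1) : v (imgB hk) = 1 := by
  rw [imgB, imgRoot0, imgRoot2, veluX, veluX, sub_sub_sub_cancel_right]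
  have hy : yOf (pt2 hk.model) = 0 := by simp [pt2]
  have h := val_sum_translate_eq_one hk hn hM (n := 2) (by simpa using hn.h2) (G := pt2 hk.model)
    ((mem_offNode_iff_uOf hk.model hn (some_ne_zero _)).mpr
      (by simp [NodeData.val_B hn])) (two_nsmul_of_yOf_eq_zero hk hn (some_ne_zero _) hy)
    (hk.not_mem_range_of_yOf_eq_zero (some_ne_zero _) hy)
  rw [v.map_sub_eq_of_lt_right (by rw [h]; exact val_sum_pt0_lt hk hn), h]

/-- The position of the image of a torsion point. -/
theorem val_velu_image (hM : v (Fintype.card M : K) = 1) {n : ℕ} (hvn : v (n : K) = 1)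
    {g : W.Point} (hng : n • g = 0) (hg : g ∉ ι.range) :
    v (veluX ι g - imgRoot0 hk) ≤ 1 ∧ (v (veluX ι g - imgRoot0 hk) = 1 ↔
      ∃ x, g + ι x ∈ offNode hk.model hn.toIntCoeff hn.A_lt) := by
  rw [imgRoot0, veluX, veluX, sub_sub_sub_cancel_right]
  have h0 := val_sum_pt0_lt hk hn
  by_cases hex : ∃ x, g + ι x ∈ offNode hk.model hn.toIntCoeff hn.A_lt
  · obtain ⟨x₀, hx₀⟩ := hex
    have h := val_sum_translate_eq_one hk hn hM (n := n * Fintype.card M)
      (by rw [Nat.cast_mul, map_mul, hvn, hM, one_mul]) hx₀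
      (by rw [nsmul_add, ← map_nsmul, mul_nsmul' x₀, card_nsmul_eq_zero, nsmul_zero,
        _root_.map_zero,
            mul_nsmul g, hng, nsmul_zero, add_zero])
      (fun h => hg (by simpa using AddSubgroup.sub_mem _ h (⟨x₀, rfl⟩ : ι x₀ ∈ ι.range)))
    have e : ∑ x, uOf (g + ι x₀ + ι x) = ∑ x, uOf (g + ι x) :=
      Fintype.sum_equiv (Equiv.addLeft x₀) _ _ fun x => by
        rw [Equiv.coe_addLeft, map_add, add_assoc]
    rw [e] at h
    have hv : v (∑ x, uOf (g + ι x) - ∑ x, uOf (pt0 hk.model + ι x)) = 1 := by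
      rw [v.map_sub_eq_of_lt_left (by rw [h]; exact h0), h]
    exact ⟨hv.le, iff_of_true hv ⟨x₀, hx₀⟩⟩
  · have hv := v.map_sub_lt (val_sum_translate_lt hk hn fun x h => hex ⟨x, h⟩) h0
    exact ⟨hv.le, iff_of_false hv.ne hex⟩

end FLTAgent.IsogenyDescent
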