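import Mathlib.Algebra.CharP.Reduced
import Fermat.Agent.IsogenyDescent.Bad
import Fermat.Agent.IsogenyDescent.ImageOdd

/-!
# Components of torsion at the bad places of the Frey curve

Some `p`-torsion avoids the nonsingular locus (`exists_not_inE0`), while points of nonsingular
reduction lie on the cofixed line (`mem_C_of_inE0`) or, above `p`, reduce to the origin
(`inE1_of_inE0`).
-/

set_option autoImplicit false

noncomputable section

open WeierstrassCurve WeierstrassCurve.Affine WeierstrassCurve.Affine.Point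
open scoped WeierstrassCurve.Affine Pointwise

namespace FLTAgent.IsogenyDescent

open FLTAgent.FreyUnramified

section Generic

variable {K : Type*} [Field K] [DecidableEq K] {W : WeierstrassCurve.Affine K} {A B β : K}
  {Γ₀ : Type*} [LinearOrderedCommGroupWithZero Γ₀] {v : Valuation K Γ₀}

/-- Two points whose classes are killed by `p` are dependent modulo the smooth points. -/
theorem exists_add_zsmul_mem [CharZero K] [IsAlgClosed K] [Algebra ℚ K] [Algebra.IsAlgebraic ℚ K]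
    {q : ℕ} (hv : ResidueChar v q) (hW : IsModel W A B) (hn : NodeData v A B β) {p : ℕ}
    (hp : p.Prime) (hpodd : Odd p) {P₁ P₂ : W.Point}
    (h₁ : P₁ ∉ offNode hW hn.toIntCoeff hn.A_lt)
    (hp₁ : p • P₁ ∈ offNode hW hn.toIntCoeff hn.A_lt)
    (hp₂ : p • P₂ ∈ offNode hW hn.toIntCoeff hn.A_lt) :
    ∃ i : ℤ, P₂ + i • P₁ ∈ offNode hW hn.toIntCoeff hn.A_lt := by
  set N := offNode hW hn.toIntCoeff hn.A_lt with hN
  by_cases h₂ : P₂ ∈ N
  · exact ⟨0, by rwa [zero_zsmul, add_zero]⟩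
  -- signs placing both points on the chosen branch
  have branch : ∀ Q : W.Point, Q ∉ N → p • Q ∈ N → ∃ s : ℤ, (s = 1 ∨ s = -1) ∧
      ∃ x, v x < 1 ∧ v A < v x ∧ OnBranch v β (v x) (s • Q) := by
    rintro (_ | ⟨u, Y, h⟩) hQ hpQ
    · exact absurd (zero_mem N) hQ
    have hA := val_A_lt_of_nsmul_mem hW hn hpodd h hpQ
    rw [hN, mem_offNode, not_le] at hQ
    rcases exists_onBranch_or_neg hW hn h hA hQ with hb | hb
    · exact ⟨1, Or.inl rfl, u, hQ, hA, by rwa [one_zsmul]⟩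
    · exact ⟨-1, Or.inr rfl, u, hQ, hA, by rwa [neg_one_zsmul]⟩
  obtain ⟨s₁, hs₁, x₁, hx₁, hA₁, hb₁⟩ := branch P₁ h₁ hp₁
  obtain ⟨s₂, hs₂, x₂, hx₂, hA₂, hb₂⟩ := branch P₂ h₂ hp₂
  have ne0 : ∀ {x : K}, v A < v x → x ≠ 0 := fun {x} h => by
    rintro rfl
    rw [_root_.map_zero] at h
    exact not_lt.2 zero_le h
  obtain ⟨e₁, he₁, n₁, hn₁⟩ := hv.exists_pow_eq_zpow (ne0 hA₁)
  obtain ⟨e₂, he₂, n₂, hn₂⟩ := hv.exists_pow_eq_zpow (ne0 hA₂)
  obtain ⟨e₃, he₃, n₃, hn₃⟩ := hv.exists_pow_eq_zpow hW.A_ne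
  set e := e₁ * e₂ * e₃ with he
  have hepos : 0 < e := Nat.mul_pos (Nat.mul_pos he₁ he₂) he₃
  obtain ⟨t, ht⟩ := IsAlgClosed.exists_pow_nat_eq (q : K) hepos
  have hte : v t ^ e = v (q : K) := by rw [← map_pow, ht]
  have hvt : v t < 1 := by
    by_contra hh
    rw [not_lt] at hh
    exact absurd hv.lt_one (not_lt.mpr (hte ▸ one_le_pow₀ hh))
  have expo : ∀ {x : K} {e' : ℕ} {n : ℤ}, v x < 1 → 0 < e' → e' ∣ e →
      v x ^ e' = v (q : K) ^ n → ∃ a : ℕ, 0 < a ∧ v x = v t ^ a := by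
    intro x e' n hx he' hd hxn
    have hx1 : v x ^ e' < 1 := pow_lt_one₀ zero_le hx he'.ne'
    obtain ⟨m, rfl⟩ : ∃ m : ℕ, n = m := by
      refine ⟨n.toNat, (Int.toNat_of_nonneg ?_).symm⟩
      by_contra hh
      rw [hxn] at hx1
      exact absurd hx1 (not_lt.mpr (one_le_zpow_of_nonpos₀ hv.val_q_pos hv.lt_one.le (by omega)))
    obtain ⟨d, hd⟩ := hd
    rw [zpow_natCast, ← hte, ← pow_mul, hd, mul_assoc, mul_comm, pow_mul] at hxn
    refine ⟨d * m, Nat.pos_of_ne_zero fun h0 => ?_, (pow_left_inj₀ zero_le zero_le he'.ne').mp hxn⟩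
    rw [h0, pow_zero, one_pow] at hxn
    exact hx1.ne hxn
  obtain ⟨a₁, ha₁, hxa₁⟩ := expo hx₁ he₁ ⟨e₂ * e₃, by rw [he, mul_assoc]⟩ hn₁
  obtain ⟨a₂, ha₂, hxa₂⟩ := expo hx₂ he₂ ⟨e₁ * e₃, by rw [he]; ring⟩ hn₂
  obtain ⟨M, hMpos, hM⟩ := expo hn.A_lt he₃ ⟨e₁ * e₂, by rw [he]; ring⟩ hn₃
  have hvt0 : 0 < v t := pos_of_ne_zero fun h => hn.A_ne hW (by rw [hM, h, zero_pow hMpos.ne'])
  have hlt : ∀ {a : ℕ}, v A < v t ^ a → a < M := fun h => by
    rw [hM] at h
    exact (pow_lt_pow_iff_right_of_lt_one₀ hvt0 hvt).1 h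
  have ha₁M := hlt (hxa₁ ▸ hA₁)
  have ha₂M := hlt (hxa₂ ▸ hA₂)
  obtain ⟨R, h2M, hnot, hcls⟩ := exists_component_generator hW hn hvt hM.symm (by omega)
  have hc₁ := hcls a₁ _ ha₁ ha₁M (hxa₁ ▸ hb₁)
  have hc₂ := hcls a₂ _ ha₂ ha₂M (hxa₂ ▸ hb₂)
  -- the multiples of the generator off the node
  have hdvd : ∀ z : ℤ, z • R ∈ N ↔ ((2 * M : ℕ) : ℤ) ∣ z := by
    intro z
    have hmul : ∀ k : ℤ, (k * (2 * M : ℕ)) • R ∈ N := fun k => by
      rw [mul_zsmul, natCast_zsmul]; exact zsmul_mem h2M k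
    refine ⟨fun hz => ?_, fun ⟨k, hk⟩ => by rw [hk, mul_comm]; exact hmul k⟩
    have hM0 : ((2 * M : ℕ) : ℤ) ≠ 0 := by omega
    have h0 := Int.emod_nonneg z hM0
    have h1 := Int.emod_lt_of_pos z (show (0 : ℤ) < (2 * M : ℕ) by omega)
    refine Int.dvd_of_emod_eq_zero ?_
    by_contra hr
    refine hnot (z % (2 * M : ℕ)).toNat (by omega) (by omega) ?_
    rw [← natCast_zsmul, Int.toNat_of_nonneg h0, Int.emod_def, sub_zsmul]
    exact add_mem hz (neg_mem (by rw [mul_comm]; exact hmul _))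
  have hpa : ∀ {Q : W.Point} {s : ℤ} {a : ℕ}, p • Q ∈ N → s • Q - a • R ∈ N →
      ((2 * M : ℕ) : ℤ) ∣ (p : ℤ) * a := fun {Q s a} hpQ hc => by
    refine (hdvd _).1 ?_
    have h := sub_mem (zsmul_mem hpQ s) (zsmul_mem hc (p : ℤ))
    rw [zsmul_sub, ← natCast_zsmul Q p, ← natCast_zsmul R a, ← mul_zsmul, ← mul_zsmul, mul_comm s,
      sub_sub_cancel, ← mul_zsmul] at h
    exact h
  have hd₁ := hpa hp₁ hc₁
  have hd₂ := hpa hp₂ hc₂
  have hnd : ¬ ((2 * M : ℕ) : ℤ) ∣ (a₁ : ℤ) := fun h => by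
    have := Int.le_of_dvd (by omega) h
    omega
  -- `2 M = p k` and both classes are multiples of `k`
  have hp2M : p ∣ 2 * M := by
    by_contra hnp
    refine hnd (Int.natCast_dvd_natCast.2 ?_)
    have : 2 * M ∣ p * a₁ := by exact_mod_cast hd₁
    exact ((hp.coprime_iff_not_dvd.2 hnp).symm).dvd_of_dvd_mul_left this
  obtain ⟨k, hk⟩ := hp2M
  have hk0 : (p : ℤ) ≠ 0 := by exact_mod_cast hp.ne_zero
  rw [hk, Nat.cast_mul] at hd₁ hd₂ hnd hdvd
  obtain ⟨i₁, hi₁⟩ := (mul_dvd_mul_iff_left hk0).1 hd₁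
  obtain ⟨i₂, hi₂⟩ := (mul_dvd_mul_iff_left hk0).1 hd₂
  have hpi : ¬ (p : ℤ) ∣ i₁ := fun ⟨j, hj⟩ => hnd ⟨j, by rw [hi₁, hj]; ring⟩
  obtain ⟨u, w, huw⟩ := (Nat.prime_iff_prime_int.mp hp).coprime_iff_not_dvd.mpr hpi
  -- a combination of the classes vanishes
  set l := -(i₂ * w) with hl
  have hcomb : ((a₂ : ℤ) + l * a₁) • R ∈ N :=
    (hdvd _).2 ⟨i₂ * u, by rw [hi₁, hi₂, hl]; linear_combination (-(k : ℤ) * i₂) * huw⟩
  have hfin : s₂ • P₂ + l • (s₁ • P₁) ∈ N := by
    have h := add_mem (add_mem hc₂ (zsmul_mem hc₁ l)) hcomb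
    rw [add_zsmul, mul_zsmul, natCast_zsmul, natCast_zsmul, zsmul_sub] at h
    convert h using 1
    abel
  refine ⟨s₂ * l * s₁, ?_⟩
  have h := zsmul_mem hfin s₂
  rw [zsmul_add, ← mul_zsmul, ← mul_zsmul, ← mul_zsmul,
    show s₂ * s₂ = 1 by rcases hs₂ with rfl | rfl <;> norm_num, one_zsmul] at h
  exact h

end Generic

section Frey

open FLTAgent.ECReduction FLTAgent.Density

variable {P : FreyPackage} {A : ValuationSubring Qbar} {q : ℕ}

local notation "v" => A.valuation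

/-- Two points of the Frey curve with classes killed by `p` are dependent at an odd bad prime. -/
theorem exists_add_zsmul_inE0 (hq : q.Prime) (hq2 : q ≠ 2) (hA : A.LiesOverPrime q)
    (hbad : (q : ℤ) ∣ P.a * P.b * P.c) {x y : FPt P} (hx : ¬ InE0 A (FE P) x)
    (hpx : InE0 A (FE P) (P.p • x)) (hpy : InE0 A (FE P) (P.p • y)) :
    ∃ i : ℤ, InE0 A (FE P) (y + i • x) := by
  obtain ⟨a, b, r, β, hl, hr, hn⟩ := exists_label hq hq2 hA hbad
  have hs := hl.isShift
  have hiff : ∀ {z : FPt P}, InE0 A (FE P) z ↔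
      shiftHom hs z ∈ offNode hs.model hn.toIntCoeff hn.A_lt :=
    fun {z} => inE0_iff_offNode intAt_frey hs hn hr
  rw [hiff] at hx hpx hpy
  rw [map_nsmul] at hpx hpy
  obtain ⟨i, hi⟩ := IsogenyDescent.exists_add_zsmul_mem (residueChar_of_liesOver A hq hA) hs.model
    hn P.pp P.hp_odd hx hpx hpy
  exact ⟨i, hiff.2 (by rwa [map_add, map_zsmul])⟩

theorem natCard_torsion [Fact P.p.Prime] : Nat.card (FT P) = P.p ^ 2 := by
  have := Module.finite_of_finrank_pos (show 0 < Module.finrank (ZMod P.p) (FT P) by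
    rw [finrank_eq_two]; norm_num)
  rw [Module.natCard_eq_pow_finrank (K := ZMod P.p), Nat.card_zmod, finrank_eq_two]

namespace CofixedData

variable (L : CofixedData P)
include L

/-- At a bad prime other than `p` some point of order `p` reduces to the node. -/
theorem exists_not_inE0 (hp : 17 ≤ P.p) (hq : q.Prime) (hqp : q ≠ P.p) (hA : A.LiesOverPrime q)
    (hbad : (q : ℤ) ∣ P.a * P.b * P.c) : ∃ x : FPt P, P.p • x = 0 ∧ ¬ InE0 A (FE P) x := by
  classical
  have : Fact P.p.Prime := ⟨P.pp⟩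
  by_contra hall
  push Not at hall
  have hvp : v (P.p : Qbar) = 1 := val_nat_eq_one hq hA fun h =>
    hqp ((Nat.prime_dvd_prime_iff_eq hq P.pp).1 h)
  rcases eq_or_ne q 2 with rfl | hq2
  · obtain ⟨σ, hσ⟩ := exists_isFrobeniusAt A hq hA
    obtain ⟨s, hs, hsx⟩ := L.exists_fixed_finset σ
    have := frobenius_fixed_card_le hq hσ P.hp_odd hvp s fun x hx =>
      ⟨(hsx x hx).1, (hsx x hx).2.1, hall x (hsx x hx).2.1, (hsx x hx).2.2⟩
    omega
  obtain ⟨a, b, r, β, hl, hr, hn⟩ := exists_label hq hq2 hA hbad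
  have hs := hl.isShift
  set f : FT P →+ (uModel (a : Qbar) b).Point :=
    (shiftHom hs).comp (FT P).subtype.toAddMonoidHom with hf
  have hfinj : Function.Injective f := fun x y h =>
    Subtype.ext (shiftHom_injective hs h)
  have hH : IsTorusGroup hs.model hn f.range := by
    refine ⟨?_, ?_⟩
    · rintro _ ⟨x, rfl⟩
      exact (inE0_iff_offNode intAt_frey hs hn hr).1 (hall _ (nsmul_coe x))
    · rintro _ ⟨x, rfl⟩ hne
      have hxp := nsmul_coe x
      have hfx : f x = shiftHom hs (x : FPt P) := rfl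
      rw [hfx] at hne ⊢
      generalize (x : FPt P) = z at hxp hne
      rcases z with _ | ⟨z₁, z₂, hz⟩
      · exact absurd (_root_.map_zero _) hne
      rw [shiftHom_some, uOf_some]
      exact val_sub_le A (val_mul_le A (val_ofNat_le A 4)
        (val_x_le_of_torsion intAt_frey hvp P.hp_odd psiVanish hxp)) hr
  set τ : FT P → Res A.valuation := fun x => torusParam v β (f x) with hτ
  have hmul : ∀ x y, τ (x + y) = τ x * τ y := fun x y => by
    simp only [hτ, map_add]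
    exact torusParam_add hs.model hn hH ⟨x, rfl⟩ ⟨y, rfl⟩
  have hτ0 : τ 0 = 1 := by simp [hτ, torusParam_zero]
  have hτp : ∀ x, τ x ^ P.p = 1 := fun x => by
    have : ∀ n : ℕ, τ (n • x) = τ x ^ n := fun n => by
      induction n with
      | zero => simp [hτ0]
      | succ n ih => rw [succ_nsmul, hmul, ih, pow_succ]
    rw [← this, show P.p • x = 0 from Subtype.ext (nsmul_coe x), hτ0]
  have hinj : Function.Injective τ := by
    intro x y hxy
    by_contra hne
    refine torusParam_ne_one hs.model hn hH ⟨x - y, rfl⟩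
      (fun h => hne (sub_eq_zero.1 (hfinj (h.trans (_root_.map_zero f).symm)))) ?_
    have h2 : τ (x - y) * τ y = τ x := by rw [← hmul, sub_add_cancel]
    have h3 : τ y ≠ 0 := fun h => by
      have := hτp y
      rw [h, zero_pow P.hp0] at this
      exact zero_ne_one this
    rw [hxy] at h2
    exact (mul_eq_right₀ h3).1 h2
  have := Module.finite_of_finrank_pos (show 0 < Module.finrank (ZMod P.p) (FT P) by
    rw [finrank_eq_two]; norm_num)
  have : Finite (FT P) := Module.finite_of_finite (ZMod P.p)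
  have : Fintype (FT P) := Fintype.ofFinite _
  have hp0 : (Polynomial.X ^ P.p - Polynomial.C (1 : Res A.valuation)) ≠ 0 :=
    Polynomial.X_pow_sub_C_ne_zero P.pp.pos _
  have hsub : Finset.univ.image τ ⊆
      (Polynomial.X ^ P.p - Polynomial.C (1 : Res A.valuation)).roots.toFinset := fun z hz => by
    obtain ⟨x, -, rfl⟩ := Finset.mem_image.1 hz
    rw [Multiset.mem_toFinset, Polynomial.mem_roots hp0, Polynomial.IsRoot, Polynomial.eval_sub,
      Polynomial.eval_pow, Polynomial.eval_X, Polynomial.eval_C, hτp, sub_self]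
  have := (Finset.card_le_card hsub).trans
    ((Multiset.toFinset_card_le _).trans (Polynomial.card_roots' _))
  rw [Polynomial.natDegree_X_pow_sub_C, Finset.card_image_of_injective _ hinj, Finset.card_univ,
    ← Nat.card_eq_fintype_card, natCard_torsion] at this
  nlinarith

/-- At a bad prime other than `p` the torsion of order `p` with nonsingular reduction is the
line, once the line has nonsingular reduction. -/
theorem mem_C_of_inE0 (hp : 17 ≤ P.p) (hq : q.Prime) (hqp : q ≠ P.p) (hA : A.LiesOverPrime q)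
    (hbad : (q : ℤ) ∣ P.a * P.b * P.c) (hc : InE0 A (FE P) L.c) {x : FPt P} (hx : P.p • x = 0)
    (h0 : InE0 A (FE P) x) : x ∈ L.C := by
  have : Fact P.p.Prime := ⟨P.pp⟩
  have hNE0 : L.N ≤ torE0 A := line_le_of_mem L.ne_bot L.ne_top (torE0 A)
    (y := toFT L.c L.nsmul_c) (L.coe_mem_C.1 L.c_mem)
    (fun h => L.c_ne_zero (congrArg Subtype.val h)) (mem_torE0.2 hc)
  have hle : torE0 A ≤ L.N := by
    by_contra hle
    obtain ⟨z, hz, hzE⟩ := L.exists_not_inE0 hp hq hqp hA hbad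
    refine hzE ((mem_torE0 (x := toFT z hz)).1 ?_)
    rw [← sup_eq_right.2 hNE0, line_sup_eq_top L.ne_bot L.ne_top _ hle]
    exact Submodule.mem_top
  exact ⟨toFT x hx, hle (mem_torE0.2 h0), rfl⟩

omit L in
/-- At a bad place above `p` the torsion of order `p` has no point reducing to a smooth finite
point. -/
theorem inE1_of_inE0 (hA : A.LiesOverPrime P.p) (hbad : (P.p : ℤ) ∣ P.a * P.b * P.c) {x : FPt P}
    (hx : P.p • x = 0) (h0 : InE0 A (FE P) x) : InE1 A (FE P) x := by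
  classical
  have : Fact P.p.Prime := ⟨P.pp⟩
  by_contra h1
  have hp2 : P.p ≠ 2 := by have := P.hp5; omega
  obtain ⟨a, b, r, β, hl, hr, hn⟩ := exists_label P.pp hp2 hA hbad
  have hs := hl.isShift
  set z := shiftHom hs x with hz
  have hxne : x ≠ 0 := fun h => h1 (by rw [h]; exact trivial)
  have hpz : P.p • z = 0 := by rw [hz, ← map_nsmul, hx, _root_.map_zero]
  have hH : IsTorusGroup hs.model hn (AddSubgroup.zmultiples z) := by
    refine ⟨?_, ?_⟩
    · rw [AddSubgroup.zmultiples_le]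
      exact (inE0_iff_offNode intAt_frey hs hn hr).1 h0
    · rintro _ ⟨i, rfl⟩ hne
      simp only at hne ⊢
      by_contra hgt
      rw [not_le] at hgt
      obtain ⟨hi, e⟩ := exists_eq_some hne
      refine h1 ((inE1_iff_kerReduction hs hn.toIntCoeff hr).2 (mem_of_sub_one_smul_mem
        (H := kerReduction hs.model hn.toIntCoeff) P.pp (n := 1) (b := i)
        (by rw [pow_one]; exact hpz) (fun hd => hne ?_) ?_))
      · obtain ⟨j, rfl⟩ := hd
        rw [mul_comm, mul_zsmul, natCast_zsmul, hpz, zsmul_zero]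
      · rw [e]
        exact (mem_kerReduction hi).mpr hgt
  have hzmem := AddSubgroup.mem_zmultiples z
  have hzne : z ≠ 0 := fun h => hxne (shiftHom_injective hs (h.trans (_root_.map_zero _).symm))
  refine torusParam_ne_one hs.model hn hH hzmem hzne ?_
  have : CharP (Res A.valuation) P.p := by
    refine (CharP.charP_iff_prime_eq_zero P.pp).2 ?_
    rw [← red_natCast]
    exact red_eq_zero (val_prime_lt hA)
  refine frobenius_inj (Res A.valuation) P.p ?_
  rw [frobenius_def, frobenius_def, one_pow, ← torusParam_nsmul hs.model hn hH hzmem, hpz,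
    torusParam_zero]

end CofixedData

end Frey

end FLTAgent.IsogenyDescent
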