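import Fermat.Agent.Regular.SmallExponents
import Fermat.Agent.ECReduction.FreyReducible
import Fermat.Agent.IsogenyDescent.Chain

/-!
# Irreducibility of the `p`-torsion of the Frey curve

A reducible representation has a cofixed line (`ECReduction.hasCofixedLine_of_reducible`). There is
none for `p ≥ 17` (`no_cofixed_line`), and no Frey package at all for the smaller exponents
(`Regular.SmallExponents`): `galoisRepIsIrreducible_freyCurve`. Used in S09.
-/

set_option autoImplicit false

open WeierstrassCurve WeierstrassCurve.Affine WeierstrassCurve.Affine.Point

namespace FLTAgent.IsogenyDescent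

/-- The representation on the torsion of order `p` of the Frey curve is irreducible. -/
theorem galoisRepIsIrreducible_freyCurve (P : FreyPackage) :
    GaloisRepIsIrreducible (K := AlgebraicClosure ℚ) ℚ P.freyCurve P.p := by
  by_contra hred
  have hline := ECReduction.hasCofixedLine_of_reducible P hred
  rcases le_or_gt 17 P.p with hp | hp
  · exact no_cofixed_line P hp hline
  have hp5 := P.hp5
  have hpr := P.pp
  have hcases : P.p = 5 ∨ P.p = 7 ∨ P.p = 13 ∨ P.p = 11 := by
    generalize P.p = q at hp hp5 hpr
    interval_cases q <;> revert hpr <;> norm_num
  rcases hcases with h | h | h | h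
  · exact Regular.no_freyPackage_five P h
  · exact Regular.no_freyPackage_seven P h
  · exact Regular.no_freyPackage_thirteen P h
  · exact Regular.no_freyPackage_eleven P h

end FLTAgent.IsogenyDescent
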