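import Fermat.Agent.IsogenyDescent.Translate
import Mathlib.RingTheory.Valuation.LocalSubring
import Mathlib.FieldTheory.IsAlgClosed.Basic

/-!
# The generic point and constant functions

`pointMap` moves points along a field embedding, `genU`, `genV` are the coordinates of the generic
point. An everywhere integral function over an algebraically closed field is constant
(`mem_range_of_forall_mem`), and every affine point is the centre of a place (`exists_centre`).
-/

set_option autoImplicit false

namespace FLTAgent.IsogenyDescent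

open WeierstrassCurve WeierstrassCurve.Affine WeierstrassCurve.Affine.Point
open Polynomial
open FLTAgent.FreyUnramified

variable {K L : Type*} [Field K] [Field L] {W : WeierstrassCurve.Affine K}

section Embedding

variable [DecidableEq K] [DecidableEq L] (φ : K →+* L)

omit [DecidableEq K] [DecidableEq L] in
lemma nonsingular_map {x y : K} (h : W.Nonsingular x y) :
    (W.map φ).toAffine.Nonsingular (φ x) (φ y) :=
  (Affine.map_nonsingular W φ.injective x y).mpr h

/-- The underlying map of `pointMap`. -/
def pointMapFun : W.Point → (W.map φ).toAffine.Point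
  | .zero => 0
  | .some x y h => .some (φ x) (φ y) (nonsingular_map φ h)

/-- The map on points induced by an extension of the base field. -/
def pointMap : W.Point →+ (W.map φ).toAffine.Point where
  toFun := pointMapFun φ
  map_zero' := rfl
  map_add' := by
    rintro (_ | ⟨x₁, y₁, h₁⟩) (_ | ⟨x₂, y₂, h₂⟩)
    any_goals rfl
    by_cases hxy : x₁ = x₂ ∧ y₁ = W.negY x₂ y₂
    · rw [add_of_Y_eq hxy.1 hxy.2]
      change (0 : (W.map φ).toAffine.Point) = Point.some _ _ _ + Point.some _ _ _
      rw [add_of_Y_eq (congrArg φ hxy.1) (by rw [hxy.2, Affine.map_negY])]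
    · have hxy' : ¬(φ x₁ = φ x₂ ∧ φ y₁ = (W.map φ).toAffine.negY (φ x₂) (φ y₂)) := fun h =>
        hxy ⟨φ.injective h.1, φ.injective (Affine.map_negY (W' := W) φ .. ▸ h.2)⟩
      rw [add_some hxy]
      change Point.some _ _ _ = Point.some _ _ _ + Point.some _ _ _
      rw [add_some hxy', some.injEq, Affine.map_slope, Affine.map_addX, Affine.map_addY]
      exact ⟨rfl, rfl⟩

lemma pointMap_injective : Function.Injective (pointMap (W := W) φ) := by
  rintro (_ | ⟨x₁, y₁, h₁⟩) (_ | ⟨x₂, y₂, h₂⟩) h
  · rfl
  · exact absurd h.symm (some_ne_zero _)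
  · exact absurd h (some_ne_zero _)
  · change Point.some _ _ _ = Point.some _ _ _ at h
    rw [some.injEq] at h
    obtain rfl := φ.injective h.1
    obtain rfl := φ.injective h.2
    rfl

@[simp] lemma uOf_pointMap (P : W.Point) : uOf (pointMap φ P) = φ (uOf P) := by
  rcases P with _ | ⟨x, y, h⟩
  · exact (_root_.map_zero φ).symm
  · rfl

@[simp] lemma yOf_pointMap (P : W.Point) : yOf (pointMap φ P) = φ (yOf P) := by
  rcases P with _ | ⟨x, y, h⟩
  · exact (_root_.map_zero φ).symm
  · rfl

omit [DecidableEq K] [DecidableEq L] in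
lemma isModel_map {A B : K} (hW : IsModel W A B) : IsModel (W.map φ).toAffine (φ A) (φ B) where
  a₁ := by rw [WeierstrassCurve.map_a₁, hW.a₁, _root_.map_zero]
  a₂ := by rw [WeierstrassCurve.map_a₂, hW.a₂, map_sub]
  a₃ := by rw [WeierstrassCurve.map_a₃, hW.a₃, _root_.map_zero]
  a₄ := by rw [WeierstrassCurve.map_a₄, hW.a₄, map_neg, map_mul]
  a₆ := by rw [WeierstrassCurve.map_a₆, hW.a₆, _root_.map_zero]
  two_ne := by rw [← map_ofNat φ 2]; exact (_root_.map_ne_zero φ).mpr hW.two_ne
  A_ne := (_root_.map_ne_zero φ).mpr hW.A_ne
  B_ne := (_root_.map_ne_zero φ).mpr hW.B_ne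
  AB_ne := by rw [← map_add]; exact (_root_.map_ne_zero φ).mpr hW.AB_ne

end Embedding

section Constants

/-- A valuation subring contains the constants. -/
def ContainsConstants (φ : K →+* L) (V : ValuationSubring L) : Prop := ∀ c, φ c ∈ V

variable {φ : K →+* L} {V : ValuationSubring L}

lemma ContainsConstants.le_one (h : ContainsConstants φ V) (c : K) : V.valuation (φ c) ≤ 1 :=
  (V.valuation_le_one_iff _).mpr (h c)

lemma ContainsConstants.eq_one (h : ContainsConstants φ V) {c : K} (hc : c ≠ 0) :
    V.valuation (φ c) = 1 := by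
  refine le_antisymm (h.le_one c) ?_
  have h' := h.le_one c⁻¹
  rwa [map_inv₀, map_inv₀, inv_le_one₀ (V.valuation.pos_iff.mpr ((_root_.map_ne_zero φ).mpr hc))]
    at h'

lemma ContainsConstants.intCoeff (h : ContainsConstants φ V) {A B : K} (h2 : (2 : K) ≠ 0) :
    IntCoeff V.valuation (φ A) (φ B) :=
  ⟨h.le_one A, h.le_one B, by rw [← map_ofNat φ 2]; exact h.eq_one h2⟩

/-- An element of an extension of an algebraically closed field lying in every valuation subring
containing the constants is a constant. -/
lemma mem_range_of_forall_mem [IsAlgClosed K] (φ : K →+* L) {z : L}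
    (h : ∀ V : ValuationSubring L, ContainsConstants φ V → z ∈ V) : ∃ c, φ c = z := by
  have hz : z ∈ (⨅ V : {V : ValuationSubring L // (φ.range : Set L) ⊆ V.toSubring},
      V.1.toSubring) :=
    Subring.mem_iInf.mpr fun V => h V.1 fun c => V.2 ⟨c, rfl⟩
  rw [iInf_valuationSubring_superset] at hz
  have hz' : IsIntegral (Subring.closure (φ.range : Set L)) z := hz
  let _ : Algebra K L := φ.toAlgebra
  have hle : Subring.closure (φ.range : Set L) ≤ φ.range := Subring.closure_le.mpr le_rfl
  have hint : IsIntegral K z := by
    obtain ⟨P, hmonic, hP⟩ := hz'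
    have hlift : P.map (Subring.closure (φ.range : Set L)).subtype ∈ Polynomial.lifts φ :=
      (Polynomial.lifts_iff_coeff_lifts _).mpr fun n => by
        rw [coeff_map]
        exact hle (P.coeff n).2
    obtain ⟨q, hq, -, hqm⟩ := Polynomial.lifts_and_degree_eq_and_monic hlift (hmonic.map _)
    refine ⟨q, hqm, ?_⟩
    change q.eval₂ φ z = 0
    rw [← eval_map, hq, eval_map]
    exact hP
  have hdeg := IsAlgClosed.degree_eq_one_of_irreducible K (minpoly.irreducible hint)
  obtain ⟨c, hc⟩ := minpoly.mem_range_of_degree_eq_one K z hdeg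
  exact ⟨c, hc⟩

end Constants

section GenericPoint

variable (W)

local notation "FF" => FractionRing W.CoordinateRing

/-- The constants inside the function field. -/
noncomputable def constHom : K →+* FF :=
  (algebraMap W.CoordinateRing FF).comp (algebraMap K W.CoordinateRing)

/-- The generic abscissa. -/
noncomputable def genU : FF :=
  algebraMap W.CoordinateRing FF (CoordinateRing.mk W (C X))

/-- The generic ordinate. -/
noncomputable def genV : FF :=
  algebraMap W.CoordinateRing FF (CoordinateRing.mk W Polynomial.X)

lemma equation_generic : (W.map (constHom W)).toAffine.Equation (genU W) (genV W) := by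
  have h := AdjoinRoot.mk_self (f := W.polynomial)
  rw [Affine.polynomial] at h
  rw [Affine.equation_iff']
  simp only [WeierstrassCurve.map_a₁, WeierstrassCurve.map_a₂, WeierstrassCurve.map_a₃,
    WeierstrassCurve.map_a₄, WeierstrassCurve.map_a₆, constHom, genU, genV, RingHom.comp_apply]
  have hA : ∀ r : K, algebraMap K W.CoordinateRing r = CoordinateRing.mk W (C (C r)) := fun r => rfl
  simp only [hA, ← map_pow, ← map_mul, ← map_add, ← map_sub]
  refine (congrArg (algebraMap W.CoordinateRing FF) ?_).trans (_root_.map_zero _)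
  refine Eq.trans (congrArg (CoordinateRing.mk W) ?_) h
  simp only [C_add, C_mul, C_pow]
  ring

variable {W}

/-- Every rational point is the centre of a valuation subring of the function field. -/
lemma exists_centre {x y : K} (h : W.Equation x y) :
    ∃ V : ValuationSubring FF, ContainsConstants (constHom W) V ∧
      V.valuation (genU W - constHom W x) < 1 ∧ V.valuation (genV W - constHom W y) < 1 := by
  let ev : W.CoordinateRing →+* K := AdjoinRoot.evalEval (p := W.polynomial) h
  have hinj : Function.Injective (algebraMap W.CoordinateRing FF) := IsFractionRing.injective _ _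
  let R : Subring FF := (algebraMap W.CoordinateRing FF).range
  let e : W.CoordinateRing ≃+* R :=
    RingEquiv.ofBijective (algebraMap W.CoordinateRing FF).rangeRestrict
      ⟨fun a b hab => hinj (congrArg Subtype.val hab), RingHom.rangeRestrict_surjective _⟩
  let I : Ideal R := (RingHom.ker ev).comap (e.symm : R →+* W.CoordinateRing)
  have hI : I ≠ ⊤ := by
    rw [Ideal.ne_top_iff_one]
    simp [I, Ideal.mem_comap, RingHom.mem_ker]
  obtain ⟨V, hle, hsub⟩ := Ideal.image_subset_nonunits_valuationSubring I hI
  refine ⟨V, fun c => hle ⟨_, rfl⟩, ?_, ?_⟩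
  all_goals
    rw [← ValuationSubring.mem_nonunits_iff]
  · refine hsub ⟨e (CoordinateRing.mk W (C (X - C x))), ?_, ?_⟩
    · rw [SetLike.mem_coe, Ideal.mem_comap, RingEquiv.coe_toRingHom, RingEquiv.symm_apply_apply,
        RingHom.mem_ker]
      refine (AdjoinRoot.evalEval_mk (p := W.polynomial) h _).trans ?_
      rw [evalEval_C, eval_sub, eval_X, eval_C, sub_self]
    · change algebraMap W.CoordinateRing FF (CoordinateRing.mk W (C (X - C x))) = _
      rw [C_sub, map_sub, map_sub]
      rfl
  · refine hsub ⟨e (CoordinateRing.mk W (X - C (C y))), ?_, ?_⟩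
    · rw [SetLike.mem_coe, Ideal.mem_comap, RingEquiv.coe_toRingHom, RingEquiv.symm_apply_apply,
        RingHom.mem_ker]
      refine (AdjoinRoot.evalEval_mk (p := W.polynomial) h _).trans ?_
      rw [evalEval_sub, evalEval_X, evalEval_C, eval_C, sub_self]
    · change algebraMap W.CoordinateRing FF (CoordinateRing.mk W (X - C (C y))) = _
      rw [map_sub, map_sub]
      rfl

/-- The generic abscissa is not a constant, as soon as two rational points have different
abscissae. -/
lemma genU_ne_const {x₁ y₁ x₂ y₂ : K} (h₁ : W.Equation x₁ y₁) (h₂ : W.Equation x₂ y₂)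
    (hne : x₁ ≠ x₂) (c : K) : genU W ≠ constHom W c := by
  intro hc
  have key : ∀ x y, W.Equation x y → c = x := by
    intro x y h
    obtain ⟨V, hV, hx, -⟩ := exists_centre h
    rw [hc, ← map_sub] at hx
    by_contra hcx
    exact absurd hx (hV.eq_one (sub_ne_zero_of_ne hcx)).ge.not_gt
  exact hne ((key _ _ h₁).symm.trans (key _ _ h₂))

end GenericPoint

end FLTAgent.IsogenyDescent
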