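import Fermat.Agent.IsogenyDescent.Hom

/-!
# The image curve at residue characteristic two

Under `TwoData`, the parameters satisfy `val_imgA_two` and `val_imgB_sub_two`, and a point all of
whose translates lie over the node has its image over the node (`val_velu_image_two`).
-/

set_option autoImplicit false
set_option linter.unusedSectionVars false

namespace FLTAgent.IsogenyDescent

open WeierstrassCurve WeierstrassCurve.Affine WeierstrassCurve.Affine.Point
open FLTAgent.FreyUnramified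

variable {K : Type*} [Field K] [DecidableEq K] {W : WeierstrassCurve.Affine K} {A B : K}

/-- Adding a point of order two. -/
lemma uOf_add_twoTorsion (hW : IsModel W A B) {t : K} (ht : W.Nonsingular t 0) {q : W.Point}
    (hq : q ≠ 0) (hne : t ≠ uOf q) :
    uOf (Point.some t 0 ht + q) =
      uOf q * (uOf q - A) * (uOf q + B) / (t - uOf q) ^ 2 - (B - A) - t - uOf q := by
  rw [(coords_add hW (some_ne_zero ht) hq hne).1, uOf_some, yOf_some, div_pow, zero_sub, neg_sq,
    equation_of hW q]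

lemma uOf_pt0_add (hW : IsModel W A B) {q : W.Point} (hq : q ≠ 0) (hne : uOf q ≠ 0) :
    uOf (pt0 hW + q) = -(A * B) / uOf q := by
  rw [pt0, uOf_add_twoTorsion hW _ hq (Ne.symm hne)]
  field_simp
  ring

lemma uOf_pt1_add (hW : IsModel W A B) {q : W.Point} (hq : q ≠ 0) (hne : uOf q ≠ A) :
    uOf (pt1 hW + q) = A * (uOf q + B) / (uOf q - A) := by
  rw [pt1, uOf_add_twoTorsion hW _ hq (Ne.symm hne)]
  have := sub_ne_zero_of_ne hne
  have := sub_ne_zero_of_ne (Ne.symm hne)
  field_simp
  ring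

lemma uOf_pt2_add (hW : IsModel W A B) {q : W.Point} (hq : q ≠ 0) (hne : uOf q ≠ -B) :
    uOf (pt2 hW + q) = B * (A - uOf q) / (uOf q + B) := by
  rw [pt2, uOf_add_twoTorsion hW _ hq (Ne.symm hne)]
  have : uOf q + B ≠ 0 := fun h => hne (eq_neg_of_add_eq_zero_left h)
  have := sub_ne_zero_of_ne (Ne.symm hne)
  field_simp
  ring

variable {Γ₀ : Type*} [LinearOrderedCommGroupWithZero Γ₀] {v : Valuation K Γ₀}
  {M : Type*} [AddCommGroup M] [Fintype M] [DecidableEq M] {ι : M →+ W.Point}

/-- The data at residue characteristic two. -/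
structure TwoData (v : Valuation K Γ₀) (A B : K) (ι : M →+ W.Point) : Prop where
  two_lt : v 2 < 1
  A_lt : v A < v 4 ^ 2
  B_unit : v B = 1
  ker : ∀ x : M, x ≠ 0 → v (uOf (ι x)) = v 4

variable (hk : KernelData W A B ι) (ht : TwoData v A B ι)
include hk ht

lemma TwoData.two_pos : 0 < v 2 := pos_of_ne_zero (v.ne_zero_iff.mpr hk.model.two_ne)

lemma TwoData.four_eq : v 4 = v 2 * v 2 := by
  rw [← map_mul]; norm_num

lemma TwoData.four_pos : 0 < v 4 := by
  rw [TwoData.four_eq hk ht]; exact mul_pos (TwoData.two_pos hk ht) (TwoData.two_pos hk ht)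

lemma TwoData.four_lt : v 4 < 1 := by
  rw [TwoData.four_eq hk ht]
  exact (mul_lt_mul_of_pos_left ht.two_lt (TwoData.two_pos hk ht)).trans
    (by rw [mul_one]; exact ht.two_lt)

lemma TwoData.A_lt_four : v A < v 4 :=
  ht.A_lt.trans_le (by
    rw [pow_two]; exact mul_le_of_le_one_left zero_le (TwoData.four_lt hk ht).le)

lemma TwoData.coords {x : M} (hx : x ≠ 0) :
    uOf (ι x) ≠ 0 ∧ uOf (ι x) ≠ A ∧ uOf (ι x) ≠ -B ∧
      v (uOf (ι x) - A) = v 4 ∧ v (uOf (ι x) + B) = 1 := by
  have hu := ht.ker x hx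
  have h4 := TwoData.four_pos hk ht
  have h1 : v (uOf (ι x) - A) = v 4 := by
    rw [v.map_sub_eq_of_lt_left (by rw [hu]; exact TwoData.A_lt_four hk ht), hu]
  have h2 : v (uOf (ι x) + B) = 1 := by
    rw [v.map_add_eq_of_lt_right (by rw [hu, ht.B_unit]; exact TwoData.four_lt hk ht), ht.B_unit]
  refine ⟨fun h => ?_, fun h => ?_, fun h => ?_, h1, h2⟩
  · rw [h, _root_.map_zero] at hu; exact h4.ne hu
  · rw [h, sub_self, _root_.map_zero] at h1; exact h4.ne h1
  · rw [h, neg_add_cancel, _root_.map_zero] at h2; exact zero_ne_one h2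

/-- `A'` is as small as `A`, up to a factor two. -/
theorem val_imgA_two : v (imgA hk) * v 2 ≤ v A := by
  have h2 := TwoData.two_pos hk ht
  have h4 := TwoData.four_pos hk ht
  rw [imgA, imgRoot1, imgRoot0, veluX, veluX, sub_sub_sub_cancel_right, ← Finset.sum_sub_distrib,
    ← map_mul, Finset.sum_mul]
  refine v.map_sum_le fun x _ => ?_
  by_cases hx : x = 0
  · subst hx
    rw [_root_.map_zero, add_zero, add_zero]
    simp only [pt0, pt1, uOf_some, sub_zero, map_mul]
    exact mul_le_of_le_one_right zero_le ht.two_lt.le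
  obtain ⟨h0, hA, -, h1, -⟩ := TwoData.coords hk ht hx
  have hu := ht.ker x hx
  rw [uOf_pt1_add hk.model (hk.map_ne_zero hx) hA, uOf_pt0_add hk.model (hk.map_ne_zero hx) h0]
  generalize uOf (ι x) = u at *
  have hne := sub_ne_zero_of_ne hA
  rw [show (A * (u + B) / (u - A) - -(A * B) / u) * 2 =
    A * (2 * (u ^ 2 + 2 * (B * u) - A * B)) / (u * (u - A)) by field_simp; ring,
    map_div₀, map_mul v u, hu, h1, div_le_iff₀ (mul_pos h4 h4), map_mul]
  refine mul_le_mul' le_rfl ?_
  rw [map_mul, show v 4 * v 4 = v 2 * (v 2 * v 4) by rw [TwoData.four_eq hk ht]; ac_rfl]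
  refine mul_le_mul' le_rfl ?_
  refine v.map_sub_le (v.map_add_le ?_ ?_) ?_
  · rw [map_pow, hu, pow_two, TwoData.four_eq hk ht]
    exact mul_le_mul' (mul_le_of_le_one_right zero_le ht.two_lt.le) le_rfl
  · rw [map_mul, map_mul, hu, ht.B_unit, one_mul]
  · rw [map_mul, ht.B_unit, mul_one]
    refine ht.A_lt.le.trans ?_
    rw [pow_two, TwoData.four_eq hk ht]
    exact mul_le_mul' (mul_le_of_le_one_right zero_le ht.two_lt.le) le_rfl

/-- `B'` is congruent to `B` modulo four. -/
theorem val_imgB_sub_two : v (imgB hk - B) ≤ v 4 := by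
  have h4 := TwoData.four_pos hk ht
  rw [imgB, imgRoot0, imgRoot2, veluX, veluX, sub_sub_sub_cancel_right, ← Finset.sum_sub_distrib,
    ← Finset.add_sum_erase _ _ (Finset.mem_univ (0 : M))]
  simp only [_root_.map_zero, add_zero, pt0, pt2, uOf_some, sub_neg_eq_add, zero_add,
    add_sub_cancel_left]
  refine v.map_sum_le fun x hx => ?_
  have hx0 := (Finset.mem_erase.mp hx).1
  obtain ⟨h0, -, hB, -, h2⟩ := TwoData.coords hk ht hx0
  have hu := ht.ker x hx0
  rw [← pt0.eq_def hk.model, ← pt2.eq_def hk.model,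
    uOf_pt0_add hk.model (hk.map_ne_zero hx0) h0, uOf_pt2_add hk.model (hk.map_ne_zero hx0) hB]
  generalize uOf (ι x) = u at *
  have hne : u + B ≠ 0 := fun h => hB (eq_neg_of_add_eq_zero_left h)
  rw [show -(A * B) / u - B * (A - u) / (u + B) =
    B * (u ^ 2 - 2 * (A * u) - A * B) / (u * (u + B)) by field_simp; ring,
    map_div₀, map_mul, map_mul v u, hu, h2, ht.B_unit, mul_one, one_mul, div_le_iff₀ h4]
  refine v.map_sub_le (v.map_sub_le ?_ ?_) ?_
  · rw [map_pow, hu, pow_two]
  · rw [map_mul, map_mul, hu]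
    refine (mul_le_of_le_one_left zero_le ht.two_lt.le).trans ?_
    exact mul_le_mul' (TwoData.A_lt_four hk ht).le le_rfl
  · rw [map_mul, ht.B_unit, mul_one, ← pow_two]
    exact ht.A_lt.le

/-- The image of a point all of whose translates lie over the node lies over the node. -/
theorem val_velu_image_two {g : W.Point} (hg : ∀ x, v (uOf (g + ι x)) < v 4) :
    v (veluX ι g - imgRoot0 hk) < v 4 := by
  have h4 := TwoData.four_pos hk ht
  rw [imgRoot0, veluX, veluX, sub_sub_sub_cancel_right, ← Finset.sum_sub_distrib]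
  refine v.map_sum_lt h4.ne' fun x _ => v.map_sub_lt (hg x) ?_
  by_cases hx : x = 0
  · subst hx
    simpa [pt0] using h4
  obtain ⟨h0, -, -, -, -⟩ := TwoData.coords hk ht hx
  rw [uOf_pt0_add hk.model (hk.map_ne_zero hx) h0, map_div₀, v.map_neg, map_mul, ht.B_unit, mul_one,
    ht.ker x hx, div_lt_iff₀ h4, ← pow_two]
  exact ht.A_lt

end FLTAgent.IsogenyDescent
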