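import Fermat.Agent.IsogenyDescent.Components
import Fermat.Agent.IsogenyDescent.ImageTwo

/-!
# The quotient of the Frey curve by a stable cyclic group

For a `CyclicKernel`, the two-torsion parameters of the image are fixed by Galois
(`imgAB_fixed`) and integral (`imgAB_le`), and the roots for different labels agree (`imgRoots`).
-/

set_option autoImplicit false
set_option linter.unusedSectionVars false

noncomputable section

open WeierstrassCurve WeierstrassCurve.Affine WeierstrassCurve.Affine.Point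
open scoped WeierstrassCurve.Affine Pointwise

namespace FLTAgent.IsogenyDescent

open FLTAgent.ECReduction FLTAgent.Density FLTAgent.FreyUnramified

section Generic

variable {K : Type*} [Field K] [DecidableEq K] {W W' : WeierstrassCurve.Affine K} {a b r : K}
  {M : Type*} [AddCommGroup M] [Fintype M] [DecidableEq M] {ι : M →+ W.Point}

lemma uOf_shiftHom (hs : IsShift W W' a b r) {G : W.Point} (hG : G ≠ 0) :
    uOf (shiftHom hs G) = 4 * uOf G - r := by
  obtain ⟨h, e⟩ := exists_eq_some hG
  conv_lhs => rw [e, shiftHom_some, uOf_some]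

/-- The translation sum in shifted coordinates. -/
lemma veluX_shift (hs : IsShift W W' a b r) (hι : Function.Injective ι) {G : W.Point}
    (hG : G ∉ ι.range) :
    veluX ((shiftHom hs).comp ι) (shiftHom hs G) = 4 * veluX ι G - r := by
  unfold veluX
  have h1 : ∀ x, uOf (shiftHom hs G + (shiftHom hs).comp ι x) = 4 * uOf (G + ι x) - r := fun x => by
    rw [AddMonoidHom.comp_apply, ← map_add, uOf_shiftHom hs fun h => hG ⟨-x, by
      rw [map_neg]; exact (eq_neg_of_add_eq_zero_left h).symm⟩]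
  have h2 : ∀ x, uOf ((shiftHom hs).comp ι x) = 4 * uOf (ι x) - (r - if x = 0 then r else 0) := by
    intro x
    by_cases hx : x = 0
    · subst hx
      simp
    · rw [AddMonoidHom.comp_apply, uOf_shiftHom hs fun h =>
        hx (hι (h.trans (_root_.map_zero ι).symm)),
        if_neg hx, sub_zero]
  simp only [h1, h2, Finset.sum_sub_distrib, Finset.sum_ite_eq', Finset.mem_univ, if_true,
    mul_sub, Finset.mul_sum]
  ring

lemma veluX_sub_le {A B : K} {Γ₀ : Type*} [LinearOrderedCommGroupWithZero Γ₀] {v : Valuation K Γ₀}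
    (hk : KernelData W A B ι) (hc : IntCoeff v A B) {T T' : W.Point} (hT : 2 • T = 0)
    (hT' : 2 • T' = 0) (hTu : T ∉ kerReduction hk.model hc) (hTu' : T' ∉ kerReduction hk.model hc) :
    v (veluX ι T - veluX ι T') ≤ 1 := by
  have key : ∀ {T : W.Point}, 2 • T = 0 → T ∉ kerReduction hk.model hc → ∀ x,
      v (uOf (T + ι x)) ≤ 1 := by
    intro T hT hTu x
    by_contra hgt
    rw [not_le] at hgt
    rcases hTx : T + ι x with _ | ⟨u, Y, h⟩
    · rw [hTx] at hgt
      rw [show uOf (Point.zero : W.Point) = 0 from rfl, _root_.map_zero] at hgt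
      exact not_lt.2 zero_le hgt
    · rw [hTx, uOf_some] at hgt
      have hmem : T + ι x ∈ kerReduction hk.model hc := by
        rw [hTx]; exact (mem_kerReduction h).mpr hgt
      refine hTu ?_
      obtain ⟨k, hk'⟩ := hk.odd
      have := nsmul_mem hmem (Fintype.card M)
      rwa [nsmul_add, ← map_nsmul, card_nsmul_eq_zero, _root_.map_zero, add_zero, hk', succ_nsmul,
        mul_comm 2 k, mul_nsmul', hT, nsmul_zero, zero_add] at this
  rw [veluX, veluX, sub_sub_sub_cancel_right]
  exact v.map_sub_le (v.map_sum_le fun x _ => key hT hTu x) (v.map_sum_le fun x _ => key hT' hTu' x)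

end Generic

variable {P : FreyPackage}

open scoped Classical in
/-- The point of order two over a root `ρ` of the completed cubic. -/
def torPt (P : FreyPackage) (ρ : Qbar) : FPt P :=
  if h : (FE P).toAffine.Equation (ρ / 4) (-ρ / 8) then
    Point.some _ _ ((equation_iff_nonsingular_of_Δ_ne_zero (ECReduction.Δ_ne_zero (P := P))).1 h)
  else 0

lemma equation_torPt {ρ : Qbar}
    (hρ : ρ * (ρ - (P.a : Qbar) ^ P.p) * (ρ + (P.b : Qbar) ^ P.p) = 0) :
    (FE P).toAffine.Equation (ρ / 4) (-ρ / 8) := by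
  obtain ⟨a₂, h₂⟩ := exists_a₂ P
  obtain ⟨a₄, h₄⟩ := exists_a₄ P
  obtain ⟨c₁, c₂, c₃, c₄, c₆⟩ := coeffs_eq h₂ h₄
  have e₂ := congrArg (Int.cast : ℤ → Qbar) h₂
  have e₄ := congrArg (Int.cast : ℤ → Qbar) h₄
  push_cast at e₂ e₄
  rw [equation_iff, c₁, c₂, c₃, c₄, c₆]
  linear_combination (-1 / 64 : Qbar) * hρ - ρ ^ 2 / 64 * e₂ - ρ / 64 * e₄

lemma torPt_eq {ρ : Qbar}
    (hρ : ρ * (ρ - (P.a : Qbar) ^ P.p) * (ρ + (P.b : Qbar) ^ P.p) = 0) :
    ∃ h, torPt P ρ = Point.some (ρ / 4) (-ρ / 8) h := by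
  rw [torPt, dif_pos (equation_torPt hρ)]
  exact ⟨_, rfl⟩

lemma smul_torPt (σ : GalQ) {ρ : Qbar} (hρ : σ ρ = ρ) : σ • torPt P ρ = torPt P ρ := by
  unfold torPt
  split_ifs with h
  · rw [smul_some, some.injEq]
    constructor <;> simp [hρ, map_ofNat]
  · exact _root_.map_zero (DistribSMul.toAddMonoidHom (P.freyCurve⁄Qbar).Point σ)

lemma shiftHom_torPt {a b r : ℤ} (hl : IsLabel P a b r) :
    shiftHom hl.isShift (torPt P r) = pt0 hl.isShift.model ∧
    shiftHom hl.isShift (torPt P ((r : Qbar) + a)) = pt1 hl.isShift.model ∧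
    shiftHom hl.isShift (torPt P ((r : Qbar) - b)) = pt2 hl.isShift.model := by
  have hf := congrArg (Int.cast : ℤ → Qbar) P.hFLT
  push_cast at hf
  have key : ∀ (ρ u : Qbar) (hu : (uModel (a : Qbar) b).Nonsingular u 0),
      ρ * (ρ - (P.a : Qbar) ^ P.p) * (ρ + (P.b : Qbar) ^ P.p) = 0 → ρ - r = u →
      shiftHom hl.isShift (torPt P ρ) = Point.some u 0 hu := by
    intro ρ u hu hρ e
    obtain ⟨h, ht⟩ := torPt_eq hρ
    rw [ht, shiftHom_some, some.injEq]
    exact ⟨by rw [← e]; ring, by ring⟩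
  refine ⟨key _ _ _ ?_ (sub_self _), key _ _ _ ?_ (add_sub_cancel_left _ _),
    key _ _ _ ?_ (by ring)⟩ <;>
    rcases hl with ⟨rfl, rfl, rfl⟩ | ⟨rfl, rfl, rfl⟩ | ⟨rfl, rfl, rfl⟩ <;> push_cast <;>
    first
      | ring1
      | (rw [← hf]; ring1)

variable (g : FPt P) (hg : IsOfFinAddOrder g)

/-- A stable cyclic subgroup, as the kernel of an isogeny. -/
structure CyclicKernel (g : FPt P) : Prop where
  fin : IsOfFinAddOrder g
  odd : Odd (addOrderOf g)
  stable : ∀ σ : GalQ, σ • g ∈ AddSubgroup.zmultiples g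

/-- The images of the points of order two, in the coordinates of the Frey curve. -/
def rootImage (g : FPt P) [Fintype (AddSubgroup.zmultiples g)] (ρ : Qbar) : Qbar :=
  4 * veluX (AddSubgroup.zmultiples g).subtype (torPt P ρ)

namespace CyclicKernel

variable {g} (hK : CyclicKernel g)
include hK

@[reducible] def fintype : Fintype (AddSubgroup.zmultiples g) :=
  Fintype.ofEquiv _ (finEquivZMultiples hK.fin)

theorem smul_mem (σ : GalQ) {x : FPt P} (hx : x ∈ AddSubgroup.zmultiples g) :
    σ • x ∈ AddSubgroup.zmultiples g := by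
  obtain ⟨k, rfl⟩ := hx
  simp only
  rw [smul_zsmul_eq]
  exact zsmul_mem (hK.stable σ) k

theorem card_eq [Fintype (AddSubgroup.zmultiples g)] :
    Fintype.card (AddSubgroup.zmultiples g) = addOrderOf g := by
  rw [← Nat.card_eq_fintype_card, Nat.card_zmultiples]

theorem kernelData [Fintype (AddSubgroup.zmultiples g)] {a b r : ℤ} (hl : IsLabel P a b r) :
    KernelData (uModel (a : Qbar) b) (a : Qbar) (b : Qbar)
      ((shiftHom hl.isShift).comp (AddSubgroup.zmultiples g).subtype) :=
  ⟨hl.isShift.model, (shiftHom_injective hl.isShift).comp Subtype.val_injective,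
    hK.card_eq ▸ hK.odd⟩

theorem torPt_not_mem [Fintype (AddSubgroup.zmultiples g)] {a b r : ℤ} (hl : IsLabel P a b r)
    {ρ : Qbar} {u : Qbar} {hu : (uModel (a : Qbar) b).Nonsingular u 0}
    (h : shiftHom hl.isShift (torPt P ρ) = Point.some u 0 hu) :
    torPt P ρ ∉ (AddSubgroup.zmultiples g).subtype.range := by
  rintro ⟨x, hx⟩
  refine (hK.kernelData hl).not_mem_range_of_yOf_eq_zero (a := Point.some u 0 hu)
    (some_ne_zero _) (yOf_some _) ⟨x, ?_⟩
  rw [AddMonoidHom.comp_apply, hx, h]

theorem imgRoots [Fintype (AddSubgroup.zmultiples g)] {a b r : ℤ} (hl : IsLabel P a b r) :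
    imgRoot0 (hK.kernelData hl) = rootImage g r - r ∧
    imgA (hK.kernelData hl) = rootImage g ((r : Qbar) + a) - rootImage g r ∧
    imgB (hK.kernelData hl) = rootImage g r - rootImage g ((r : Qbar) - b) := by
  obtain ⟨e0, e1, e2⟩ := shiftHom_torPt hl
  have hι : Function.Injective (AddSubgroup.zmultiples g).subtype := Subtype.val_injective
  have f : ∀ {ρ : Qbar} {u : Qbar} {hu : (uModel (a : Qbar) b).Nonsingular u 0},
      shiftHom hl.isShift (torPt P ρ) = Point.some u 0 hu →
      veluX ((shiftHom hl.isShift).comp (AddSubgroup.zmultiples g).subtype) (Point.some u 0 hu) =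
        rootImage g ρ - r := fun h => by
    rw [← h, veluX_shift hl.isShift hι (hK.torPt_not_mem hl h), rootImage]
  refine ⟨f e0, ?_, ?_⟩
  · rw [imgA, imgRoot1, imgRoot0, pt0, pt1, f e0, f e1]; ring
  · rw [imgB, imgRoot2, imgRoot0, pt0, pt2, f e0, f e2]; ring

theorem velu_sub_root [Fintype (AddSubgroup.zmultiples g)] {a b r : ℤ} (hl : IsLabel P a b r)
    {e : FPt P} (he : e ∉ AddSubgroup.zmultiples g) :
    veluX ((shiftHom hl.isShift).comp (AddSubgroup.zmultiples g).subtype)
        (shiftHom hl.isShift e) - imgRoot0 (hK.kernelData hl) =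
      4 * veluX (AddSubgroup.zmultiples g).subtype e - rootImage g r := by
  rw [veluX_shift hl.isShift Subtype.val_injective (by simpa using he), (hK.imgRoots hl).1]
  ring

/-- The Galois permutation of the kernel. -/
def perm (σ : GalQ) : AddSubgroup.zmultiples g ≃ AddSubgroup.zmultiples g where
  toFun x := ⟨σ • (x : FPt P), hK.smul_mem σ x.2⟩
  invFun x := ⟨σ⁻¹ • (x : FPt P), hK.smul_mem σ⁻¹ x.2⟩
  left_inv x := Subtype.ext (inv_smul_smul σ (x : FPt P))
  right_inv x := Subtype.ext (smul_inv_smul σ (x : FPt P))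

theorem map_veluX [Fintype (AddSubgroup.zmultiples g)] {a b r : ℤ} (hl : IsLabel P a b r)
    (σ : GalQ) (G : FPt P) :
    σ (veluX ((shiftHom hl.isShift).comp (AddSubgroup.zmultiples g).subtype)
        (shiftHom hl.isShift G)) =
      veluX ((shiftHom hl.isShift).comp (AddSubgroup.zmultiples g).subtype)
        (shiftHom hl.isShift (σ • G)) ∧
    σ (veluY ((shiftHom hl.isShift).comp (AddSubgroup.zmultiples g).subtype)
        (shiftHom hl.isShift G)) =
      veluY ((shiftHom hl.isShift).comp (AddSubgroup.zmultiples g).subtype)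
        (shiftHom hl.isShift (σ • G)) := by
  have hu : ∀ G : FPt P, σ (uOf (shiftHom hl.isShift G)) = uOf (shiftHom hl.isShift (σ • G)) ∧
      σ (yOf (shiftHom hl.isShift G)) = yOf (shiftHom hl.isShift (σ • G)) := by
    rintro (_ | ⟨x, y, h⟩)
    · exact ⟨_root_.map_zero σ, _root_.map_zero σ⟩
    · rw [smul_some, shiftHom_some, shiftHom_some, uOf_some, uOf_some, yOf_some, yOf_some]
      constructor <;> simp [map_ofNat]
  have hi : ∀ x : AddSubgroup.zmultiples g,
      σ • ((x : FPt P)) = ((hK.perm σ x : AddSubgroup.zmultiples g) : FPt P) :=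
    fun x => rfl
  have e : ∀ (G : FPt P) (x : AddSubgroup.zmultiples g),
      σ • (G + (x : FPt P)) = σ • G + ((hK.perm σ x : AddSubgroup.zmultiples g) : FPt P) :=
    fun G x => by rw [smul_pt_add, hi]
  constructor
  · unfold veluX
    rw [map_sub, map_sum, map_sum]
    congr 1
    · exact Fintype.sum_equiv (hK.perm σ) _ _ fun x => by
        rw [AddMonoidHom.comp_apply, AddMonoidHom.comp_apply, ← map_add, ← map_add, (hu _).1]
        exact congrArg (fun z => uOf (shiftHom hl.isShift z)) (e G x)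
    · exact Fintype.sum_equiv (hK.perm σ) _ _ fun x => by
        rw [AddMonoidHom.comp_apply, AddMonoidHom.comp_apply, (hu _).1]
        rfl
  · unfold veluY
    rw [map_sum]
    exact Fintype.sum_equiv (hK.perm σ) _ _ fun x => by
      rw [AddMonoidHom.comp_apply, AddMonoidHom.comp_apply, ← map_add, ← map_add, (hu _).2]
      exact congrArg (fun z => yOf (shiftHom hl.isShift z)) (e G x)

theorem imgAB_fixed [Fintype (AddSubgroup.zmultiples g)] {a b r : ℤ} (hl : IsLabel P a b r)
    (σ : GalQ) : σ (imgA (hK.kernelData hl)) = imgA (hK.kernelData hl) ∧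
      σ (imgB (hK.kernelData hl)) = imgB (hK.kernelData hl) := by
  obtain ⟨e0, e1, e2⟩ := shiftHom_torPt hl
  rw [imgA, imgB, imgRoot0, imgRoot1, imgRoot2, map_sub, map_sub, ← e0, ← e1, ← e2,
    (hK.map_veluX hl σ _).1, (hK.map_veluX hl σ _).1, (hK.map_veluX hl σ _).1,
    smul_torPt σ (map_intCast σ r), smul_torPt σ (by simp), smul_torPt σ (by simp)]
  exact ⟨rfl, rfl⟩

/-- Away from two the parameters of the image are integral. -/
theorem imgAB_le [Fintype (AddSubgroup.zmultiples g)] {a b r : ℤ} (hl : IsLabel P a b r)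
    {A : ValuationSubring Qbar} {q : ℕ} (hq : q.Prime) (hq2 : q ≠ 2) (hA : A.LiesOverPrime q) :
    A.valuation (imgA (hK.kernelData hl)) ≤ 1 ∧ A.valuation (imgB (hK.kernelData hl)) ≤ 1 := by
  have h2 : A.valuation (2 : Qbar) = 1 := by
    have := val_nat_eq_one hq hA (n := 2) fun h =>
      hq2 ((Nat.prime_dvd_prime_iff_eq hq Nat.prime_two).1 h)
    exact_mod_cast this
  have hc : IntCoeff A.valuation (a : Qbar) (b : Qbar) :=
    ⟨val_intCast_le A a, val_intCast_le A b, h2⟩
  set hk := hK.kernelData hl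
  have two : ∀ {u : Qbar} (hu : (uModel (a : Qbar) b).Nonsingular u 0),
      2 • (Point.some u 0 hu) = 0 := fun {u} hu => by
    rw [two_nsmul]
    exact add_of_Y_eq rfl (by rw [hk.model.negY_eq, _root_.neg_zero])
  have notker : ∀ {u : Qbar} (hu : (uModel (a : Qbar) b).Nonsingular u 0), A.valuation u ≤ 1 →
      Point.some u 0 hu ∉ kerReduction hk.model hc := fun {u} hu hle h =>
    not_lt.2 hle ((mem_kerReduction hu).mp h)
  have h0 : A.valuation (0 : Qbar) ≤ 1 := val_zero_le A
  constructor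
  · rw [imgA, imgRoot1, imgRoot0, pt0, pt1]
    exact veluX_sub_le hk hc (two _) (two _) (notker _ (val_intCast_le A a)) (notker _ h0)
  · rw [imgB, imgRoot2, imgRoot0, pt0, pt2]
    exact veluX_sub_le hk hc (two _) (two _) (notker _ h0)
      (notker _ (val_neg_le A (val_intCast_le A b)))

end CyclicKernel

/-- A rational number integral at one place over each prime is an integer. -/
theorem exists_int_of_fixed {x : Qbar} (hx : ∀ σ : GalQ, σ x = x)
    (hint : ∀ q : ℕ, q.Prime → ∃ A : ValuationSubring Qbar, A.LiesOverPrime q ∧ A.valuation x ≤ 1) :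
    ∃ n : ℤ, (n : Qbar) = x := by
  obtain ⟨r, hr⟩ := (InfiniteGalois.mem_range_algebraMap_iff_fixed x).2 hx
  rw [eq_ratCast] at hr
  refine ⟨r.num, ?_⟩
  by_cases hden : r.den = 1
  · rw [← hr]
    exact_mod_cast (Rat.coe_int_num_of_den_eq_one hden)
  exfalso
  obtain ⟨q, hq, hqd⟩ := Nat.exists_prime_and_dvd hden
  obtain ⟨A, hA, hle⟩ := hint q hq
  have hnum : ¬ (q : ℤ) ∣ r.num := fun hn => by
    have := Nat.dvd_gcd (Int.natCast_dvd.1 hn) hqd
    rw [r.reduced] at this
    exact hq.ne_one (Nat.dvd_one.1 this)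
  have hd : A.valuation (r.den : Qbar) < 1 := by
    have := val_int_lt hA (n := (r.den : ℤ)) (Int.natCast_dvd_natCast.2 hqd)
    rwa [Int.cast_natCast] at this
  have e : (r : Qbar) * (r.den : Qbar) = (r.num : Qbar) := by exact_mod_cast Rat.mul_den_eq_num r
  have h2 := congrArg A.valuation e
  rw [map_mul, val_int_eq_one hq hA hnum, hr] at h2
  exact (lt_of_le_of_lt (mul_le_of_le_one_left' hle) hd).ne h2

/-- Divisibility read off from the valuation. -/
theorem pow_dvd_of_val_le {A : ValuationSubring Qbar} {q : ℕ} (hq : q.Prime)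
    (hA : A.LiesOverPrime q) {n : ℤ} {k : ℕ}
    (h : A.valuation (n : Qbar) ≤ A.valuation (q : Qbar) ^ k) : (q : ℤ) ^ k ∣ n := by
  by_cases hn : n = 0
  · rw [hn]; exact dvd_zero _
  obtain ⟨e, m, hnm, -, hv⟩ := exists_val_int_eq_pow hq hA hn
  rw [hv] at h
  have hke : k ≤ e := (pow_le_pow_iff_right_of_lt_one₀
    (A.valuation.pos_iff.2 (Nat.cast_ne_zero.2 hq.ne_zero)) (val_prime_lt hA)).1 h
  rw [hnm]
  exact (pow_dvd_pow _ hke).mul_right _

end FLTAgent.IsogenyDescent
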