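import Fermat.Agent.FreyUnramified.Cubic

/-!
# Vélu's translation sums

`veluX`, `veluY` are the sums of the coordinates of `Y² = u (u - A) (u + B)` over the translates by
a finite group of odd order; `veluX_eq`, `veluY_eq` are their closed forms away from the group.
-/

set_option autoImplicit false

namespace FLTAgent.IsogenyDescent

open WeierstrassCurve WeierstrassCurve.Affine WeierstrassCurve.Affine.Point
open FLTAgent.FreyUnramified

variable {F : Type*} [Field F] {W : WeierstrassCurve.Affine F} {A B : F}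

/-- The abscissa of a point, with value `0` at the origin. -/
def uOf : W.Point → F
  | .zero => 0
  | .some u _ _ => u

/-- The ordinate of a point, with value `0` at the origin. -/
def yOf : W.Point → F
  | .zero => 0
  | .some _ Y _ => Y

@[simp] lemma uOf_zero : uOf (0 : W.Point) = 0 := rfl
@[simp] lemma yOf_zero : yOf (0 : W.Point) = 0 := rfl
@[simp] lemma uOf_some {u Y : F} (h : W.Nonsingular u Y) : uOf (Point.some u Y h) = u := rfl
@[simp] lemma yOf_some {u Y : F} (h : W.Nonsingular u Y) : yOf (Point.some u Y h) = Y := rfl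

lemma exists_eq_some {P : W.Point} (hP : P ≠ 0) :
    ∃ h : W.Nonsingular (uOf P) (yOf P), P = Point.some (uOf P) (yOf P) h := by
  rcases P with _ | ⟨u, Y, h⟩
  · exact absurd rfl hP
  · exact ⟨h, rfl⟩

/-- The derivative of `u (u - A) (u + B)`. -/
def dF (A B u : F) : F := 3 * u ^ 2 + 2 * (B - A) * u + -(A * B)

variable [DecidableEq F]

omit [DecidableEq F] in
lemma uOf_neg (P : W.Point) : uOf (-P) = uOf P := by rcases P with _ | ⟨u, Y, h⟩ <;> rfl

omit [DecidableEq F] in
lemma yOf_neg (hW : IsModel W A B) (P : W.Point) : yOf (-P) = -yOf P := by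
  rcases P with _ | ⟨u, Y, h⟩
  · exact (_root_.neg_zero).symm
  · exact hW.negY_eq u Y

omit [DecidableEq F] in
lemma equation_of (hW : IsModel W A B) (P : W.Point) :
    yOf P ^ 2 = uOf P * (uOf P - A) * (uOf P + B) := by
  rcases P with _ | ⟨u, Y, h⟩
  · change (0 : F) ^ 2 = 0 * (0 - A) * (0 + B)
    ring
  · exact (hW.equation_iff u Y).mp h.left

omit [DecidableEq F] in
lemma eq_or_eq_neg_of_uOf_eq {P Q : W.Point} (hP : P ≠ 0) (hQ : Q ≠ 0) (h : uOf P = uOf Q) :
    P = Q ∨ P = -Q := by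
  obtain ⟨hp, eP⟩ := exists_eq_some hP
  obtain ⟨hq, eQ⟩ := exists_eq_some hQ
  rw [eP, eQ]
  exact Point.X_eq_iff.mp h

/-- Coordinates of a sum of two points with distinct abscissae. -/
lemma coords_add (hW : IsModel W A B) {P Q : W.Point} (hP : P ≠ 0) (hQ : Q ≠ 0)
    (hne : uOf P ≠ uOf Q) :
    uOf (P + Q) = ((yOf P - yOf Q) / (uOf P - uOf Q)) ^ 2 - (B - A) - uOf P - uOf Q ∧
    yOf (P + Q) = -((yOf P - yOf Q) / (uOf P - uOf Q) * (uOf (P + Q) - uOf P) + yOf P) ∧
    P + Q ≠ 0 := by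
  obtain ⟨hp, eP⟩ := exists_eq_some hP
  obtain ⟨hq, eQ⟩ := exists_eq_some hQ
  generalize uOf P = u₁, yOf P = y₁, uOf Q = u₂, yOf Q = y₂ at *
  subst eP eQ
  rw [add_of_X_ne hne]
  have hX : W.addX u₁ u₂ (W.slope u₁ u₂ y₁ y₂) =
      ((y₁ - y₂) / (u₁ - u₂)) ^ 2 - (B - A) - u₁ - u₂ := by
    rw [slope_of_X_ne hne, Affine.addX, hW.a₁, hW.a₂]; ring
  refine ⟨by rw [uOf_some, hX], ?_, some_ne_zero _⟩
  rw [uOf_some, yOf_some, Affine.addY, Affine.negAddY, hW.negY_eq, slope_of_X_ne hne]

/-- The symmetrised translate of the abscissa. -/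
lemma uOf_pair (hW : IsModel W A B) {G q : W.Point} (hG : G ≠ 0) (hq : q ≠ 0)
    (hne : uOf G ≠ uOf q) :
    uOf (G + q) + uOf (G + -q) - 2 * uOf q =
      2 * (dF A B (uOf q) / (uOf G - uOf q) + 2 * yOf q ^ 2 / (uOf G - uOf q) ^ 2) := by
  have h1 := (coords_add hW hG hq hne).1
  have h2 := (coords_add hW hG (neg_ne_zero.mpr hq) (by rwa [uOf_neg])).1
  rw [uOf_neg, yOf_neg hW] at h2
  rw [h1, h2]
  have eG := equation_of hW G
  have eq' := equation_of hW q
  have hd : uOf G - uOf q ≠ 0 := sub_ne_zero_of_ne hne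
  generalize uOf G = u, yOf G = y, uOf q = r, yOf q = s at *
  simp only [dF]
  field_simp
  linear_combination 2 * eG - 2 * eq'

/-- The symmetrised translate of the ordinate. -/
lemma yOf_pair (hW : IsModel W A B) {G q : W.Point} (hG : G ≠ 0) (hq : q ≠ 0)
    (hne : uOf G ≠ uOf q) :
    yOf (G + q) + yOf (G + -q) = -(2 * yOf G) *
      (dF A B (uOf q) / (uOf G - uOf q) ^ 2 + 2 * (2 * yOf q ^ 2) / (uOf G - uOf q) ^ 3) := by
  obtain ⟨h1, h1', -⟩ := coords_add hW hG hq hne
  obtain ⟨h2, h2', -⟩ := coords_add hW hG (neg_ne_zero.mpr hq) (by rwa [uOf_neg])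
  rw [uOf_neg, yOf_neg hW] at h2 h2'
  rw [h1', h2', h1, h2]
  have eG := equation_of hW G
  have eq' := equation_of hW q
  have hd : uOf G - uOf q ≠ 0 := sub_ne_zero_of_ne hne
  generalize uOf G = u, yOf G = y, uOf q = r, yOf q = s at *
  simp only [dF]
  field_simp
  linear_combination -2 * y * eG + 2 * y * eq'

section Sums

variable {M : Type*} [AddCommGroup M] [Fintype M] [DecidableEq M] (ι : M →+ W.Point)

/-- The translation sum of the abscissa, normalised at the origin. -/
def veluX (G : W.Point) : F := (∑ x, uOf (G + ι x)) - ∑ x, uOf (ι x)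

/-- The translation sum of the ordinate. -/
def veluY (G : W.Point) : F := ∑ x, yOf (G + ι x)

omit [DecidableEq M] in
lemma veluX_add (G : W.Point) (x₀ : M) : veluX ι (G + ι x₀) = veluX ι G := by
  unfold veluX
  congr 1
  exact Fintype.sum_equiv (Equiv.addLeft x₀) _ _ fun x => by
    rw [Equiv.coe_addLeft, map_add, add_assoc]

omit [DecidableEq M] in
lemma veluY_add (G : W.Point) (x₀ : M) : veluY ι (G + ι x₀) = veluY ι G := by
  unfold veluY
  exact Fintype.sum_equiv (Equiv.addLeft x₀) _ _ fun x => by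
    rw [Equiv.coe_addLeft, map_add, add_assoc]

omit [DecidableEq M] in
lemma veluX_neg (G : W.Point) : veluX ι (-G) = veluX ι G := by
  unfold veluX
  congr 1
  exact Fintype.sum_equiv (Equiv.neg M) _ _ fun x => by
    rw [Equiv.neg_apply, map_neg, ← uOf_neg (G + -ι x), neg_add, neg_neg]

omit [DecidableEq M] in
lemma veluY_neg (hW : IsModel W A B) (G : W.Point) : veluY ι (-G) = -veluY ι G := by
  unfold veluY
  rw [← Finset.sum_neg_distrib]
  exact Fintype.sum_equiv (Equiv.neg M) _ _ fun x => by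
    rw [Equiv.neg_apply, map_neg, ← yOf_neg hW (G + -ι x), neg_add, neg_neg]

lemma veluX_eq_add_sum (G : W.Point) :
    veluX ι G = uOf G + ∑ x ∈ Finset.univ.erase 0, (uOf (G + ι x) - uOf (ι x)) := by
  unfold veluX
  rw [← Finset.sum_sub_distrib, ← Finset.add_sum_erase _ _ (Finset.mem_univ (0 : M))]
  simp

lemma veluY_eq_add_sum (G : W.Point) :
    veluY ι G = yOf G + ∑ x ∈ Finset.univ.erase 0, yOf (G + ι x) := by
  unfold veluY
  rw [← Finset.add_sum_erase _ _ (Finset.mem_univ (0 : M))]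
  simp

lemma two_mul_sum_erase {α : Type*} [CommRing α] (g : M → α) :
    2 * ∑ x ∈ Finset.univ.erase 0, g x = ∑ x ∈ Finset.univ.erase (0 : M), (g x + g (-x)) := by
  rw [Finset.sum_add_distrib, two_mul]
  congr 1
  exact Finset.sum_equiv (Equiv.neg M) (by simp) (by simp)

variable (A B) in
/-- The correction term of the abscissa. -/
def veluR (u : F) : F :=
  ∑ x ∈ Finset.univ.erase (0 : M), (dF A B (uOf (ι x)) / (u - uOf (ι x)) +
    2 * yOf (ι x) ^ 2 / (u - uOf (ι x)) ^ 2)

variable (A B) in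
/-- Minus the derivative of the correction term. -/
def veluS (u : F) : F :=
  ∑ x ∈ Finset.univ.erase (0 : M), (dF A B (uOf (ι x)) / (u - uOf (ι x)) ^ 2 +
    2 * (2 * yOf (ι x) ^ 2) / (u - uOf (ι x)) ^ 3)

variable (A B) in
/-- The sum of the residues. -/
def veluT : F := ∑ x ∈ Finset.univ.erase (0 : M), dF A B (uOf (ι x))

lemma ι_ne_zero (hι : Function.Injective ι) {x : M} (hx : x ∈ Finset.univ.erase (0 : M)) :
    ι x ≠ 0 := fun h =>
  (Finset.mem_erase.mp hx).1 (hι (h.trans (map_zero ι).symm))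

/-- The closed form of the translation sum of the abscissa. -/
lemma veluX_eq (hW : IsModel W A B) (hι : Function.Injective ι) {G : W.Point} (hG : G ≠ 0)
    (hne : ∀ x : M, x ≠ 0 → uOf G ≠ uOf (ι x)) :
    veluX ι G = uOf G + veluR A B ι (uOf G) := by
  rw [veluX_eq_add_sum, add_right_inj]
  refine mul_left_cancel₀ hW.two_ne ?_
  rw [two_mul_sum_erase, veluR, Finset.mul_sum]
  refine Finset.sum_congr rfl fun x hx => ?_
  rw [map_neg, uOf_neg, ← uOf_pair hW hG (ι_ne_zero ι hι hx) (hne x (Finset.mem_erase.mp hx).1)]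
  ring

/-- The closed form of the translation sum of the ordinate. -/
lemma veluY_eq (hW : IsModel W A B) (hι : Function.Injective ι) {G : W.Point} (hG : G ≠ 0)
    (hne : ∀ x : M, x ≠ 0 → uOf G ≠ uOf (ι x)) :
    veluY ι G = yOf G * (1 - veluS A B ι (uOf G)) := by
  rw [veluY_eq_add_sum, mul_sub, mul_one, sub_eq_add_neg (yOf G), add_right_inj]
  refine mul_left_cancel₀ hW.two_ne ?_
  rw [two_mul_sum_erase, veluS, Finset.mul_sum, ← Finset.sum_neg_distrib, Finset.mul_sum]
  refine Finset.sum_congr rfl fun x hx => ?_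
  rw [map_neg, yOf_pair hW hG (ι_ne_zero ι hι hx) (hne x (Finset.mem_erase.mp hx).1)]
  ring

end Sums

end FLTAgent.IsogenyDescent
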