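import Fermat.Agent.FreyUnramified.Node
import Fermat.Agent.IsogenyDescent.Translate
import Mathlib.RingTheory.Valuation.ValuationSubring
import Mathlib.RingTheory.LocalRing.ResidueField.Basic

/-!
# The multiplicative parameter at a node

`torusParam` sends a group of points avoiding the node (`IsTorusGroup`) to the residue field,
multiplicatively (`torusParam_add`), and determines the reduced abscissa (`red_uOf`).
-/

set_option autoImplicit false

noncomputable section

namespace FLTAgent.IsogenyDescent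

open WeierstrassCurve WeierstrassCurve.Affine WeierstrassCurve.Affine.Point
open FLTAgent.FreyUnramified

variable {F : Type*} [Field F] {Γ₀ : Type*} [LinearOrderedCommGroupWithZero Γ₀]
  (v : Valuation F Γ₀)

/-- The residue field of a valuation. -/
abbrev Res : Type _ := IsLocalRing.ResidueField v.valuationSubring

open scoped Classical in
/-- Reduction, extended by zero to non-integral elements. -/
def red (x : F) : Res v :=
  if h : v x ≤ 1 then IsLocalRing.residue v.valuationSubring ⟨x, h⟩ else 0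

variable {v}

lemma red_of_le {x : F} (h : v x ≤ 1) :
    red v x = IsLocalRing.residue v.valuationSubring ⟨x, h⟩ := dif_pos h

lemma red_add {x y : F} (hx : v x ≤ 1) (hy : v y ≤ 1) : red v (x + y) = red v x + red v y := by
  rw [red_of_le hx, red_of_le hy, red_of_le (v.map_add_le hx hy), ← map_add]
  rfl

lemma red_mul {x y : F} (hx : v x ≤ 1) (hy : v y ≤ 1) : red v (x * y) = red v x * red v y := by
  rw [red_of_le hx, red_of_le hy, red_of_le (val_mul_le_of_le_one hx hy), ← map_mul]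
  rfl

lemma red_zero : red v (0 : F) = 0 := by
  rw [red_of_le (by rw [_root_.map_zero]; exact zero_le)]
  exact (IsLocalRing.residue v.valuationSubring).map_zero

lemma red_one : red v (1 : F) = 1 := by
  rw [red_of_le (by rw [map_one])]
  exact (IsLocalRing.residue v.valuationSubring).map_one

lemma red_neg {x : F} (hx : v x ≤ 1) : red v (-x) = -red v x := by
  have h := red_add hx (show v (-x) ≤ 1 by rwa [v.map_neg])
  rw [add_neg_cancel, red_zero] at h
  exact (neg_eq_of_add_eq_zero_right h.symm).symm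

lemma red_sub {x y : F} (hx : v x ≤ 1) (hy : v y ≤ 1) : red v (x - y) = red v x - red v y := by
  rw [sub_eq_add_neg, red_add hx (show v (-y) ≤ 1 by rwa [v.map_neg]), red_neg hy, sub_eq_add_neg]

lemma red_eq_zero_iff {x : F} (hx : v x ≤ 1) : red v x = 0 ↔ v x < 1 := by
  rw [red_of_le hx, IsLocalRing.residue_eq_zero_iff]
  rw [show v x < 1 ↔ ¬ v x = 1 from ⟨fun h => h.ne, fun h => lt_of_le_of_ne hx h⟩]
  rw [IsLocalRing.mem_maximalIdeal, mem_nonunits_iff, not_iff_not]
  constructor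
  · intro hu
    obtain ⟨y, hy⟩ := hu.exists_right_inv
    have hmul : v x * v (y : F) = 1 := by
      rw [← map_mul]
      have := congrArg (fun z : v.valuationSubring => v (z : F)) hy
      simpa using this
    refine le_antisymm hx ?_
    rw [← hmul]
    exact mul_le_of_le_one_right zero_le y.2
  · intro h1
    have hx0 : x ≠ 0 := v.ne_zero_iff.mp (by rw [h1]; exact one_ne_zero)
    exact IsUnit.of_mul_eq_one (M := v.valuationSubring)
      ⟨x⁻¹, show v x⁻¹ ≤ 1 by rw [map_inv₀, h1, inv_one]⟩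
      (Subtype.ext (mul_inv_cancel₀ hx0))

lemma red_eq_of_sub_lt {x y : F} (hy : v y ≤ 1) (h : v (x - y) < 1) : red v x = red v y := by
  have hx : v x ≤ 1 := by rw [← sub_add_cancel x y]; exact v.map_add_le h.le hy
  rw [← sub_eq_zero, ← red_sub hx hy]
  exact (red_eq_zero_iff (v.map_sub_le hx hy)).mpr h

lemma red_eq_zero {x : F} (hx : v x < 1) : red v x = 0 := (red_eq_zero_iff hx.le).mpr hx

lemma red_sum {α : Type*} {s : Finset α} {f : α → F} (h : ∀ i ∈ s, v (f i) ≤ 1) :
    red v (∑ i ∈ s, f i) = ∑ i ∈ s, red v (f i) := by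
  classical
  induction s using Finset.induction with
  | empty => simp [red_zero]
  | insert j s hj ih =>
    rw [Finset.sum_insert hj, Finset.sum_insert hj,
      red_add (h j (Finset.mem_insert_self j s))
        (v.map_sum_le fun i hi => h i (Finset.mem_insert_of_mem hi)),
      ih fun i hi => h i (Finset.mem_insert_of_mem hi)]

variable [DecidableEq F] {W : WeierstrassCurve.Affine F} {A B β : F}

/-- Points off the node killed by `n`. -/
def torusSubgroup (hW : IsModel W A B) (hn : NodeData v A B β) (n : ℕ) : AddSubgroup W.Point :=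
  offNode hW hn.toIntCoeff hn.A_lt ⊓ (nsmulAddMonoidHom n).ker

/-- A group of points off the node meeting the kernel of reduction trivially. -/
structure IsTorusGroup (hW : IsModel W A B) (hn : NodeData v A B β) (H : AddSubgroup W.Point) :
    Prop where
  le : H ≤ offNode hW hn.toIntCoeff hn.A_lt
  bdd : ∀ P ∈ H, P ≠ 0 → v (uOf P) ≤ 1

lemma torusSubgroup_isTorusGroup (hW : IsModel W A B) (hn : NodeData v A B β) {n : ℕ}
    (hvn : v (n : F) = 1) : IsTorusGroup hW hn (torusSubgroup hW hn n) := by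
  refine ⟨inf_le_left, fun P hP hP0 => not_lt.mp fun hgt => hP0 ?_⟩
  obtain ⟨h, e⟩ := exists_eq_some hP0
  exact eq_zero_of_mem_kerReduction hW hn.toIntCoeff hvn
    (by rw [e]; exact (mem_kerReduction h).mpr hgt) hP.2

lemma torus_coords (hW : IsModel W A B) (hn : NodeData v A B β) {H : AddSubgroup W.Point}
    (hH : IsTorusGroup hW hn H) {P : W.Point} (hP : P ∈ H) (hP0 : P ≠ 0) :
    v (uOf P) = 1 ∧ v (yOf P) ≤ 1 ∧ v (yOf P - β * uOf P) = 1 ∧
      v (yOf P + β * uOf P) = 1 := by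
  obtain ⟨h, e⟩ := exists_eq_some hP0
  have hoff : 1 ≤ v (uOf P) := hH.le hP _ _ h e
  have hu : v (uOf P) = 1 := le_antisymm (hH.bdd P hP hP0) hoff
  have heq := equation_of hW P
  have hy : v (yOf P) ≤ 1 := by
    have h2 : v (yOf P) ^ 2 ≤ 1 := by
      rw [← map_pow, heq, map_mul, map_mul, hu, one_mul]
      exact mul_le_one₀ ((v.map_sub _ _).trans (max_le hu.le hn.hA)) zero_le
        (v.map_add_le hu.le hn.hB)
    exact (pow_le_one_iff_of_nonneg zero_le two_ne_zero).mp h2
  have hprod : v (yOf P - β * uOf P) * v (yOf P + β * uOf P) = 1 := by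
    rw [← map_mul, show (yOf P - β * uOf P) * (yOf P + β * uOf P) =
      uOf P ^ 3 + (-A * uOf P ^ 2 - A * B * uOf P) by
        linear_combination heq - uOf P ^ 2 * hn.sq,
      v.map_add_eq_of_lt_left, map_pow, hu, one_pow]
    rw [map_pow, hu, one_pow]
    refine v.map_sub_lt ?_ ?_
    · rw [map_mul, v.map_neg, map_pow, hu, one_pow, mul_one]; exact hn.A_lt
    · rw [map_mul, map_mul, hu, mul_one]
      exact (mul_le_of_le_one_right zero_le hn.hB).trans_lt hn.A_lt
  have hβu : v (β * uOf P) ≤ 1 := by rw [map_mul, hn.β_unit, hu, one_mul]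
  have h1 : v (yOf P - β * uOf P) ≤ 1 := v.map_sub_le hy hβu
  have h2 : v (yOf P + β * uOf P) ≤ 1 := v.map_add_le hy hβu
  refine ⟨hu, hy, le_antisymm h1 ?_, le_antisymm h2 ?_⟩
  · rw [← hprod]; exact mul_le_of_le_one_right zero_le h2
  · rw [← hprod]; exact mul_le_of_le_one_left zero_le h1

variable (v β) in
open scoped Classical in
/-- The multiplicative parameter. -/
def torusParam (P : W.Point) : Res v :=
  if P = 0 then 1 else red v ((yOf P - β * uOf P) / (yOf P + β * uOf P))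

lemma torusParam_zero : torusParam v β (0 : W.Point) = 1 := if_pos rfl

lemma torusParam_eq {P : W.Point} (hP : P ≠ 0) :
    torusParam v β P = red v ((yOf P - β * uOf P) / (yOf P + β * uOf P)) := if_neg hP

lemma torusParam_neg (hW : IsModel W A B) (hn : NodeData v A B β) {H : AddSubgroup W.Point}
    (hH : IsTorusGroup hW hn H)
    {P : W.Point} (hP : P ∈ H) :
    torusParam v β P * torusParam v β (-P) = 1 := by
  by_cases hP0 : P = 0
  · rw [hP0, _root_.neg_zero, torusParam_zero, one_mul]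
  obtain ⟨-, -, h1, h2⟩ := torus_coords hW hn hH hP hP0
  rw [torusParam_eq hP0, torusParam_eq (neg_ne_zero.mpr hP0), yOf_neg hW, uOf_neg]
  have hd : yOf P - β * uOf P ≠ 0 := v.ne_zero_iff.mp (by rw [h1]; exact one_ne_zero)
  have hd' : yOf P + β * uOf P ≠ 0 := v.ne_zero_iff.mp (by rw [h2]; exact one_ne_zero)
  rw [← red_mul (by rw [map_div₀, h1, h2, div_one])
    (by rw [map_div₀, show -yOf P - β * uOf P = -(yOf P + β * uOf P) by ring,
      show -yOf P + β * uOf P = -(yOf P - β * uOf P) by ring, v.map_neg, v.map_neg, h1, h2,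
      div_one]),
    show (yOf P - β * uOf P) / (yOf P + β * uOf P) *
      ((-yOf P - β * uOf P) / (-yOf P + β * uOf P)) = 1 by
      rw [show -yOf P - β * uOf P = -(yOf P + β * uOf P) by ring,
        show -yOf P + β * uOf P = -(yOf P - β * uOf P) by ring, neg_div_neg_eq]
      field_simp]
  exact red_one

lemma torusParam_add (hW : IsModel W A B) (hn : NodeData v A B β) {H : AddSubgroup W.Point}
    (hH : IsTorusGroup hW hn H)
    {P Q : W.Point} (hP : P ∈ H) (hQ : Q ∈ H) :
    torusParam v β (P + Q) = torusParam v β P * torusParam v β Q := by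
  by_cases hP0 : P = 0
  · rw [hP0, zero_add, torusParam_zero, one_mul]
  by_cases hQ0 : Q = 0
  · rw [hQ0, add_zero, torusParam_zero, mul_one]
  by_cases hPQ : P + Q = 0
  · rw [hPQ, torusParam_zero, eq_neg_of_add_eq_zero_right hPQ, torusParam_neg hW hn hH hP]
  have hR := H.add_mem hP hQ
  obtain ⟨hu₁, hy₁, a₁, b₁⟩ := torus_coords hW hn hH hP hP0
  obtain ⟨hu₂, hy₂, a₂, b₂⟩ := torus_coords hW hn hH hQ hQ0
  obtain ⟨hu₃, hy₃, a₃, b₃⟩ := torus_coords hW hn hH hR hPQ
  obtain ⟨hp, eP⟩ := exists_eq_some hP0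
  obtain ⟨hq, eQ⟩ := exists_eq_some hQ0
  have hne : ¬(uOf P = uOf Q ∧ yOf P = -yOf Q) := by
    rintro ⟨e1, e2⟩
    refine hPQ ?_
    rw [eP, eQ]
    exact add_of_Y_eq e1 (by rw [hW.negY_eq]; exact e2)
  obtain ⟨u₃, Y₃, l, μ, hns, hadd, ht⟩ := add_triple hW hp hq hne
  rw [← eP, ← eQ] at hadd
  rw [torusParam_eq hPQ, torusParam_eq hP0, torusParam_eq hQ0]
  simp only [hadd, uOf_some, yOf_some] at hu₃ hy₃ a₃ b₃ ⊢
  rw [v.map_neg] at hy₃
  generalize uOf P = u₁, yOf P = y₁, uOf Q = u₂, yOf Q = y₂ at *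
  have hl : v l ≤ 1 := by
    have : v l ^ 2 ≤ 1 := by
      rw [← map_pow, show l ^ 2 = u₁ + u₂ + u₃ + (B - A) by linear_combination -ht.e₁]
      exact v.map_add_le (v.map_add_le (v.map_add_le hu₁.le hu₂.le) hu₃.le) hn.toIntCoeff.a₂_le
    exact (pow_le_one_iff_of_nonneg zero_le two_ne_zero).mp this
  have hμ : v μ ≤ 1 := by
    rw [show μ = y₁ - l * u₁ by linear_combination -ht.y₁]
    exact v.map_sub_le hy₁ (val_mul_le_of_le_one hl hu₁.le)
  have hβ : v β ≤ 1 := hn.β_unit.le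
  have key : (y₁ - β * u₁) * (y₂ - β * u₂) * (Y₃ - β * u₃) -
      (y₁ + β * u₁) * (y₂ + β * u₂) * (Y₃ + β * u₃) =
      A * (μ ^ 2 * ((l - β) - (l + β)) - μ * B * ((l - β) ^ 2 - (l + β) ^ 2)) := by
    rw [ht.y₁, ht.y₂, ht.y₃]
    linear_combination ((l - β) ^ 3 - (l + β) ^ 3) * ht.e₃ +
      ((l - β) ^ 2 - (l + β) ^ 2) * μ * ht.e₂ + ((l - β) - (l + β)) * μ ^ 2 * ht.e₁ +
      (μ ^ 2 * ((l - β) - (l + β))) * hn.sq
  have hsmall : v ((y₁ - β * u₁) * (y₂ - β * u₂) * (Y₃ - β * u₃) -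
      (y₁ + β * u₁) * (y₂ + β * u₂) * (Y₃ + β * u₃)) < 1 := by
    rw [key, map_mul]
    refine (mul_le_of_le_one_right zero_le ?_).trans_lt hn.A_lt
    have hd : v (l - β) ≤ 1 := v.map_sub_le hl hβ
    have hd' : v (l + β) ≤ 1 := v.map_add_le hl hβ
    have hp2 : ∀ z, v z ≤ 1 → v (z ^ 2) ≤ 1 := fun z hz => by
      rw [map_pow]; exact pow_le_one₀ zero_le hz
    exact v.map_sub_le (val_mul_le_of_le_one (hp2 _ hμ) (v.map_sub_le hd hd'))
      (val_mul_le_of_le_one (val_mul_le_of_le_one hμ hn.hB)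
        (v.map_sub_le (hp2 _ hd) (hp2 _ hd')))
  have ne0 : ∀ {z : F}, v z = 1 → z ≠ 0 := fun h => v.ne_zero_iff.mp (by rw [h]; exact one_ne_zero)
  have a₃' : v (Y₃ + β * u₃) = 1 := by
    rw [← v.map_neg, show -(Y₃ + β * u₃) = -Y₃ - β * u₃ by ring]; exact a₃
  have b₃' : v (Y₃ - β * u₃) = 1 := by
    rw [← v.map_neg, show -(Y₃ - β * u₃) = -Y₃ + β * u₃ by ring]; exact b₃
  rw [← red_mul (by rw [map_div₀, a₁, b₁, div_one]) (by rw [map_div₀, a₂, b₂, div_one])]
  refine red_eq_of_sub_lt (val_mul_le_of_le_one (by rw [map_div₀, a₁, b₁, div_one])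
    (by rw [map_div₀, a₂, b₂, div_one])) ?_
  have n1 := ne0 b₁
  have n2 := ne0 b₂
  have n3 := ne0 b₃'
  have n3' : -Y₃ + β * u₃ ≠ 0 := ne0 b₃
  rw [show (-Y₃ - β * u₃) / (-Y₃ + β * u₃) -
      (y₁ - β * u₁) / (y₁ + β * u₁) * ((y₂ - β * u₂) / (y₂ + β * u₂)) =
    -((y₁ - β * u₁) * (y₂ - β * u₂) * (Y₃ - β * u₃) -
      (y₁ + β * u₁) * (y₂ + β * u₂) * (Y₃ + β * u₃)) /
      ((y₁ + β * u₁) * (y₂ + β * u₂) * (Y₃ - β * u₃)) by
    rw [show (-Y₃ - β * u₃) / (-Y₃ + β * u₃) = (Y₃ + β * u₃) / (Y₃ - β * u₃) by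
      rw [show -Y₃ - β * u₃ = -(Y₃ + β * u₃) by ring, show -Y₃ + β * u₃ = -(Y₃ - β * u₃) by ring,
        neg_div_neg_eq]]
    field_simp
    ring, map_div₀, v.map_neg, map_mul (f := v) ((y₁ + β * u₁) * (y₂ + β * u₂)), map_mul, b₁, b₂,
    b₃', one_mul, one_mul, div_one]
  exact hsmall

lemma torusParam_ne_one (hW : IsModel W A B) (hn : NodeData v A B β) {H : AddSubgroup W.Point}
    (hH : IsTorusGroup hW hn H) {P : W.Point} (hP : P ∈ H) (hP0 : P ≠ 0) :
    torusParam v β P ≠ 1 := by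
  obtain ⟨hu, hy, a, b⟩ := torus_coords hW hn hH hP hP0
  rw [torusParam_eq hP0]
  intro h
  have hd : yOf P + β * uOf P ≠ 0 := v.ne_zero_iff.mp (by rw [b]; exact one_ne_zero)
  rw [← red_one (v := v), ← sub_eq_zero, ← red_sub (by rw [map_div₀, a, b, div_one])
    (by rw [map_one])] at h
  have hlt := (red_eq_zero_iff (v.map_sub_le (by rw [map_div₀, a, b, div_one])
    (by rw [map_one]))).mp h
  rw [show (yOf P - β * uOf P) / (yOf P + β * uOf P) - 1 =
    -(2 * β * uOf P) / (yOf P + β * uOf P) by field_simp; ring, map_div₀, b, div_one, v.map_neg,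
    map_mul, map_mul, hn.h2, hn.β_unit, hu, one_mul, one_mul] at hlt
  exact lt_irrefl _ hlt

/-- The abscissa in terms of the parameter. -/
lemma red_uOf (hW : IsModel W A B) (hn : NodeData v A B β) {H : AddSubgroup W.Point}
    (hH : IsTorusGroup hW hn H)
    {P : W.Point} (hP : P ∈ H) :
    red v (uOf P) = 4 * red v B * (torusParam v β P / (1 - torusParam v β P) ^ 2) := by
  by_cases hP0 : P = 0
  · rw [hP0, uOf_zero, red_zero, torusParam_zero]
    simp
  obtain ⟨hu, hy, a, b⟩ := torus_coords hW hn hH hP hP0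
  have hne := torusParam_ne_one hW hn hH hP hP0
  rw [torusParam_eq hP0] at hne ⊢
  set τ := (yOf P - β * uOf P) / (yOf P + β * uOf P) with hτ
  have hd : yOf P + β * uOf P ≠ 0 := v.ne_zero_iff.mp (by rw [b]; exact one_ne_zero)
  have hτ1 : v τ ≤ 1 := by rw [hτ, map_div₀, a, b, div_one]
  have h1 : v (1 - τ) ≤ 1 := v.map_sub_le (by rw [map_one]) hτ1
  have h4 : v (4 : F) ≤ 1 := by
    rw [show (4 : F) = 2 * 2 by norm_num, map_mul, hn.h2, one_mul]
  have hsq : (1 - red v τ) ^ 2 ≠ 0 := pow_ne_zero 2 (sub_ne_zero_of_ne (Ne.symm hne))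
  rw [← mul_div_assoc, eq_div_iff hsq]
  have e4 : red v (4 : F) = 4 := by
    have e2 : red v (2 : F) = 2 := by
      rw [show (2 : F) = 1 + 1 by norm_num, red_add (by rw [map_one]) (by rw [map_one]), red_one]
      norm_num
    rw [show (4 : F) = 2 * 2 by norm_num, red_mul hn.h2.le hn.h2.le, e2]
    norm_num
  rw [← e4, ← red_one (v := v), ← red_sub (by rw [map_one]) hτ1, pow_two,
    ← red_mul h1 h1, ← red_mul hu.le (val_mul_le_of_le_one h1 h1),
    ← red_mul h4 hn.hB, ← red_mul (val_mul_le_of_le_one h4 hn.hB) hτ1]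
  refine red_eq_of_sub_lt (val_mul_le_of_le_one (val_mul_le_of_le_one h4 hn.hB) hτ1) ?_
  have e : uOf P * ((1 - τ) * (1 - τ)) - 4 * B * τ =
      4 * B * (A * uOf P * (uOf P + B)) / (yOf P + β * uOf P) ^ 2 := by
    have heq := equation_of hW P
    have hτD : τ * (yOf P + β * uOf P) = yOf P - β * uOf P := by rw [hτ, div_mul_cancel₀ _ hd]
    rw [eq_div_iff (pow_ne_zero 2 hd)]
    linear_combination (uOf P * (τ * (yOf P + β * uOf P) + (yOf P - β * uOf P) -
        2 * (yOf P + β * uOf P)) - 4 * B * (yOf P + β * uOf P)) * hτD +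
      (4 * uOf P ^ 3 + 4 * B * uOf P ^ 2) * hn.sq - 4 * B * heq
  rw [e, map_div₀, map_pow, b, one_pow, div_one, map_mul]
  refine (mul_le_of_le_one_left zero_le (val_mul_le_of_le_one h4 hn.hB)).trans_lt ?_
  rw [map_mul]
  refine (mul_le_of_le_one_right zero_le (v.map_add_le hu.le hn.hB)).trans_lt ?_
  rw [map_mul, hu, mul_one]
  exact hn.A_lt

end FLTAgent.IsogenyDescent
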