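import Fermat.Prelude.Def_EllipticCurve_ZeroComponentAt
import Fermat.Agent.ECReduction.FreyReducible
import Fermat.Agent.FreyUnramified.Frey
import Fermat.Agent.IsogenyDescent.Torus

/-!
# Local facts on the Frey curve

Inertia fixes prime-to-`q` torsion of nonsingular reduction (`smul_eq_of_inE0`), a Frobenius fixes
at most `q²` of it (`frobenius_fixed_card_le`), and reduction can be read on a two-torsion model
(`inE0_iff_offNode`, `inE1_iff_kerReduction`).
-/

set_option autoImplicit false

noncomputable section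

open WeierstrassCurve WeierstrassCurve.Affine WeierstrassCurve.Affine.Point
open scoped WeierstrassCurve.Affine Pointwise

namespace FLTAgent.IsogenyDescent

open FLTAgent.ECReduction FLTAgent.Density

variable {P : FreyPackage} {A : ValuationSubring Qbar} {q : ℕ}

local notation "v" => A.valuation

theorem psiVanish_of_odd {n : ℕ} (hn : Odd n) : PsiVanish (FE P) n := fun _ _ h hP =>
  (FLTAgent.ECTorsion.preΨ'_eval_eq_zero_iff h hn).1 hP

theorem nsmul_smul (σ : GalQ) (n : ℕ) (x : FPt P) : σ • (n • x) = n • (σ • x) :=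
  ECReduction.smul_nsmul_eq σ n x

/-- Torsion of order prime to the residue characteristic does not reduce to the origin. -/
theorem eq_zero_of_inE1 {n : ℕ} (hn : Odd n) (hvn : v (n : Qbar) = 1) {x : FPt P}
    (hx : n • x = 0) (h1 : InE1 A (FE P) x) : x = 0 := by
  rcases x with _ | ⟨a, b, h⟩
  · rfl
  · exact absurd (inE1_some.1 h1) (not_lt.2 (val_x_le_of_torsion intAt_frey hvn hn
      (psiVanish_of_odd hn) hx))

/-- Inertia moves the points with nonsingular reduction by points reducing to the origin. -/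
theorem smul_sub_inE1 {σ : GalQ} (hσ : InertiaElt A σ) {x : FPt P} (hx : InE0 A (FE P) x) :
    InE1 A (FE P) (σ • x - x) := by
  rcases x with _ | ⟨a, b, h⟩
  · exact trivial
  by_cases ha : v a ≤ 1
  · rcases smul_sub_of_inE0 (W₀ := P.freyCurve.toAffine) intAt_frey hσ (h := h) hx ha with
      h0 | ⟨a', b', h', e', hbig⟩
    · rw [h0]; exact trivial
    · rw [e']; exact hbig
  · rw [not_le] at ha
    rw [sub_eq_add_neg]
    refine InE1.add intAt_frey ?_ (InE1.neg (inE1_some.2 ha))
    rw [smul_some, inE1_some, hσ.val_map]; exact ha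

/-- Inertia fixes prime-to-`q` torsion with nonsingular reduction. -/
theorem smul_eq_of_inE0 {σ : GalQ} (hσ : InertiaElt A σ) {n : ℕ} (hn : Odd n)
    (hvn : v (n : Qbar) = 1) {x : FPt P} (hx : n • x = 0) (h0 : InE0 A (FE P) x) : σ • x = x :=
  sub_eq_zero.1 (eq_zero_of_inE1 hn hvn
    (by rw [nsmul_sub, ← nsmul_smul, hx, sub_zero]
        exact _root_.map_zero (DistribSMul.toAddMonoidHom (P.freyCurve⁄Qbar).Point σ))
    (smul_sub_inE1 hσ h0))

/-- The elements of a decomposition group preserve the valuation. -/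
theorem val_map_of_mem_decomposition {σ : GalQ} (hσ : σ ∈ A.decompositionSubgroup ℚ) (x : Qbar) :
    v (σ x) = v x := by
  by_cases hx : x = 0
  · rw [hx, _root_.map_zero]
  have hle : ∀ a b : Qbar, b ≠ 0 → (v (σ a) ≤ v (σ b) ↔ v a ≤ v b) := fun a b hb => by
    rw [← div_le_one₀ (A.valuation.pos_iff.2 (show σ b ≠ 0 by simpa using hb)), ← map_div₀,
      ← map_div₀ σ, A.valuation_le_one_iff, apply_mem_iff hσ, ← A.valuation_le_one_iff, map_div₀,
      div_le_one₀ (A.valuation.pos_iff.2 hb)]
  -- the orbit of `x` is finite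
  have hfin : ((minpoly ℚ x).rootSet Qbar).Finite := Polynomial.rootSet_finite _ _
  have := hfin.to_subtype
  have hmem : ∀ n : ℕ, (⇑σ)^[n] x ∈ (minpoly ℚ x).rootSet Qbar := fun n => by
    rw [Polynomial.mem_rootSet]
    refine ⟨minpoly.ne_zero (Algebra.IsIntegral.isIntegral x), ?_⟩
    induction n with
    | zero => exact minpoly.aeval ℚ x
    | succ n ih =>
      rw [Function.iterate_succ_apply', Polynomial.aeval_algHom_apply σ, ih, _root_.map_zero]
  obtain ⟨m, hm, hper⟩ : ∃ m, 0 < m ∧ (⇑σ)^[m] x = x := by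
    obtain ⟨i, j, hne, hij⟩ := Finite.exists_ne_map_eq_of_infinite
      (fun n : ℕ => (⟨_, hmem n⟩ : (minpoly ℚ x).rootSet Qbar))
    have hij' : (⇑σ)^[i] x = (⇑σ)^[j] x := congrArg Subtype.val hij
    rcases lt_or_gt_of_ne hne with h | h
    · exact ⟨j - i, by omega, Function.iterate_cancel σ.injective hij'.symm⟩
    · exact ⟨i - j, by omega, Function.iterate_cancel σ.injective hij'⟩
  have hne : ∀ i, (⇑σ)^[i] x ≠ 0 := fun i => by
    induction i with
    | zero => exact hx
    | succ i ih => rw [Function.iterate_succ_apply']; simpa using ih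
  rcases lt_trichotomy (v (σ x)) (v x) with h | h | h
  · have hdec : ∀ i, v ((⇑σ)^[i + 1] x) < v ((⇑σ)^[i] x) := fun i => by
      induction i with
      | zero => simpa using h
      | succ i ih =>
        rw [Function.iterate_succ_apply' (⇑σ) (i + 1) x, Function.iterate_succ_apply' (⇑σ) i x,
          lt_iff_not_ge, hle _ _ (by rw [← Function.iterate_succ_apply' (⇑σ) i x]; exact hne _),
          ← lt_iff_not_ge]
        rwa [← Function.iterate_succ_apply' (⇑σ) i x]
    have := (strictAnti_nat_of_succ_lt (f := fun i => v ((⇑σ)^[i] x)) hdec) hm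
    simp only [hper, Function.iterate_zero, id] at this
    exact absurd this (lt_irrefl _)
  · exact h
  · have hinc : ∀ i, v ((⇑σ)^[i] x) < v ((⇑σ)^[i + 1] x) := fun i => by
      induction i with
      | zero => simpa using h
      | succ i ih =>
        rw [Function.iterate_succ_apply' (⇑σ) (i + 1) x, Function.iterate_succ_apply' (⇑σ) i x,
          lt_iff_not_ge, hle _ _ (hne i), ← lt_iff_not_ge]
        rwa [← Function.iterate_succ_apply' (⇑σ) i x]
    have := (strictMono_nat_of_lt_succ (f := fun i => v ((⇑σ)^[i] x)) hinc) hm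
    simp only [hper, Function.iterate_zero, id] at this
    exact absurd this (lt_irrefl _)

/-- At most `q²` torsion points with nonsingular reduction are fixed by a Frobenius element. -/
theorem frobenius_fixed_card_le (hq : q.Prime) {σ : GalQ} (hσ : A.IsFrobeniusAt σ q) {n : ℕ}
    (hn : Odd n) (hvn : v (n : Qbar) = 1) (s : Finset (FPt P))
    (hs : ∀ x ∈ s, x ≠ 0 ∧ n • x = 0 ∧ InE0 A (FE P) x ∧ σ • x = x) : s.card ≤ q * q := by
  classical
  obtain ⟨-, hfrob⟩ := isFrobeniusAt_iff.1 hσ
  set R := (Polynomial.X ^ q - Polynomial.X : Polynomial (Res v)).roots.toFinset with hR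
  have hdeg := FiniteField.X_pow_card_sub_X_natDegree_eq (Res v) hq.one_lt
  have hRcard : R.card ≤ q :=
    (Multiset.toFinset_card_le _).trans ((Polynomial.card_roots' _).trans_eq hdeg)
  have hroot : ∀ a : Qbar, v a ≤ 1 → σ a = a → red v a ∈ R := fun a ha e => by
    rw [hR, Multiset.mem_toFinset,
      Polynomial.mem_roots (FiniteField.X_pow_card_sub_X_ne_zero (Res v) hq.one_lt),
      Polynomial.IsRoot, Polynomial.eval_sub, Polynomial.eval_pow, Polynomial.eval_X, sub_eq_zero]
    have hpow : ∀ k : ℕ, red v (a ^ k) = red v a ^ k := fun k => by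
      induction k with
      | zero => rw [pow_zero, pow_zero, red_one]
      | succ k ih => rw [pow_succ, red_mul (val_pow_le A ha k) ha, ih, pow_succ]
    rw [← hpow]
    refine (red_eq_of_sub_lt (val_pow_le A ha q) ?_).symm
    have := hfrob a ((A.valuation_le_one_iff a).1 ha)
    rw [e] at this
    exact A.mem_nonunits_iff.1 this
  have hint : ∀ x ∈ s, v (uOf x) ≤ 1 ∧ v (yOf x) ≤ 1 ∧
      σ (uOf x) = uOf x ∧ σ (yOf x) = yOf x := by
    intro x hx
    obtain ⟨hx0, hnx, -, hfix⟩ := hs x hx
    obtain ⟨h, e⟩ := exists_eq_some hx0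
    have hu := val_x_le_of_torsion (intAt_frey (P := P) (A := A)) hvn hn (psiVanish_of_odd hn)
      (show n • Point.some _ _ h = 0 by rw [← e]; exact hnx)
    rw [e, smul_some, some.injEq] at hfix
    exact ⟨hu, val_le_of_monic_quadratic intAt_frey hu ((equation_iff ..).1 h.1), hfix.1, hfix.2⟩
  refine ((Finset.card_le_card_of_injOn (t := R ×ˢ R)
    (fun x => (red v (uOf x), red v (yOf x))) ?_ ?_).trans ?_)
  · intro x hx
    obtain ⟨hu, hy, eu, ey⟩ := hint x hx
    simp only [Finset.coe_product, Set.mem_prod, Finset.mem_coe]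
    exact ⟨hroot _ hu eu, hroot _ hy ey⟩
  · intro x hx y hy hxy
    simp only [Prod.mk.injEq] at hxy
    obtain ⟨hx0, hnx, hxE, -⟩ := hs x hx
    obtain ⟨hy0, hny, -, -⟩ := hs y hy
    obtain ⟨hux, hyx, -, -⟩ := hint x hx
    obtain ⟨huy, hyy, -, -⟩ := hint y hy
    obtain ⟨h₁, e₁⟩ := exists_eq_some hx0
    obtain ⟨h₂, e₂⟩ := exists_eq_some hy0
    have lt_of_red : ∀ {a b : Qbar}, v a ≤ 1 → v b ≤ 1 → red v a = red v b → v (a - b) < 1 :=
      fun ha hb e => (red_eq_zero_iff (val_sub_le A ha hb)).1 (by rw [red_sub ha hb, e, sub_self])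
    refine sub_eq_zero.1 (eq_zero_of_inE1 (A := A) hn hvn
      (by rw [nsmul_sub, hnx, hny, sub_zero]) ?_)
    rw [e₁, inE0_some] at hxE
    rw [e₁, e₂]
    rcases one_lt_val_sub_of_residue_eq intAt_frey (h₁ := h₁) (h₂ := h₂) hxE hux hyx
      (lt_of_red hux huy hxy.1) (lt_of_red hyx hyy hxy.2) with h | ⟨a, b, h, e', hbig⟩
    · rw [h]; exact trivial
    · rw [e']; exact hbig
  · rw [Finset.card_product]
    exact Nat.mul_le_mul hRcard hRcard

section Smooth

open FLTAgent.FreyUnramified

variable {W : WeierstrassCurve Qbar} {W' : WeierstrassCurve.Affine Qbar} {a b β r : Qbar}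

/-- Nonsingular reduction, read on the two-torsion model. -/
theorem inE0_iff_offNode (hW : IntAt A W) (hs : IsShift W.toAffine W' a b r)
    (hn : FreyUnramified.NodeData v a b β) (hr : v r ≤ 1) {x : W.toAffine.Point} :
    InE0 A W x ↔ shiftHom hs x ∈ offNode hs.model hn.toIntCoeff hn.A_lt := by
  rcases x with _ | ⟨x, y, h⟩
  · exact iff_of_true trivial (by rw [show shiftHom hs (Point.zero) = 0 from rfl]; exact zero_mem _)
  rw [shiftHom_some, mem_offNode, inE0_some]
  have h4 : v (4 : Qbar) = 1 := by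
    rw [show (4 : Qbar) = 2 * 2 by norm_num, map_mul, hn.h2, one_mul]
  have heq := (hs.model.equation_iff _ _).1 (hs.nonsingular h.1).1
  have eY : 8 * y + 4 * x = 4 * dY W x y := by simp only [dY]; rw [hs.a₁, hs.a₃]; ring
  have hB : v b = 1 := by rw [← hn.sq, map_pow, hn.β_unit, one_pow]
  have ef : 3 * (4 * x - r) ^ 2 + 2 * (b - a) * (4 * x - r) + -(a * b) =
      8 * dY W x y - 16 * dX W x y := by
    simp only [dX, dY]
    rw [hs.a₁, hs.a₃]
    linear_combination 2 * (4 * x - r) * hs.sum + hs.prod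
  set u := 4 * x - r with hu
  rw [eY] at heq
  constructor
  · intro hns
    by_contra hlt
    rw [not_le] at hlt
    refine hns ?_
    have hx : v x ≤ 1 := by
      have h' : v (4 * x) ≤ 1 := by
        rw [show 4 * x = u + r by rw [hu]; ring]; exact val_add_le A hlt.le hr
      rwa [map_mul, h4, one_mul] at h'
    have hy := val_le_of_monic_quadratic hW hx ((equation_iff ..).1 h.1)
    have hY : v (dY W x y) < 1 := by
      have hprod : v ((4 * dY W x y) ^ 2) < 1 := by
        rw [heq]
        exact val_mul_lt_left A (val_mul_lt_left A hlt (val_sub_le A hlt.le hn.hA))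
          (val_add_le A hlt.le hn.hB)
      rw [map_pow, map_mul, h4, one_mul] at hprod
      exact (pow_lt_one_iff_of_nonneg zero_le two_ne_zero).1 hprod
    refine ⟨hx, hy, ?_, hY⟩
    have h16 : v (16 * dX W x y) < 1 := by
      rw [show 16 * dX W x y = 8 * dY W x y - (3 * u ^ 2 + 2 * (b - a) * u + -(a * b)) by
        rw [ef]; ring]
      refine val_sub_lt A (val_mul_lt_right A (val_ofNat_le A 8) hY) (val_add_lt A ?_ ?_)
      · exact val_add_lt A (val_mul_lt_right A (val_ofNat_le A 3) (val_pow_lt A hlt two_ne_zero))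
          (val_mul_lt_right A (val_mul_le A (val_ofNat_le A 2) hn.toIntCoeff.a₂_le) hlt)
      · exact val_neg_lt A (val_mul_lt_left A hn.A_lt hn.hB)
    rwa [map_mul, show (16 : Qbar) = 4 * 4 by norm_num, map_mul, h4, one_mul, one_mul] at h16
  · rintro hge ⟨hx, -, hX, hY⟩
    have hu1 : v u ≤ 1 := val_sub_le A (val_mul_le A h4.le hx) hr
    have hvu : v u = 1 := le_antisymm hu1 hge
    have hua : v (u - a) = 1 := by
      rw [A.valuation.map_sub_eq_of_lt_left (hvu.symm ▸ hn.A_lt), hvu]
    have hf : v (3 * u ^ 2 + 2 * (b - a) * u + -(a * b)) < 1 := by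
      rw [ef]
      exact val_sub_lt A (val_mul_lt_right A (val_ofNat_le A 8) hY)
        (val_mul_lt_right A (val_ofNat_le A 16) hX)
    have hub : v (u + b) < 1 := by
      have h2 : v (u * (u - a) * (u + b)) < 1 := by
        rw [← heq, map_pow]
        exact pow_lt_one₀ zero_le (val_mul_lt_right A h4.le hY) two_ne_zero
      rwa [map_mul, map_mul, hvu, hua, one_mul, one_mul] at h2
    have hbad : v ((u + b) * (3 * u - b - 2 * a) + b * (a + b)) < 1 := by
      rw [show (u + b) * (3 * u - b - 2 * a) + b * (a + b) =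
        3 * u ^ 2 + 2 * (b - a) * u + -(a * b) by ring]
      exact hf
    have hbb : v (b * (a + b)) = 1 := by
      rw [map_mul, hB, one_mul, A.valuation.map_add_eq_of_lt_right (hB.symm ▸ hn.A_lt), hB]
    rw [A.valuation.map_add_eq_of_lt_right ?_, hbb] at hbad
    · exact lt_irrefl _ hbad
    rw [hbb]
    exact val_mul_lt_left A hub (val_sub_le A (val_sub_le A
      (val_mul_le A (val_ofNat_le A 3) hu1) hn.hB) (val_mul_le A (val_ofNat_le A 2) hn.hA))

/-- Reduction to the origin, read on the two-torsion model. -/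
theorem inE1_iff_kerReduction (hs : IsShift W.toAffine W' a b r) (hc : IntCoeff v a b)
    (hr : v r ≤ 1) {x : W.toAffine.Point} :
    InE1 A W x ↔ shiftHom hs x ∈ kerReduction hs.model hc := by
  rcases x with _ | ⟨x, y, h⟩
  · exact iff_of_true trivial (by rw [show shiftHom hs (Point.zero) = 0 from rfl]; exact zero_mem _)
  rw [shiftHom_some, mem_kerReduction, inE1_some]
  have h4 : v (4 : Qbar) = 1 := by
    rw [show (4 : Qbar) = 2 * 2 by norm_num, map_mul, hc.h2, one_mul]
  have e : v (4 * x) = v x := by rw [map_mul, h4, one_mul]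
  constructor
  · intro hx
    rw [A.valuation.map_sub_eq_of_lt_left (e.symm ▸ hr.trans_lt hx), e]
    exact hx
  · intro hx
    by_contra hle
    rw [not_lt] at hle
    exact not_le.2 hx (val_sub_le A (e.le.trans hle) hr)

end Smooth

section ZeroComponent

variable (Wz : WeierstrassCurve ℤ)

local notation "EQ" => ((Wz.map (Int.castRingHom ℚ))⁄(AlgebraicClosure ℚ))

theorem intAt_baseChange : IntAt A (EQ) := by
  constructor <;>
    simp [Affine.baseChange, WeierstrassCurve.baseChange]

/-- The component condition of the statements, as nonsingular reduction. -/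
theorem inZeroComponentAt_iff (Q : (EQ).toAffine.Point) :
    Wz.InZeroComponentAt A Q ↔ InE0 A (EQ) Q := by
  have hW : IntAt A (EQ) := intAt_baseChange Wz
  rcases Q with _ | ⟨x, y, h⟩
  · exact iff_of_true (Or.inl rfl) trivial
  have hco : (EQ).a₁ = Wz.a₁ ∧ (EQ).a₂ = Wz.a₂ ∧ (EQ).a₃ = Wz.a₃ ∧ (EQ).a₄ = Wz.a₄ ∧
      (EQ).a₆ = Wz.a₆ := by
    simp [Affine.baseChange, WeierstrassCurve.baseChange]
  obtain ⟨c₁, c₂, c₃, c₄, c₆⟩ := hco
  rw [inE0_some]
  have hres : ∀ (hx : x ∈ A) (hy : y ∈ A),
      (Wz.map (Int.castRingHom (IsLocalRing.ResidueField A))).toAffine.Nonsingular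
        (IsLocalRing.residue A ⟨x, hx⟩) (IsLocalRing.residue A ⟨y, hy⟩) ↔
      ¬ (v (dX (EQ) x y) < 1 ∧ v (dY (EQ) x y) < 1) := by
    intro hx hy
    have key : ∀ z : A, IsLocalRing.residue A z = 0 ↔ v (z : Qbar) < 1 := fun z => by
      rw [IsLocalRing.residue_eq_zero_iff, A.valuation_lt_one_iff]
    set x' : A := ⟨x, hx⟩
    set y' : A := ⟨y, hy⟩
    rw [Affine.nonsingular_iff', Affine.equation_iff']
    set F := IsLocalRing.residue A
    have cast : ∀ k : ℤ, (k : IsLocalRing.ResidueField A) = F (k : A) := fun k =>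
      (map_intCast F k).symm
    have eE : (Wz.map (Int.castRingHom (IsLocalRing.ResidueField A))).toAffine.a₁ = F (Wz.a₁ : A) ∧
        (Wz.map (Int.castRingHom (IsLocalRing.ResidueField A))).toAffine.a₂ = F (Wz.a₂ : A) ∧
        (Wz.map (Int.castRingHom (IsLocalRing.ResidueField A))).toAffine.a₃ = F (Wz.a₃ : A) ∧
        (Wz.map (Int.castRingHom (IsLocalRing.ResidueField A))).toAffine.a₄ = F (Wz.a₄ : A) ∧
        (Wz.map (Int.castRingHom (IsLocalRing.ResidueField A))).toAffine.a₆ = F (Wz.a₆ : A) := by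
      simp [WeierstrassCurve.map]
    obtain ⟨d₁, d₂, d₃, d₄, d₆⟩ := eE
    simp only [d₁, d₂, d₃, d₄, d₆, ← map_ofNat F, ← map_pow, ← map_mul, ← map_add, ← map_sub,
      ne_eq, key]
    have hEq := (Affine.equation_iff' ..).1 h.1
    rw [c₁, c₂, c₃, c₄, c₆] at hEq
    push_cast
    rw [show v (y ^ 2 + (Wz.a₁ : Qbar) * x * y + (Wz.a₃ : Qbar) * y -
        (x ^ 3 + (Wz.a₂ : Qbar) * x ^ 2 + (Wz.a₄ : Qbar) * x + (Wz.a₆ : Qbar))) = 0 by
      rw [hEq, _root_.map_zero]]
    simp only [zero_lt_one, true_and, not_and_or, dX, dY, c₁, c₂, c₃, c₄]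
    rfl
  constructor
  · rintro (h0 | ⟨x₀, y₀, h₀, e, hor⟩) ⟨hx, hy, hX, hY⟩
    · exact some_ne_zero _ h0
    · obtain ⟨rfl, rfl⟩ := Point.some.injEq .. |>.mp e
      rcases hor with hn | ⟨hx', hy', hns⟩
      · exact hn ((A.valuation_le_one_iff _).1 hx)
      · exact (hres hx' hy').1 hns ⟨hX, hY⟩
  · intro hns
    refine Or.inr ⟨x, y, h, rfl, ?_⟩
    by_cases hx : x ∈ A
    · refine Or.inr ⟨hx, ?_⟩
      have hvx := (A.valuation_le_one_iff x).2 hx
      have hvy := val_le_of_monic_quadratic hW hvx ((equation_iff ..).1 h.1)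
      exact ⟨(A.valuation_le_one_iff y).1 hvy,
        (hres hx _).2 fun hd => hns ⟨hvx, hvy, hd.1, hd.2⟩⟩
    · exact Or.inl hx

end ZeroComponent

end FLTAgent.IsogenyDescent
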