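import Fermat.Agent.IsogenyDescent.Specialise

/-!
# The Weierstrass equation of the translation sums

`KernelData` collects the hypotheses on the kernel. With the cubic `veluCubic`, evaluation at the
generic point gives the relation `Y² = cubic(X) + constant` (`exists_velu_constant`); the constant
is determined in `Fibre` from the points of order two.
-/

set_option autoImplicit false
set_option linter.unusedSectionVars false

namespace FLTAgent.IsogenyDescent

open WeierstrassCurve WeierstrassCurve.Affine WeierstrassCurve.Affine.Point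
open FLTAgent.FreyUnramified

variable {K : Type*} [Field K] [DecidableEq K] {W : WeierstrassCurve.Affine K} {A B : K}

lemma eq_zero_of_two_nsmul {M : Type*} [AddCommGroup M] [Fintype M]
    (hodd : Odd (Fintype.card M)) {x : M} (h : 2 • x = 0) : x = 0 :=
  (Nat.Coprime.nsmul_right_bijective (G := M) (n := 2)
    (by rw [Nat.card_eq_fintype_card]; exact Nat.coprime_two_right.mpr hodd)).injective
    (by simpa using h)

/-- The hypotheses on the kernel of an isogeny. -/
structure KernelData (W : WeierstrassCurve.Affine K) (A B : K) {M : Type*} [AddCommGroup M]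
    [Fintype M] (ι : M →+ W.Point) : Prop where
  model : IsModel W A B
  inj : Function.Injective ι
  odd : Odd (Fintype.card M)

namespace KernelData

variable {M : Type*} [AddCommGroup M] [Fintype M] [DecidableEq M] {ι : M →+ W.Point}
  (hk : KernelData W A B ι)
include hk

lemma map_ne_zero {x : M} (hx : x ≠ 0) : ι x ≠ 0 := fun h =>
  hx (hk.inj (h.trans (_root_.map_zero ι).symm))

lemma yOf_ne_zero {x : M} (hx : x ≠ 0) : yOf (ι x) ≠ 0 := by
  intro h
  obtain ⟨hns, e⟩ := exists_eq_some (hk.map_ne_zero hx)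
  have h2 : -(ι x) = ι x := by
    rw [e, neg_some, some.injEq]
    exact ⟨rfl, by rw [hk.model.negY_eq, h, _root_.neg_zero]⟩
  rw [← map_neg] at h2
  refine hx (eq_zero_of_two_nsmul hk.odd ?_)
  rw [two_nsmul, ← neg_eq_iff_add_eq_zero]
  exact hk.inj h2

lemma not_mem_range_of_yOf_eq_zero {a : W.Point} (ha : a ≠ 0) (h : yOf a = 0) : a ∉ ι.range := by
  rintro ⟨x, rfl⟩
  exact hk.yOf_ne_zero (fun hx => ha (by rw [hx, _root_.map_zero])) h

lemma uOf_ne {a : W.Point} (ha : a ∉ ι.range) {x : M} (hx : x ≠ 0) : uOf a ≠ uOf (ι x) := by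
  intro h
  rcases eq_or_eq_neg_of_uOf_eq (fun h0 =>
    ha (by rw [h0]; exact zero_mem _)) (hk.map_ne_zero hx) h with e | e
  · exact ha ⟨x, e.symm⟩
  · exact ha ⟨-x, by rw [map_neg, e]⟩

lemma ne_zero_of_not_mem {a : W.Point} (ha : a ∉ ι.range) : a ≠ 0 :=
  fun h0 => ha (by rw [h0]; exact zero_mem _)

/-- The translation sums annihilate the ordinate at a point of order two. -/
lemma veluY_eq_zero {a : W.Point} (ha : a ≠ 0) (h : yOf a = 0) : veluY ι a = 0 := by
  rw [veluY_eq ι hk.model hk.inj ha fun x hx =>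
    hk.uOf_ne (hk.not_mem_range_of_yOf_eq_zero ha h) hx, h, zero_mul]

end KernelData

section Torsion

variable (hW : IsModel W A B)

/-- The point `(0, 0)`. -/
def pt0 : W.Point := Point.some 0 0 (hW.nonsingular (by ring))

/-- The point `(A, 0)`. -/
def pt1 : W.Point := Point.some A 0 (hW.nonsingular (by ring))

/-- The point `(-B, 0)`. -/
def pt2 : W.Point := Point.some (-B) 0 (hW.nonsingular (by ring))

end Torsion

variable {M : Type*} [AddCommGroup M] [Fintype M] [DecidableEq M] {ι : M →+ W.Point}

variable (A B) in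
/-- The linear coefficient of the image curve. -/
def veluA4 (ι : M →+ W.Point) : K := -(A * B) - 5 * veluT A B ι

variable (A B) in
/-- The cubic, without constant term, of the image curve. -/
def veluCubic (ι : M →+ W.Point) (X : K) : K := X ^ 3 + (B - A) * X ^ 2 + veluA4 A B ι * X

section Constancy

variable [IsAlgClosed K] (hk : KernelData W A B ι)
include hk

local notation "φ" => constHom W
local notation "WL" => (WeierstrassCurve.toAffine (WeierstrassCurve.map W (constHom W)))
local notation "FF" => FractionRing W.CoordinateRing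

/-- The generic point. -/
noncomputable def genPoint : (WL).Point :=
  Point.some (genU W) (genV W)
    ((Affine.equation_iff_nonsingular_of_Δ_ne_zero (isModel_map (constHom W) hk.model).Δ_ne).mp
      (equation_generic W))

lemma genU_ne (c : K) : genU W ≠ φ c :=
  genU_ne_const (W := W) (x₁ := 0) (y₁ := 0) (x₂ := A) (y₂ := 0)
    ((hk.model.equation_iff _ _).mpr (by ring)) ((hk.model.equation_iff _ _).mpr (by ring))
    hk.model.A_ne.symm c

variable [DecidableEq (FractionRing W.CoordinateRing)]

lemma genPoint_not_mem (c : W.Point) : genPoint hk ≠ pointMap φ c := by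
  intro h
  have := congrArg uOf h
  rw [uOf_pointMap] at this
  exact genU_ne hk _ this

lemma genPoint_not_mem_range : genPoint hk ∉ ((pointMap φ).comp ι).range := by
  rintro ⟨x, hx⟩
  exact genPoint_not_mem hk (ι x) hx.symm

omit [IsAlgClosed K] in
lemma intPoints_map {V : ValuationSubring FF} (hV : ContainsConstants φ V) :
    IntPoints V.valuation ((pointMap φ).comp ι) := fun x _ => by
  simp only [AddMonoidHom.comp_apply, uOf_pointMap, yOf_pointMap]
  exact ⟨hV.le_one _, hV.le_one _⟩

omit [IsAlgClosed K] in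
lemma yOf_map_eq_one {V : ValuationSubring FF} (hV : ContainsConstants φ V) (x : M) (hx : x ≠ 0) :
    V.valuation (yOf ((pointMap φ).comp ι x)) = 1 := by
  rw [AddMonoidHom.comp_apply, yOf_pointMap]
  exact hV.eq_one (hk.yOf_ne_zero hx)

lemma injective_map : Function.Injective ((pointMap φ).comp ι) :=
  (pointMap_injective φ).comp hk.inj

omit [IsAlgClosed K] in
lemma away_const {V : ValuationSubring FF} (hV : ContainsConstants φ V) {a : W.Point}
    (ha : a ∉ ι.range) : Away V.valuation ((pointMap φ).comp ι) (φ (uOf a)) := fun x hx => by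
  rw [AddMonoidHom.comp_apply, uOf_pointMap, ← map_sub]
  exact hV.eq_one (sub_ne_zero_of_ne (hk.uOf_ne ha hx))

/-- The sums at the generic point, specialised at a rational point outside the group. -/
lemma velu_centre {V : ValuationSubring FF} (hV : ContainsConstants φ V) {a : W.Point}
    (ha : a ∉ ι.range) {G : (WL).Point} (hG : G ≠ 0)
    (hu : V.valuation (uOf G - φ (uOf a)) < 1) (hy : V.valuation (yOf G - φ (yOf a)) < 1) :
    V.valuation (veluX ((pointMap φ).comp ι) G - φ (veluX ι a)) < 1 ∧
      V.valuation (veluY ((pointMap φ).comp ι) G - φ (veluY ι a)) < 1 := by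
  have hWL := isModel_map (constHom W) hk.model
  rw [← veluX_pointMap, ← veluY_pointMap]
  refine velu_congr (hV.intCoeff hk.model.two_ne) (intPoints_map hk hV) hWL (injective_map hk) hG
    ?_ ?_ ?_ ?_ ?_
  · intro h0
    exact hk.ne_zero_of_not_mem ha ((pointMap_injective φ) (h0.trans (_root_.map_zero _).symm))
  · rw [uOf_pointMap]; exact hV.le_one _
  · rw [uOf_pointMap]; exact away_const hk hV ha
  · rw [uOf_pointMap]; exact hu
  · rw [yOf_pointMap]; exact hy

/-- The relation holds up to an additive constant. -/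
lemma exists_velu_constant :
    ∃ c : K, ∀ a : W.Point, a ∉ ι.range →
      veluY ι a ^ 2 - veluCubic A B ι (veluX ι a) = c := by
  set ιL := (pointMap φ).comp ι with hιL
  set Z : FF := veluY ιL (genPoint hk) ^ 2 - veluCubic (φ A) (φ B) ιL (veluX ιL (genPoint hk))
    with hZdef
  have hWL := isModel_map (constHom W) hk.model
  have hA4 : ∀ V : ValuationSubring FF, ContainsConstants φ V →
      V.valuation (veluA4 (φ A) (φ B) ιL) ≤ 1 := fun V hV => by
    have hc := hV.intCoeff (A := A) (B := B) hk.model.two_ne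
    refine val_sub_le' (by rw [Valuation.map_neg]; exact val_mul_le' hc.hA hc.hB)
      (val_mul_le' (val_ofNat_le' 5) (veluT_le hc (intPoints_map hk hV)))
  obtain ⟨c, hc⟩ := mem_range_of_forall_mem φ (z := Z) fun V hV => by
    rw [← V.valuation_le_one_iff]
    have hci := hV.intCoeff (A := A) (B := B) hk.model.two_ne
    have hM := intPoints_map hk hV
    rcases translate_or_away hci hM hWL (yOf_map_eq_one hk hV) (genPoint_not_mem_range hk) with
      ⟨x, hx⟩ | ⟨hu, haw⟩
    · have hne : ∀ y : M, y ≠ 0 → uOf (genPoint hk + ιL x) ≠ uOf (ιL y) := fun y hy e =>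
        absurd (hM y hy).1 (not_le.mpr (e ▸ hx))
      have hG0 : genPoint hk + ιL x ≠ 0 := fun h0 => genPoint_not_mem_range hk
        ⟨-x, by rw [map_neg]; exact (eq_neg_of_add_eq_zero_left h0).symm⟩
      rw [hZdef, ← veluX_add ιL (genPoint hk) x, ← veluY_add ιL (genPoint hk) x,
        veluX_eq ιL hWL (injective_map hk) hG0 hne, veluY_eq ιL hWL (injective_map hk) hG0 hne]
      exact relation_le hci hM hx (equation_of hWL _)
    · have hG0 : genPoint hk ≠ 0 := fun h0 => genPoint_not_mem hk 0 (by rw [h0, _root_.map_zero])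
      obtain ⟨-, -, hX, hY⟩ := velu_of_away hci hM hWL (injective_map hk) hG0 hu haw
      exact val_sub_le' (val_pow_le' hY 2) (val_add_le' (val_add_le' (val_pow_le' hX 3)
        (val_mul_le' hci.a₂_le (val_pow_le' hX 2))) (val_mul_le' (hA4 V hV) hX))
  refine ⟨c, fun a ha => ?_⟩
  obtain ⟨hns, ea⟩ := exists_eq_some (hk.ne_zero_of_not_mem ha)
  obtain ⟨V, hV, hu, hy⟩ := exists_centre (W := W) hns.left
  obtain ⟨hX, hY⟩ := velu_centre hk hV ha (G := genPoint hk)
    (fun h0 => genPoint_not_mem hk 0 (by rw [h0, _root_.map_zero])) hu hy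
  have hA4' : veluA4 (φ A) (φ B) ιL = φ (veluA4 A B ι) := by
    simp only [veluA4, hιL, veluT_pointMap, map_sub, map_neg, map_mul, map_ofNat]
  by_contra hne
  have hone := hV.eq_one (c := veluY ι a ^ 2 - veluCubic A B ι (veluX ι a) - c)
    (sub_ne_zero_of_ne hne)
  suffices hlt : V.valuation (φ (veluY ι a ^ 2 - veluCubic A B ι (veluX ι a) - c)) < 1 from
    hlt.ne hone
  rw [map_sub, hc, Valuation.map_sub_swap, hZdef]
  have hXa : V.valuation (φ (veluX ι a)) ≤ 1 := hV.le_one _
  have hYa : V.valuation (φ (veluY ι a)) ≤ 1 := hV.le_one _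
  have hXG : V.valuation (veluX ιL (genPoint hk)) ≤ 1 := by
    rw [← sub_add_cancel (veluX ιL (genPoint hk)) (φ (veluX ι a))]
    exact val_add_le' hX.le hXa
  have hYG : V.valuation (veluY ιL (genPoint hk)) ≤ 1 := by
    rw [← sub_add_cancel (veluY ιL (genPoint hk)) (φ (veluY ι a))]
    exact val_add_le' hY.le hYa
  simp only [veluCubic, hA4', map_sub, map_add, map_mul, map_pow]
  generalize veluX ιL (genPoint hk) = X' at hX hXG ⊢
  generalize veluY ιL (genPoint hk) = Y' at hY hYG ⊢
  rw [show Y' ^ 2 - (X' ^ 3 + (φ B - φ A) * X' ^ 2 + φ (veluA4 A B ι) * X') -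
      (φ (veluY ι a) ^ 2 - (φ (veluX ι a) ^ 3 + (φ B - φ A) * φ (veluX ι a) ^ 2 +
        φ (veluA4 A B ι) * φ (veluX ι a))) =
    (Y' - φ (veluY ι a)) * (Y' + φ (veluY ι a)) - (X' - φ (veluX ι a)) *
      (X' ^ 2 + X' * φ (veluX ι a) + φ (veluX ι a) ^ 2 +
        (φ B - φ A) * (X' + φ (veluX ι a)) + φ (veluA4 A B ι)) by ring]
  refine V.valuation.map_sub_lt ?_ ?_
  · rw [Valuation.map_mul]
    exact (mul_le_of_le_one_right zero_le (val_add_le' hYG hYa)).trans_lt hY
  · rw [Valuation.map_mul]
    refine (mul_le_of_le_one_right zero_le ?_).trans_lt hX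
    exact val_add_le' (val_add_le' (val_add_le' (val_add_le' (val_pow_le' hXG 2)
      (val_mul_le' hXG hXa)) (val_pow_le' hXa 2))
      (val_mul_le' ((hV.intCoeff (A := A) (B := B) hk.model.two_ne).a₂_le)
        (val_add_le' hXG hXa))) (hV.le_one _)

end Constancy

end FLTAgent.IsogenyDescent
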