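import Fermat.Agent.IsogenyDescent.AtInfinity
import Fermat.Agent.IsogenyDescent.Generic

/-!
# Specialisation of the translation sums

At a point of a valued extension field either some translate reduces to the origin, or the point
is `Away` from the group (`translate_or_away`) and all closed forms are integral and depend only
on the reduction (`velu_congr`).
-/

set_option autoImplicit false

namespace FLTAgent.IsogenyDescent

open WeierstrassCurve WeierstrassCurve.Affine WeierstrassCurve.Affine.Point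
open FLTAgent.FreyUnramified

section Valued

variable {F : Type*} [Field F] [DecidableEq F] {W : WeierstrassCurve.Affine F} {A B : F}
  {Γ₀ : Type*} [LinearOrderedCommGroupWithZero Γ₀] {v : Valuation F Γ₀}
  {M : Type*} [AddCommGroup M] [Fintype M] [DecidableEq M] {ι : M →+ W.Point}

lemma val_div_sub_lt {a d d' : F} (ha : v a ≤ 1) (hd : v d = 1) (hd' : v d' = 1)
    (h : v (d - d') < 1) (n : ℕ) : v (a / d ^ n - a / d' ^ n) < 1 := by
  have hd0 : d ≠ 0 := v.ne_zero_iff.mp (by rw [hd]; exact one_ne_zero)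
  have hd0' : d' ≠ 0 := v.ne_zero_iff.mp (by rw [hd']; exact one_ne_zero)
  have hpow : v (d' ^ n - d ^ n) < 1 := by
    rw [← geom_sum₂_mul, map_mul]
    refine lt_of_le_of_lt (mul_le_of_le_one_left zero_le ?_) (v.map_sub_swap d d' ▸ h)
    exact val_sum_le' fun i _ => val_mul_le' (val_pow_le' hd'.le _) (val_pow_le' hd.le _)
  rw [show a / d ^ n - a / d' ^ n = a * (d' ^ n - d ^ n) / (d ^ n * d' ^ n) by field_simp,
    map_div₀, map_mul, map_mul, map_pow, map_pow, hd, hd', one_pow, mul_one, div_one]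
  exact (mul_le_of_le_one_left zero_le ha).trans_lt hpow

/-- `u` avoids the group modulo the maximal ideal. -/
def Away (v : Valuation F Γ₀) (ι : M →+ W.Point) (u : F) : Prop :=
  ∀ x : M, x ≠ 0 → v (u - uOf (ι x)) = 1

omit [Fintype M] [DecidableEq M] in
lemma Away.congr {u u' : F} (h : Away v ι u') (huu : v (u - u') < 1) : Away v ι u := by
  intro x hx
  rw [show u - uOf (ι x) = (u' - uOf (ι x)) + (u - u') by ring,
    v.map_add_eq_of_lt_left (by rwa [h x hx]), h x hx]

variable (hc : IntCoeff v A B) (hM : IntPoints v ι)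
include hc hM

lemma veluR_le_of_away {u : F} (h : Away v ι u) : v (veluR A B ι u) ≤ 1 := by
  refine val_sum_le' fun x hx => ?_
  have hd := h x (Finset.mem_erase.mp hx).1
  refine val_add_le' ?_ ?_
  · rw [map_div₀, hd, div_one]; exact dF_le hc (hM x (Finset.mem_erase.mp hx).1).1
  · rw [map_div₀, map_pow, hd, one_pow, div_one]; exact weight_le hc hM hx

lemma veluS_le_of_away {u : F} (h : Away v ι u) : v (veluS A B ι u) ≤ 1 := by
  refine val_sum_le' fun x hx => ?_
  have hd := h x (Finset.mem_erase.mp hx).1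
  refine val_add_le' ?_ ?_
  · rw [map_div₀, map_pow, hd, one_pow, div_one]; exact dF_le hc (hM x (Finset.mem_erase.mp hx).1).1
  · rw [map_div₀, map_pow, hd, one_pow, div_one]; exact val_mul_le' hc.h2.le (weight_le hc hM hx)

lemma veluR_congr {u u' : F} (h : Away v ι u') (huu : v (u - u') < 1) :
    v (veluR A B ι u - veluR A B ι u') < 1 := by
  have h' := h.congr huu
  rw [veluR, veluR, ← Finset.sum_sub_distrib]
  refine v.map_sum_lt one_ne_zero fun x hx => ?_
  have hx0 := (Finset.mem_erase.mp hx).1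
  have hdd : v ((u - uOf (ι x)) - (u' - uOf (ι x))) < 1 := by rwa [sub_sub_sub_cancel_right]
  rw [add_sub_add_comm]
  refine v.map_add_lt ?_ (val_div_sub_lt (weight_le hc hM hx) (h' x hx0) (h x hx0) hdd 2)
  simpa using val_div_sub_lt (dF_le hc (hM x hx0).1) (h' x hx0) (h x hx0) hdd 1

lemma veluS_congr {u u' : F} (h : Away v ι u') (huu : v (u - u') < 1) :
    v (veluS A B ι u - veluS A B ι u') < 1 := by
  have h' := h.congr huu
  rw [veluS, veluS, ← Finset.sum_sub_distrib]
  refine v.map_sum_lt one_ne_zero fun x hx => ?_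
  have hx0 := (Finset.mem_erase.mp hx).1
  have hdd : v ((u - uOf (ι x)) - (u' - uOf (ι x))) < 1 := by rwa [sub_sub_sub_cancel_right]
  rw [add_sub_add_comm]
  exact v.map_add_lt (val_div_sub_lt (dF_le hc (hM x hx0).1) (h' x hx0) (h x hx0) hdd 2)
    (val_div_sub_lt (val_mul_le' hc.h2.le (weight_le hc hM hx)) (h' x hx0) (h x hx0) hdd 3)

omit hM in
lemma val_yOf_le (hW : IsModel W A B) {G : W.Point} (h : v (uOf G) ≤ 1) : v (yOf G) ≤ 1 := by
  have h' : v (yOf G) ^ 2 ≤ 1 := by
    rw [← map_pow, equation_of hW G]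
    exact val_mul_le' (val_mul_le' h (val_sub_le' h hc.hA)) (val_add_le' h hc.hB)
  exact (pow_le_one_iff_of_nonneg zero_le two_ne_zero).mp h'

/-- Closed forms at an integral point away from the group. -/
lemma velu_of_away (hW : IsModel W A B) (hι : Function.Injective ι) {G : W.Point} (hG : G ≠ 0)
    (hu : v (uOf G) ≤ 1) (h : Away v ι (uOf G)) :
    veluX ι G = uOf G + veluR A B ι (uOf G) ∧
      veluY ι G = yOf G * (1 - veluS A B ι (uOf G)) ∧
      v (veluX ι G) ≤ 1 ∧ v (veluY ι G) ≤ 1 := by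
  have hne : ∀ x : M, x ≠ 0 → uOf G ≠ uOf (ι x) := fun x hx e => by
    have := h x hx
    rw [e, sub_self, _root_.map_zero] at this
    exact zero_ne_one this
  have e1 := veluX_eq ι hW hι hG hne
  have e2 := veluY_eq ι hW hι hG hne
  refine ⟨e1, e2, ?_, ?_⟩
  · rw [e1]; exact val_add_le' hu (veluR_le_of_away hc hM h)
  · rw [e2]
    exact val_mul_le' (val_yOf_le hc hW hu) (val_sub_le' (by simp) (veluS_le_of_away hc hM h))

/-- The sums depend only on the reduction of an integral point away from the group. -/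
lemma velu_congr (hW : IsModel W A B) (hι : Function.Injective ι) {G G' : W.Point} (hG : G ≠ 0)
    (hG' : G' ≠ 0) (hu : v (uOf G') ≤ 1) (h : Away v ι (uOf G'))
    (huu : v (uOf G - uOf G') < 1) (hyy : v (yOf G - yOf G') < 1) :
    v (veluX ι G - veluX ι G') < 1 ∧ v (veluY ι G - veluY ι G') < 1 := by
  have huG : v (uOf G) ≤ 1 := by
    rw [show uOf G = (uOf G - uOf G') + uOf G' by ring]; exact val_add_le' huu.le hu
  obtain ⟨e1, e2, -, -⟩ := velu_of_away hc hM hW hι hG huG (h.congr huu)
  obtain ⟨e1', e2', -, -⟩ := velu_of_away hc hM hW hι hG' hu h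
  constructor
  · rw [e1, e1', add_sub_add_comm]
    exact v.map_add_lt huu (veluR_congr hc hM h huu)
  · rw [e2, e2', show yOf G * (1 - veluS A B ι (uOf G)) - yOf G' * (1 - veluS A B ι (uOf G')) =
      (yOf G - yOf G') * (1 - veluS A B ι (uOf G)) -
        yOf G' * (veluS A B ι (uOf G) - veluS A B ι (uOf G')) by ring]
    refine v.map_sub_lt ?_ ?_
    · rw [map_mul]
      exact (mul_le_of_le_one_right zero_le
        (val_sub_le' (by simp) (veluS_le_of_away hc hM (h.congr huu)))).trans_lt hyy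
    · rw [map_mul]
      exact (mul_le_of_le_one_left zero_le (val_yOf_le hc hW hu)).trans_lt
        (veluS_congr hc hM h huu)

omit [Fintype M] [DecidableEq M] in
/-- A point outside the group has a translate reducing to the origin, or avoids the group modulo
the maximal ideal. -/
lemma translate_or_away (hW : IsModel W A B) (hy1 : ∀ x : M, x ≠ 0 → v (yOf (ι x)) = 1)
    {G : W.Point} (hG : G ∉ ι.range) :
    (∃ x : M, 1 < v (uOf (G + ι x))) ∨ (v (uOf G) ≤ 1 ∧ Away v ι (uOf G)) := by
  rcases lt_or_ge 1 (v (uOf G)) with hu | hu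
  · exact Or.inl ⟨0, by simpa using hu⟩
  by_cases h : Away v ι (uOf G)
  · exact Or.inr ⟨hu, h⟩
  left
  obtain ⟨x, hx⟩ := not_forall.mp h
  obtain ⟨hx0, hd⟩ := Classical.not_imp.mp hx
  obtain ⟨hq, hyq⟩ := hM x hx0
  have hd' : v (uOf G - uOf (ι x)) < 1 := lt_of_le_of_ne (val_sub_le' hu hq) hd
  have hyG := val_yOf_le hc hW hu
  have hprod : v (yOf G - yOf (ι x)) * v (yOf G + yOf (ι x)) < 1 := by
    rw [← map_mul, show (yOf G - yOf (ι x)) * (yOf G + yOf (ι x)) =
      (uOf G - uOf (ι x)) * ((uOf G ^ 2 + uOf G * uOf (ι x) + uOf (ι x) ^ 2) +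
        (B - A) * (uOf G + uOf (ι x)) + -(A * B)) by
      linear_combination equation_of hW G - equation_of hW (ι x), map_mul]
    refine (mul_le_of_le_one_right zero_le ?_).trans_lt hd'
    exact val_add_le' (val_add_le'
      (val_add_le' (val_add_le' (val_pow_le' hu 2) (val_mul_le' hu hq)) (val_pow_le' hq 2))
      (val_mul_le' hc.a₂_le (val_add_le' hu hq))) (by rw [v.map_neg]; exact val_mul_le' hc.hA hc.hB)
  obtain ⟨s, hs0, hs, hys⟩ : ∃ s : M, s ≠ 0 ∧ v (uOf G - uOf (ι s)) < 1 ∧
      v (yOf G - yOf (ι s)) < 1 := by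
    by_cases h1 : v (yOf G - yOf (ι x)) < 1
    · exact ⟨x, hx0, hd', h1⟩
    · refine ⟨-x, neg_ne_zero.mpr hx0, by rwa [map_neg, uOf_neg], ?_⟩
      rw [map_neg, yOf_neg hW, sub_neg_eq_add]
      by_contra h2
      rw [not_lt] at h1 h2
      exact absurd hprod (not_lt.mpr (one_le_mul h1 h2))
  obtain ⟨hns, eG⟩ := exists_eq_some (P := G) (fun h0 => hG (h0 ▸ zero_mem _))
  have hne : ι s ≠ 0 := by
    intro h0
    have := hy1 s hs0
    rw [h0, yOf_zero, _root_.map_zero] at this
    exact zero_ne_one this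
  obtain ⟨hnq, eq'⟩ := exists_eq_some hne
  have hmem := sub_mem_kerReduction hW hc hnq hns
    (fun h1 => absurd (hM s hs0).1 (not_le.mpr h1)) (fun _ => hs) (fun _ => hys)
    (fun _ h1 _ => absurd (hy1 s hs0) h1.ne)
  rw [← eG, ← eq'] at hmem
  refine ⟨-s, ?_⟩
  rw [map_neg, ← sub_eq_add_neg]
  obtain ⟨hns', e'⟩ := exists_eq_some (P := G - ι s) fun h0 => hG ⟨s, (sub_eq_zero.mp h0).symm⟩
  exact hmem _ _ hns' e'

end Valued

section Naturality

variable {K L : Type*} [Field K] [Field L] [DecidableEq K] [DecidableEq L]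
  {W : WeierstrassCurve.Affine K} {A B : K}
  {M : Type*} [AddCommGroup M] [Fintype M] [DecidableEq M] (ι : M →+ W.Point) (φ : K →+* L)

omit [DecidableEq M] in
lemma veluX_pointMap (a : W.Point) :
    veluX ((pointMap φ).comp ι) (pointMap φ a) = φ (veluX ι a) := by
  simp [veluX, ← map_add, map_sub, map_sum]

omit [DecidableEq M] in
lemma veluY_pointMap (a : W.Point) :
    veluY ((pointMap φ).comp ι) (pointMap φ a) = φ (veluY ι a) := by
  simp [veluY, ← map_add, map_sum]

lemma veluT_pointMap :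
    veluT (φ A) (φ B) ((pointMap φ).comp ι) = φ (veluT A B ι) := by
  simp [veluT, dF, map_sum, map_ofNat]

end Naturality

end FLTAgent.IsogenyDescent
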